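import Fermat.Agent.S28.Basic
import Mathlib.RingTheory.RootsOfUnity.PrimitiveRoots

set_option autoImplicit false

noncomputable section

open HahnSeries ModularCurve Polynomial

namespace Fermat.Agent.S28

/-- Evaluate an integer polynomial in `Y` at a Laurent series `y`. -/
def evalY {R : Type*} [CommRing R] (y : LaurentSeries R) : Polynomial ℤ →+* LaurentSeries R :=
  Polynomial.eval₂RingHom (Int.castRingHom (LaurentSeries R)) y

/-- Prime-level modular equation, formal version.  In the variable `u` (with `q = u ^ p`):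
`Φ (X, j(u^p)) = (X - j(u^(p^2))) * ∏_{i<p} (X - j(ζ^i u))`. -/
structure ModularEquation (p : ℕ) [NeZero p] where
  Φ : Polynomial (Polynomial ℤ)
  monic : Φ.Monic
  natDegree_eq : Φ.natDegree = p + 1
  factor : ∀ {R : Type} [CommRing R] [IsDomain R] (ζ : Rˣ), IsPrimitiveRoot ζ p →
    Φ.map (evalY (qExpand R p (jqModC R))) =
      (X - Polynomial.C (qExpand R (p ^ 2) (jqModC R))) *
        ∏ i ∈ Finset.range p, (X - Polynomial.C (twist (ζ ^ i) (jqModC R)))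

/-- The polynomial `X^(r+1) * P(c / X)` attached to `P` of degree `r + 1`. -/
def dagger (r : ℕ) (c : ℤ) (P : Polynomial ℤ) : Polynomial ℤ :=
  ∑ i ∈ Finset.range (r + 2), Polynomial.C (P.coeff i * c ^ i) * X ^ (r + 1 - i)

/-- Hauptmodul data at a genus-zero prime level `r`:
`j(q) t^r = P(t)` and `j(q^r) c^r t = X^(r+1) P(c/X) |_{X = t}`. -/
structure Hauptmodul (r : ℕ) [NeZero r] where
  u : PowerSeries ℤ
  constantCoeff_u : PowerSeries.constantCoeff u = 1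
  u_ne_one : ∀ ℓ : ℕ, ℓ.Prime → ℓ ≠ r → u.map (Int.castRingHom (ZMod ℓ)) ≠ 1
  P : Polynomial ℤ
  P_monic : P.Monic
  P_natDegree : P.natDegree = r + 1
  c : ℤ
  c_eq : ∃ a : ℕ, c = (r : ℤ) ^ a
  P_eval_zero : ∃ b : ℕ, P.eval 0 = (r : ℤ) ^ b
  h1 : jqModC ℤ * (HahnSeries.single (-1 : ℤ) (1 : ℤ) * HahnSeries.ofPowerSeries ℤ ℤ u) ^ r =
    Polynomial.aeval (HahnSeries.single (-1 : ℤ) (1 : ℤ) * HahnSeries.ofPowerSeries ℤ ℤ u) P
  h2 : qExpand ℤ r (jqModC ℤ) * HahnSeries.C (c ^ r) *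
      (HahnSeries.single (-1 : ℤ) (1 : ℤ) * HahnSeries.ofPowerSeries ℤ ℤ u) =
    Polynomial.aeval (HahnSeries.single (-1 : ℤ) (1 : ℤ) * HahnSeries.ofPowerSeries ℤ ℤ u)
      (dagger r c P)

/-- The Hauptmodul series `t = q⁻¹ u(q)`. -/
def Hauptmodul.t {r : ℕ} [NeZero r] (H : Hauptmodul r) : LaurentSeries ℤ :=
  HahnSeries.single (-1 : ℤ) (1 : ℤ) * HahnSeries.ofPowerSeries ℤ ℤ H.u

end Fermat.Agent.S28
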