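import Mathlib
import Fermat.Agent.S28.Defs

/-!
# WP-L of P-S28: a toolkit for Laurent series `LaurentSeries R = HahnSeries ℤ R`

* `twist ζ` : the ring automorphism `f(u) ↦ f(ζ u)` for a unit `ζ`;
* `qExpand R N` (Prelude, `f(u) ↦ f(u^N)`): range, orders, interaction with `twist`;
* fixed points of `twist ζ` for a primitive `N`-th root of unity `ζ` are the range of `qExpand R N`;
* the ground field is algebraically closed in `k((u))`; series with a pole are transcendental.
-/

set_option autoImplicit false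

noncomputable section

namespace Fermat.Agent.S28

open HahnSeries ModularCurve

section Twist

variable {R : Type*} [CommRing R]

theorem twist_pow (ζ : Rˣ) (m : ℕ) (f : LaurentSeries R) :
    (twist ζ)^[m] f = twist (ζ ^ m) f := by
  induction m with
  | zero => simp [twist_one]
  | succ m ih => rw [Function.iterate_succ_apply', ih, twist_twist, pow_succ']

/-- `twist ζ` as a ring automorphism. -/
def twistEquiv (ζ : Rˣ) : LaurentSeries R ≃+* LaurentSeries R :=
  { twist ζ with
    invFun := twist ζ⁻¹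
    left_inv := fun f => by
      show twist ζ⁻¹ (twist ζ f) = f
      rw [twist_twist, inv_mul_cancel, twist_one]
    right_inv := fun f => by
      show twist ζ (twist ζ⁻¹ f) = f
      rw [twist_twist, mul_inv_cancel, twist_one] }

@[simp]
theorem twistEquiv_apply (ζ : Rˣ) (f : LaurentSeries R) : twistEquiv ζ f = twist ζ f := rfl

@[simp]
theorem twistEquiv_symm_apply (ζ : Rˣ) (f : LaurentSeries R) :
    (twistEquiv ζ).symm f = twist ζ⁻¹ f := rfl

theorem twist_surjective (ζ : Rˣ) : Function.Surjective (twist (R := R) ζ) :=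
  (twistEquiv ζ).surjective

@[simp]
theorem twist_support (ζ : Rˣ) (f : LaurentSeries R) : (twist ζ f).support = f.support :=
  support_twistFun ζ f

@[simp]
theorem twist_eq_zero_iff (ζ : Rˣ) (f : LaurentSeries R) : twist ζ f = 0 ↔ f = 0 :=
  map_eq_zero_iff _ (twist_injective ζ)

@[simp]
theorem twist_orderTop (ζ : Rˣ) (f : LaurentSeries R) : (twist ζ f).orderTop = f.orderTop := by
  by_cases hf : f = 0
  · subst hf; simp
  · have hf' : twist ζ f ≠ 0 := by simpa using hf
    rw [HahnSeries.orderTop_of_ne_zero hf, HahnSeries.orderTop_of_ne_zero hf']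
    congr 1
    simp only [twist_support]

@[simp]
theorem twist_order (ζ : Rˣ) (f : LaurentSeries R) : (twist ζ f).order = f.order := by
  by_cases hf : f = 0
  · subst hf; simp
  · have hf' : twist ζ f ≠ 0 := by simpa using hf
    have h := twist_orderTop ζ f
    rw [← HahnSeries.order_eq_orderTop_of_ne_zero hf,
      ← HahnSeries.order_eq_orderTop_of_ne_zero hf'] at h
    exact_mod_cast h

end Twist

section QExpand

variable {R : Type*} [CommRing R] (N : ℕ) [NeZero N]

/-- The series `g` with `g(u^N) = f(u)`, when `f` is supported on multiples of `N`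
(junk otherwise: it keeps the coefficients at the multiples of `N`). -/
def qContract (f : LaurentSeries R) : LaurentSeries R :=
  HahnSeries.ofSuppBddBelow (fun k : ℤ => f.coeff ((N : ℤ) * k)) (by
    have hN : (0 : ℤ) < N := by exact_mod_cast Nat.pos_of_ne_zero (NeZero.ne N)
    show BddBelow _
    refine ⟨min f.order 0, fun k hk => ?_⟩
    simp only [Function.mem_support, ne_eq] at hk
    have h1 : f.order ≤ (N : ℤ) * k := by
      by_contra hlt
      exact hk (HahnSeries.coeff_eq_zero_of_lt_order (not_le.mp hlt))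
    by_contra hlt
    rw [not_le, lt_min_iff] at hlt
    have h2 : (N : ℤ) * k ≤ k := by nlinarith [hlt.2]
    linarith [hlt.1])

@[simp]
theorem qContract_coeff (f : LaurentSeries R) (k : ℤ) :
    (qContract N f).coeff k = f.coeff ((N : ℤ) * k) := by
  unfold qContract
  exact congrFun HahnSeries.coeff_ofSuppBddBelow k

@[simp]
theorem qContract_qExpand (f : LaurentSeries R) : qContract N (qExpand R N f) = f := by
  ext k
  rw [qContract_coeff, qExpand_coeff_mul]

theorem qExpand_qContract {f : LaurentSeries R} (hf : ∀ k : ℤ, ¬ (N : ℤ) ∣ k → f.coeff k = 0) :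
    qExpand R N (qContract N f) = f := by
  ext k
  by_cases hk : (N : ℤ) ∣ k
  · obtain ⟨m, rfl⟩ := hk
    rw [qExpand_coeff_mul, qContract_coeff]
  · rw [qExpand_coeff_of_not_dvd N _ hk, hf k hk]

/-- The range of `f(u) ↦ f(u^N)`: series supported on multiples of `N`. -/
theorem mem_range_qExpand_iff {f : LaurentSeries R} :
    f ∈ Set.range (qExpand R N) ↔ ∀ k : ℤ, ¬ (N : ℤ) ∣ k → f.coeff k = 0 := by
  constructor
  · rintro ⟨g, rfl⟩ k hk
    exact qExpand_coeff_of_not_dvd N g hk
  · intro hf
    exact ⟨qContract N f, qExpand_qContract N hf⟩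

theorem qExpand_eq_zero_iff (f : LaurentSeries R) : qExpand R N f = 0 ↔ f = 0 :=
  map_eq_zero_iff _ (qExpand_injective N)

theorem qExpand_support (f : LaurentSeries R) :
    (qExpand R N f).support = (fun k : ℤ => (N : ℤ) * k) '' f.support := by
  ext k
  simp only [HahnSeries.mem_support, Set.mem_image]
  constructor
  · intro hk
    by_cases hdvd : (N : ℤ) ∣ k
    · obtain ⟨m, rfl⟩ := hdvd
      rw [qExpand_coeff_mul] at hk
      exact ⟨m, hk, rfl⟩
    · exact absurd (qExpand_coeff_of_not_dvd N f hdvd) hk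
  · rintro ⟨m, hm, rfl⟩
    rwa [qExpand_coeff_mul]

theorem qExpand_orderTop (f : LaurentSeries R) :
    (qExpand R N f).orderTop = (N : ℤ) * f.orderTop := by
  have hN : (0 : ℤ) < N := by exact_mod_cast Nat.pos_of_ne_zero (NeZero.ne N)
  by_cases hf : f = 0
  · subst hf
    rw [map_zero, HahnSeries.orderTop_zero, WithTop.mul_top]
    exact_mod_cast hN.ne'
  · have hf' : qExpand R N f ≠ 0 := by rwa [Ne, qExpand_eq_zero_iff]
    obtain ⟨m, hm⟩ := WithTop.ne_top_iff_exists.mp (HahnSeries.orderTop_ne_top.mpr hf)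
    have hm' : m = f.order := by
      rw [← WithTop.coe_eq_coe, hm, HahnSeries.order_eq_orderTop_of_ne_zero hf]
    rw [← hm, ← WithTop.coe_mul]
    have hcoeff : f.coeff m ≠ 0 := by
      rw [hm']; exact fun h => hf (HahnSeries.coeff_order_eq_zero.mp h)
    apply le_antisymm
    · exact HahnSeries.orderTop_le_of_coeff_ne_zero (by rwa [qExpand_coeff_mul])
    · refine HahnSeries.le_orderTop_iff_forall.mpr ?_
      intro k hk
      by_cases hdvd : (N : ℤ) ∣ k
      · obtain ⟨c, rfl⟩ := hdvd
        rw [qExpand_coeff_mul]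
        have hc : c < m := by
          have : (N : ℤ) * c < (N : ℤ) * m := by exact_mod_cast hk
          exact lt_of_mul_lt_mul_left this hN.le
        exact HahnSeries.coeff_eq_zero_of_lt_order (hm' ▸ hc)
      · exact qExpand_coeff_of_not_dvd N f hdvd

theorem qExpand_order (f : LaurentSeries R) :
    (qExpand R N f).order = (N : ℤ) * f.order := by
  by_cases hf : f = 0
  · subst hf; simp
  · have hf' : qExpand R N f ≠ 0 := by rwa [Ne, qExpand_eq_zero_iff]
    have h := qExpand_orderTop N f
    rw [← HahnSeries.order_eq_orderTop_of_ne_zero hf,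
      ← HahnSeries.order_eq_orderTop_of_ne_zero hf'] at h
    exact_mod_cast h

end QExpand

section Fixed

variable {R : Type*} [CommRing R] [IsDomain R] (N : ℕ) [NeZero N]

/-- For a primitive `N`-th root of unity `ζ`, the series fixed by `u ↦ ζ u` are exactly the
series in `u^N`. -/
theorem twist_eq_self_iff {ζ : Rˣ} (hζ : IsPrimitiveRoot ζ N) (f : LaurentSeries R) :
    twist ζ f = f ↔ f ∈ Set.range (qExpand R N) := by
  constructor
  · intro h
    rw [mem_range_qExpand_iff]
    intro k hk
    have hc := congrArg (fun g : LaurentSeries R => g.coeff k) h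
    simp only [twist_coeff] at hc
    have hne : ((ζ ^ k : Rˣ) : R) ≠ 1 := by
      intro h1
      apply hk
      rw [← hζ.zpow_eq_one_iff_dvd]
      exact Units.ext h1
    have h2 : (((ζ ^ k : Rˣ) : R) - 1) * f.coeff k = 0 := by
      rw [sub_mul, hc, one_mul, sub_self]
    rcases mul_eq_zero.mp h2 with h3 | h3
    · exact absurd (sub_eq_zero.mp h3) hne
    · exact h3
  · rintro ⟨g, rfl⟩
    exact twist_qExpand_of_pow_eq_one ζ N hζ.pow_eq_one g

/-- A polynomial over `R((u))` all of whose coefficients are fixed by `u ↦ ζ u` (`ζ` a primitive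
`N`-th root of unity) comes from a polynomial over `R((u^N))`. -/
theorem exists_map_qExpand_eq_of_map_twist_eq {ζ : Rˣ} (hζ : IsPrimitiveRoot ζ N)
    {P : Polynomial (LaurentSeries R)} (hP : P.map (twist ζ) = P) :
    ∃ Q : Polynomial (LaurentSeries R), Q.map (qExpand R N) = P := by
  have hmem : P ∈ Polynomial.lifts (qExpand R N) := by
    rw [Polynomial.lifts_iff_coeff_lifts]
    intro n
    rw [← twist_eq_self_iff N hζ]
    conv_rhs => rw [← hP]
    rw [Polynomial.coeff_map]
  obtain ⟨Q, hQ⟩ := (Polynomial.mem_lifts _).mp hmem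
  exact ⟨Q, hQ⟩

/-- The polynomial `∏_{i<N} (X - b(ζ^i u))` has coefficients in `R((u^N))`. -/
theorem exists_map_qExpand_eq_prod_twist {ζ : Rˣ} (hζ : IsPrimitiveRoot ζ N)
    (b : LaurentSeries R) :
    ∃ Q : Polynomial (LaurentSeries R), Q.map (qExpand R N) =
      ∏ i ∈ Finset.range N, (Polynomial.X - Polynomial.C (twist (ζ ^ i) b)) := by
  apply exists_map_qExpand_eq_of_map_twist_eq N hζ
  rw [Polynomial.map_prod]
  simp only [Polynomial.map_sub, Polynomial.map_X, Polynomial.map_C, twist_twist]
  -- reindex `i ↦ i + 1 mod N`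
  have hN : 0 < N := Nat.pos_of_ne_zero (NeZero.ne N)
  have key : ∀ i : ℕ, ζ * ζ ^ i = ζ ^ ((i + 1) % N) := by
    intro i
    rw [← pow_succ', ← Nat.mod_add_div (i + 1) N, _root_.pow_add, pow_mul, hζ.pow_eq_one, one_pow,
      mul_one, Nat.mod_add_div]
  simp only [key]
  refine Finset.prod_bij' (fun i _ => (i + 1) % N) (fun i _ => (i + (N - 1)) % N)
    ?_ ?_ ?_ ?_ ?_
  · intro i _; exact Finset.mem_range.mpr (Nat.mod_lt _ hN)
  · intro i _; exact Finset.mem_range.mpr (Nat.mod_lt _ hN)
  · intro i hi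
    have hi' := Finset.mem_range.mp hi
    simp only [Nat.mod_add_mod]
    rw [show i + 1 + (N - 1) = i + N by omega, Nat.add_mod_right, Nat.mod_eq_of_lt hi']
  · intro i hi
    have hi' := Finset.mem_range.mp hi
    simp only [Nat.mod_add_mod]
    rw [show i + (N - 1) + 1 = i + N by omega, Nat.add_mod_right, Nat.mod_eq_of_lt hi']
  · intro i _; rfl

end Fixed

section Transcendental

variable {k : Type*} [Field k]

/-- Coefficients of a scalar multiple, for the `k`-algebra structure on `k((u))`. -/
theorem coeff_algebraMap_mul (c : k) (g : LaurentSeries k) (a : ℤ) :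
    (algebraMap k (LaurentSeries k) c * g).coeff a = c * g.coeff a := by
  rw [algebraMap_laurentSeries_eq_single, HahnSeries.coeff_single_zero_mul]

/-- A Laurent series with a pole is transcendental over the field of constants. -/
theorem transcendental_of_order_neg {f : LaurentSeries k} (hf : f.order < 0) :
    Transcendental k f := by
  have hf0 : f ≠ 0 := by
    rintro rfl
    simp at hf
  intro halg
  obtain ⟨P, hP0, hP⟩ := halg
  set n := P.natDegree with hn
  set m := f.order with hm
  have hcoeff : (Polynomial.aeval f P).coeff ((n : ℤ) * m) ≠ 0 := by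
    rw [Polynomial.aeval_eq_sum_range, HahnSeries.coeff_sum, Finset.sum_eq_single_of_mem n
      (Finset.mem_range.mpr (Nat.lt_succ_self n))]
    · rw [Algebra.smul_def, coeff_algebraMap_mul]
      refine mul_ne_zero (Polynomial.leadingCoeff_ne_zero.mpr hP0) ?_
      have h1 : (f ^ n).order = (n : ℤ) * m := by
        rw [HahnSeries.order_pow, nsmul_eq_mul]
      rw [← h1]
      exact fun h => (pow_ne_zero n hf0) (HahnSeries.coeff_order_eq_zero.mp h)
    · intro i hi hin
      have hi' : i < n := lt_of_le_of_ne (Nat.lt_succ_iff.mp (Finset.mem_range.mp hi)) hin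
      rw [Algebra.smul_def, coeff_algebraMap_mul]
      have h1 : (f ^ i).order = (i : ℤ) * m := by
        rw [HahnSeries.order_pow, nsmul_eq_mul]
      have h2 : (n : ℤ) * m < (f ^ i).order := by
        rw [h1]
        exact mul_lt_mul_of_neg_right (by exact_mod_cast hi') hf
      rw [HahnSeries.coeff_eq_zero_of_lt_order h2, mul_zero]
  exact hcoeff (by rw [hP]; simp)


/-- `HahnSeries.C` is the algebra map for the (default) `k`-algebra structure on `k((u))`. -/
theorem C_eq_algebraMap_laurent (c : k) :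
    (HahnSeries.C c : LaurentSeries k) = algebraMap k (LaurentSeries k) c := by
  rw [algebraMap_laurentSeries_eq_single, HahnSeries.C_apply]

theorem order_inv (f : LaurentSeries k) : f⁻¹.order = -f.order := by
  by_cases hf : f = 0
  · subst hf; simp
  · have h := HahnSeries.order_mul hf (inv_ne_zero hf)
    rw [mul_inv_cancel₀ hf, HahnSeries.order_one] at h
    linarith

/-- A nonzero Laurent series of nonzero order is transcendental over the constants. -/
theorem transcendental_of_order_ne_zero {f : LaurentSeries k} (hf : f.order ≠ 0) :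
    Transcendental k f := by
  rcases lt_or_gt_of_ne hf with h | h
  · exact transcendental_of_order_neg h
  · intro halg
    have h' : f⁻¹.order < 0 := by rw [order_inv]; linarith
    exact transcendental_of_order_neg h' halg.inv

/-- The field of constants `k` is algebraically closed in `k((u))`. -/
theorem eq_C_of_isAlgebraic {f : LaurentSeries k} (hf : IsAlgebraic k f) :
    ∃ c : k, f = HahnSeries.C c := by
  refine ⟨f.coeff 0, ?_⟩
  set g := f - HahnSeries.C (f.coeff 0) with hg
  have hgalg : IsAlgebraic k g := by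
    rw [hg, C_eq_algebraMap_laurent]
    exact hf.sub (isAlgebraic_algebraMap _)
  by_contra hne
  have hg0 : g ≠ 0 := fun h => hne (sub_eq_zero.mp h)
  have hgc : g.coeff 0 = 0 := by
    rw [hg, HahnSeries.coeff_sub, HahnSeries.C_apply, HahnSeries.coeff_single_same, sub_self]
  have hord : g.order ≠ 0 := by
    intro h0
    apply hg0
    rw [← HahnSeries.coeff_order_eq_zero, h0, hgc]
  exact transcendental_of_order_ne_zero hord hgalg

theorem isAlgebraic_iff_exists_eq_C {f : LaurentSeries k} :
    IsAlgebraic k f ↔ ∃ c : k, f = HahnSeries.C c := by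
  refine ⟨eq_C_of_isAlgebraic, ?_⟩
  rintro ⟨c, rfl⟩
  rw [C_eq_algebraMap_laurent]
  exact isAlgebraic_algebraMap _

theorem jqModC_coeff_neg_one (R : Type*) [CommRing R] : (jqModC R).coeff (-1) = 1 := by
  rw [jqModC, HahnSeries.coeff_single_mul, one_mul, sub_neg_eq_add, neg_add_cancel,
    show (0 : ℤ) = ((0 : ℕ) : ℤ) from rfl, HahnSeries.ofPowerSeries_apply_coeff,
    PowerSeries.coeff_map, PowerSeries.coeff_zero_eq_constantCoeff, constantCoeff_jNum]
  simp

theorem jqModC_coeff_of_lt (R : Type*) [CommRing R] {n : ℤ} (hn : n < -1) :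
    (jqModC R).coeff n = 0 := by
  rw [jqModC, HahnSeries.coeff_single_mul, one_mul]
  exact ofPowerSeries_coeff_of_neg _ (by omega)

theorem jqModC_ne_zero (R : Type*) [CommRing R] [Nontrivial R] : jqModC R ≠ 0 := fun h => by
  have := jqModC_coeff_neg_one R
  rw [h] at this
  simp at this

theorem jqModC_order (R : Type*) [CommRing R] [Nontrivial R] : (jqModC R).order = -1 := by
  apply le_antisymm
  · exact HahnSeries.order_le_of_coeff_ne_zero (by rw [jqModC_coeff_neg_one]; exact one_ne_zero)
  · rw [HahnSeries.le_order_iff_forall (jqModC_ne_zero R)]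
    intro n hn
    exact jqModC_coeff_of_lt R hn

theorem transcendental_jqModC : Transcendental k (jqModC k) :=
  transcendental_of_order_neg (by rw [jqModC_order]; norm_num)

theorem transcendental_jqNModC (N : ℕ) [NeZero N] : Transcendental k (jqNModC k N) := by
  apply transcendental_of_order_neg
  rw [jqNModC, qExpand_order, jqModC_order]
  have hN : (0 : ℤ) < N := by exact_mod_cast Nat.pos_of_ne_zero (NeZero.ne N)
  linarith

end Transcendental

section NotMem

variable {R : Type*} [CommRing R]

/-- If `M` is prime to `p`, then `f(u^M)` is a series in `u^p` only if `f` is. -/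
theorem mem_range_qExpand_of_qExpand_mem {M p : ℕ} [NeZero M] [NeZero p] (hMp : Nat.Coprime M p)
    {f : LaurentSeries R} (h : qExpand R M f ∈ Set.range (qExpand R p)) :
    f ∈ Set.range (qExpand R p) := by
  rw [mem_range_qExpand_iff] at h ⊢
  intro n hn
  have h1 := h ((M : ℤ) * n) (fun hdvd => hn ?_)
  · rwa [qExpand_coeff_mul] at h1
  · have hcop : IsCoprime (p : ℤ) (M : ℤ) := by
      exact_mod_cast (Nat.isCoprime_iff_coprime.mpr hMp.symm)
    exact hcop.dvd_of_dvd_mul_left hdvd

/-- A series with a nonzero coefficient at an exponent prime to `p` is not a series in `u^p`. -/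
theorem not_mem_range_qExpand_of_coeff_ne_zero {p : ℕ} [NeZero p] {f : LaurentSeries R} {n : ℤ}
    (hn : ¬ (p : ℤ) ∣ n) (hf : f.coeff n ≠ 0) : f ∉ Set.range (qExpand R p) := fun h =>
  hf ((mem_range_qExpand_iff p).mp h n hn)

/-- `j(u)` is not a series in `u^p` for `p > 1`. -/
theorem jqModC_not_mem_range_qExpand [Nontrivial R] {p : ℕ} [NeZero p] (hp : 1 < p) :
    jqModC R ∉ Set.range (qExpand R p) := by
  refine not_mem_range_qExpand_of_coeff_ne_zero (n := -1) ?_ ?_
  · rw [Int.dvd_neg]
    intro h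
    have := Int.le_of_dvd one_pos h
    omega
  · rw [jqModC_coeff_neg_one]; exact one_ne_zero

/-- `j(q^(1/p)) ∉ k((q^(1/M)))` for `p` prime to `M`, inside `k((u))` with `u = q^(1/(pM))`. -/
theorem jqNModC_not_mem_range_qExpand [Nontrivial R] {M p : ℕ} [NeZero M] [NeZero p]
    (hp : 1 < p) (hMp : Nat.Coprime M p) : jqNModC R M ∉ Set.range (qExpand R p) := fun h =>
  jqModC_not_mem_range_qExpand hp (mem_range_qExpand_of_qExpand_mem hMp h)

end NotMem

section Average

variable {R : Type*} [CommRing R]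

/-- A root of the `p`-th cyclotomic polynomial (`p` prime) satisfies `ζ^p = 1`. -/
theorem pow_eq_one_of_cyclotomic_eval {p : ℕ} (hp : p.Prime) {ζ : R}
    (hζ : (Polynomial.cyclotomic p R).eval ζ = 0) : ζ ^ p = 1 := by
  have := Fact.mk hp
  have h : (Polynomial.X ^ p - 1 : Polynomial R) =
      Polynomial.cyclotomic p R * (Polynomial.X - 1) := by
    have := Polynomial.cyclotomic_prime_mul_X_sub_one R p
    rw [this]
  have h2 := congrArg (Polynomial.eval ζ) h
  simp only [Polynomial.eval_sub, Polynomial.eval_pow, Polynomial.eval_X, Polynomial.eval_one,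
    Polynomial.eval_mul, hζ, zero_mul] at h2
  exact sub_eq_zero.mp h2

/-- Multiplication by `m` prime to `p` permutes the residues mod `p`. -/
theorem sum_range_mul_mod {M : Type*} [AddCommMonoid M] {p m : ℕ} (hp : 0 < p)
    (hm : Nat.Coprime m p) (g : ℕ → M) :
    ∑ i ∈ Finset.range p, g ((i * m) % p) = ∑ j ∈ Finset.range p, g j := by
  have hinj : Set.InjOn (fun i => (i * m) % p) (Finset.range p : Set ℕ) := by
    intro i hi j hj hij
    have hi' : i < p := Finset.mem_range.mp hi
    have hj' : j < p := Finset.mem_range.mp hj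
    have h1 : i * m ≡ j * m [MOD p] := hij
    have h2 : i ≡ j [MOD p] := Nat.ModEq.cancel_right_of_coprime (Nat.Coprime.symm hm) h1
    exact Nat.ModEq.eq_of_lt_of_lt h2 hi' hj'
  have himg : (Finset.range p).image (fun i => (i * m) % p) = Finset.range p := by
    apply Finset.eq_of_subset_of_card_le
    · intro j hj
      obtain ⟨i, _, rfl⟩ := Finset.mem_image.mp hj
      exact Finset.mem_range.mpr (Nat.mod_lt _ hp)
    · rw [Finset.card_image_of_injOn hinj]
  conv_rhs => rw [← himg]
  rw [Finset.sum_image hinj]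

/-- Sum of the powers `(ζ^i)^n`, `i < p`, for a root `ζ` of the `p`-th cyclotomic polynomial:
it is `p` if `p ∣ n` and `0` otherwise. -/
theorem sum_zpow_of_cyclotomic_eval {p : ℕ} (hp : p.Prime) {ζ : Rˣ}
    (hζ : (Polynomial.cyclotomic p R).eval (ζ : R) = 0) (n : ℤ) :
    ∑ i ∈ Finset.range p, (((ζ ^ i) ^ n : Rˣ) : R) = if (p : ℤ) ∣ n then (p : R) else 0 := by
  have hζp : ζ ^ p = 1 := Units.ext (by simpa using pow_eq_one_of_cyclotomic_eval hp hζ)
  have hp0 : (0 : ℤ) < p := by exact_mod_cast hp.pos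
  set m : ℕ := (n % p).toNat with hm
  have hm_nonneg : 0 ≤ n % p := Int.emod_nonneg _ hp0.ne'
  have hm_cast : (m : ℤ) = n % p := Int.toNat_of_nonneg hm_nonneg
  have hm_lt : m < p := by
    have : (m : ℤ) < p := by rw [hm_cast]; exact Int.emod_lt_of_pos _ hp0
    exact_mod_cast this
  have hzn : ζ ^ n = ζ ^ m := by
    conv_lhs => rw [← Int.mul_ediv_add_emod n p]
    rw [zpow_add, zpow_mul, zpow_natCast, hζp, one_zpow, one_mul, ← hm_cast, zpow_natCast]
  have hterm : ∀ i : ℕ, ((ζ ^ i) ^ n : Rˣ) = ζ ^ ((i * m) % p) := by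
    intro i
    rw [← zpow_natCast ζ i, ← zpow_mul, mul_comm, zpow_mul, hzn, zpow_natCast, ← pow_mul,
      mul_comm m i]
    exact pow_eq_pow_mod _ hζp
  simp only [hterm]
  split_ifs with hdvd
  · have hm0 : m = 0 := by
      have : (m : ℤ) = 0 := by rw [hm_cast]; exact Int.emod_eq_zero_of_dvd hdvd
      exact_mod_cast this
    simp [hm0]
  · have hm0 : m ≠ 0 := by
      intro h0
      apply hdvd
      apply Int.dvd_of_emod_eq_zero
      rw [← hm_cast, h0]; rfl
    have hcop : Nat.Coprime m p :=
      ((Nat.Prime.coprime_iff_not_dvd hp).2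
        (Nat.not_dvd_of_pos_of_lt (Nat.pos_of_ne_zero hm0) hm_lt)).symm
    rw [sum_range_mul_mod hp.pos hcop (fun j => ((ζ ^ j : Rˣ) : R))]
    have := Fact.mk hp
    rw [Polynomial.cyclotomic_prime, Polynomial.eval_finsetSum] at hζ
    simpa using hζ

/-- **Averaging over the twists**: `∑_{i<p} f(ζ^i u) = p • g(u^p)` where `g` collects the
coefficients of `f` at the multiples of `p`. -/
theorem sum_twist_pow_eq {p : ℕ} [NeZero p] (hp : p.Prime) {ζ : Rˣ}
    (hζ : (Polynomial.cyclotomic p R).eval (ζ : R) = 0) (f : LaurentSeries R) :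
    ∑ i ∈ Finset.range p, twist (ζ ^ i) f = (p : ℕ) • qExpand R p (qContract p f) := by
  ext n
  rw [HahnSeries.coeff_sum, HahnSeries.coeff_smul]
  simp only [twist_coeff]
  rw [← Finset.sum_mul, sum_zpow_of_cyclotomic_eval hp hζ n]
  split_ifs with hdvd
  · obtain ⟨c, rfl⟩ := hdvd
    rw [qExpand_coeff_mul, qContract_coeff, nsmul_eq_mul]
  · rw [qExpand_coeff_of_not_dvd p _ hdvd, zero_mul, smul_zero]

end Average

section Subst

variable {R : Type*} [CommRing R]

/-- The substitution `f(u) ↦ f(ξ u^c)` on Laurent series. -/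
def subst (ξ : Rˣ) (c : ℕ) [NeZero c] : LaurentSeries R →+* LaurentSeries R :=
  (qExpand R c).comp (twist ξ)

theorem subst_apply (ξ : Rˣ) (c : ℕ) [NeZero c] (f : LaurentSeries R) :
    subst ξ c f = qExpand R c (twist ξ f) := rfl

theorem subst_coeff_mul (ξ : Rˣ) (c : ℕ) [NeZero c] (f : LaurentSeries R) (n : ℤ) :
    (subst ξ c f).coeff ((c : ℤ) * n) = ((ξ ^ n : Rˣ) : R) * f.coeff n := by
  rw [subst_apply, qExpand_coeff_mul, twist_coeff]

theorem subst_coeff_of_not_dvd (ξ : Rˣ) (c : ℕ) [NeZero c] (f : LaurentSeries R) {n : ℤ}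
    (hn : ¬ (c : ℤ) ∣ n) : (subst ξ c f).coeff n = 0 := by
  rw [subst_apply, qExpand_coeff_of_not_dvd c _ hn]

theorem subst_injective (ξ : Rˣ) (c : ℕ) [NeZero c] :
    Function.Injective (subst (R := R) ξ c) :=
  (qExpand_injective c).comp (twist_injective ξ)

theorem subst_one_right (ξ : Rˣ) (f : LaurentSeries R) : subst ξ 1 f = twist ξ f := by
  rw [subst_apply, qExpand_one_apply]

theorem subst_one_left (c : ℕ) [NeZero c] (f : LaurentSeries R) :
    subst (1 : Rˣ) c f = qExpand R c f := by
  rw [subst_apply, twist_one]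

@[simp]
theorem subst_one_one (f : LaurentSeries R) : subst (1 : Rˣ) 1 f = f := by
  rw [subst_one_right, twist_one]

theorem subst_qExpand (ξ : Rˣ) (c m : ℕ) [NeZero c] [NeZero m] (f : LaurentSeries R) :
    subst ξ c (qExpand R m f) = subst (ξ ^ m) (c * m) f := by
  rw [subst_apply, subst_apply, twist_qExpand, qExpand_qExpand]

theorem qExpand_subst (ξ : Rˣ) (c m : ℕ) [NeZero c] [NeZero m] (f : LaurentSeries R) :
    qExpand R m (subst ξ c f) = subst ξ (m * c) f := by
  rw [subst_apply, subst_apply, qExpand_qExpand]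

theorem subst_twist (ξ η : Rˣ) (c : ℕ) [NeZero c] (f : LaurentSeries R) :
    subst ξ c (twist η f) = subst (ξ * η) c f := by
  rw [subst_apply, subst_apply, twist_twist]

theorem twist_subst (ξ η : Rˣ) (c : ℕ) [NeZero c] (f : LaurentSeries R) :
    twist η (subst ξ c f) = subst (η ^ c * ξ) c f := by
  rw [subst_apply, subst_apply, twist_qExpand, twist_twist]

theorem subst_subst (ξ η : Rˣ) (c d : ℕ) [NeZero c] [NeZero d] (f : LaurentSeries R) :
    subst ξ c (subst η d f) = subst (ξ ^ d * η) (c * d) f := by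
  rw [subst_apply η d, subst_qExpand, subst_twist]

theorem subst_C (ξ : Rˣ) (c : ℕ) [NeZero c] (r : R) :
    subst ξ c (HahnSeries.C r) = HahnSeries.C r := by
  rw [subst_apply, twist_C, qExpand_C]

theorem subst_order (ξ : Rˣ) (c : ℕ) [NeZero c] (f : LaurentSeries R) :
    (subst ξ c f).order = (c : ℤ) * f.order := by
  rw [subst_apply, qExpand_order, twist_order]

theorem subst_eq_zero_iff (ξ : Rˣ) (c : ℕ) [NeZero c] (f : LaurentSeries R) :
    subst ξ c f = 0 ↔ f = 0 :=
  map_eq_zero_iff _ (subst_injective ξ c)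

theorem subst_mem_range_qExpand (ξ : Rˣ) {c m : ℕ} [NeZero c] [NeZero m] (h : m ∣ c)
    (f : LaurentSeries R) : subst ξ c f ∈ Set.range (qExpand R m) := by
  obtain ⟨d, rfl⟩ := h
  have hd : d ≠ 0 := fun h0 => NeZero.ne (m * d) (by rw [h0, mul_zero])
  have : NeZero d := ⟨hd⟩
  exact ⟨subst ξ d f, qExpand_subst ξ d m f⟩

theorem coeffMap_subst {S : Type*} [CommRing S] (φ : R →+* S) (ξ : Rˣ) (c : ℕ) [NeZero c]
    (f : LaurentSeries R) :
    coeffMap φ (subst ξ c f) = subst (Units.map (φ : R →* S) ξ) c (coeffMap φ f) := by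
  rw [subst_apply, subst_apply, coeffMap_qExpand, coeffMap_twist]

/-- A twist by a `c`-th root of unity fixes `f(ξ u^c)`. -/
theorem twist_subst_of_pow_eq_one (ξ : Rˣ) {η : Rˣ} (c : ℕ) [NeZero c] (h : η ^ c = 1)
    (f : LaurentSeries R) : twist η (subst ξ c f) = subst ξ c f := by
  rw [twist_subst, h, one_mul]

end Subst

section SubstJ

variable {R : Type*} [CommRing R]

theorem subst_jqModC_coeff_neg (ξ : Rˣ) (c : ℕ) [NeZero c] :
    (subst ξ c (jqModC R)).coeff (-(c : ℤ)) = ((ξ⁻¹ : Rˣ) : R) := by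
  have h : -(c : ℤ) = (c : ℤ) * (-1) := by ring
  rw [h, subst_coeff_mul, jqModC_coeff_neg_one, mul_one, zpow_neg_one]

theorem subst_jqModC_coeff_of_lt (ξ : Rˣ) (c : ℕ) [NeZero c] {n : ℤ} (hn : n < -(c : ℤ)) :
    (subst ξ c (jqModC R)).coeff n = 0 := by
  by_cases hd : (c : ℤ) ∣ n
  · obtain ⟨t, rfl⟩ := hd
    rw [subst_coeff_mul, jqModC_coeff_of_lt, mul_zero]
    have hc : (0 : ℤ) < c := by exact_mod_cast Nat.pos_of_ne_zero (NeZero.ne c)
    by_contra hcon
    rw [not_lt] at hcon
    nlinarith
  · exact subst_coeff_of_not_dvd ξ c _ hd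

theorem subst_jqModC_order [Nontrivial R] (ξ : Rˣ) (c : ℕ) [NeZero c] :
    (subst ξ c (jqModC R)).order = -(c : ℤ) := by
  rw [subst_order, jqModC_order]; ring

/-- `j(ξ u^c)` determines `ξ`. -/
theorem subst_jqModC_unit_injective (c : ℕ) [NeZero c] {ξ η : Rˣ}
    (h : subst ξ c (jqModC R) = subst η c (jqModC R)) : ξ = η := by
  have h1 := subst_jqModC_coeff_neg ξ c
  rw [h, subst_jqModC_coeff_neg η c] at h1
  exact inv_injective (Units.ext h1.symm)

/-- `j(ξ u^c)` determines `c`. -/
theorem subst_jqModC_ne_of_ne [Nontrivial R] (ξ η : Rˣ) {c d : ℕ} [NeZero c] [NeZero d]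
    (h : c ≠ d) : subst ξ c (jqModC R) ≠ subst η d (jqModC R) := by
  intro heq
  have h1 := subst_jqModC_order ξ c
  rw [heq, subst_jqModC_order η d] at h1
  exact h (by exact_mod_cast neg_injective h1.symm)

/-- The `p` series `j(ζ^i ξ u^c)`, `i < p`, are pairwise distinct. -/
theorem subst_jqModC_pow_mul_injOn {p : ℕ} {ζ : Rˣ} (hζ : IsPrimitiveRoot ζ p) (ξ : Rˣ)
    (c : ℕ) [NeZero c] {i j : ℕ} (hi : i < p) (hj : j < p)
    (h : subst (ζ ^ i * ξ) c (jqModC R) = subst (ζ ^ j * ξ) c (jqModC R)) : i = j := by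
  have h1 := subst_jqModC_unit_injective c h
  exact hζ.pow_inj hi hj (mul_right_cancel h1)

end SubstJ

section ModEq

open Polynomial

theorem ringHom_comp_evalY {R S : Type*} [CommRing R] [CommRing S]
    (f : LaurentSeries R →+* LaurentSeries S) (y : LaurentSeries R) :
    f.comp (evalY y) = evalY (f y) := by
  refine Polynomial.ringHom_ext' (Subsingleton.elim _ _) ?_
  simp [evalY]

/-- The prime-level modular equation after the substitution `u ↦ ξ u^c`:
`Φ(X, j(ξ^p u^(cp))) = (X - j(ξ^(p²) u^(cp²))) ∏_{i<p} (X - j(ζ^i ξ u^c))`. -/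
theorem ModularEquation.factor_subst {p : ℕ} [NeZero p] (E : ModularEquation p) {R : Type}
    [CommRing R] [IsDomain R] (ζ : Rˣ) (hζ : IsPrimitiveRoot ζ p) (ξ : Rˣ) (c : ℕ) [NeZero c] :
    E.Φ.map (evalY (subst (ξ ^ p) (c * p) (jqModC R))) =
      (X - Polynomial.C (subst (ξ ^ (p ^ 2)) (c * p ^ 2) (jqModC R))) *
        ∏ i ∈ Finset.range p, (X - Polynomial.C (subst (ζ ^ i * ξ) c (jqModC R))) := by
  have h := congrArg (Polynomial.map (subst ξ c)) (E.factor ζ hζ)
  rw [Polynomial.map_map, ringHom_comp_evalY, subst_qExpand, Polynomial.map_mul,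
    Polynomial.map_sub, Polynomial.map_X, Polynomial.map_C, subst_qExpand,
    Polynomial.map_prod] at h
  rw [h]
  congr 1
  refine Finset.prod_congr rfl fun i _ => ?_
  rw [Polynomial.map_sub, Polynomial.map_X, Polynomial.map_C, subst_twist, mul_comm]

end ModEq

end Fermat.Agent.S28
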