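import Mathlib

/-!
# WP-L of P-S28 (field-theory part): the orbit criterion for irreducibility

Let `L ⊆ E` be fields and `σ` a ring automorphism of `E` fixing `L` pointwise.  If a polynomial
`P ∈ L[X]` splits in `E[X]` as `(X - a) * ∏_{i<n} (X - σ^i b)` with the `σ^i b` (`i < n`)
pairwise distinct, then `P` is irreducible over `L` or `a ∈ L`.
-/

set_option autoImplicit false

namespace Fermat.Agent.S28

open Polynomial

section Orbit

variable {L E : Type*} [Field L] [Field E] [Algebra L E]

/-- An iterate of a ring endomorphism fixing `L` pointwise maps roots (in `E`) of `Q ∈ L[X]` to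
roots. -/
theorem orbit_isRoot_iterate (σ : E →+* E)
    (hσ : ∀ x : L, σ (algebraMap L E x) = algebraMap L E x) (Q : L[X]) {b : E}
    (hb : (Q.map (algebraMap L E)).IsRoot b) (i : ℕ) :
    (Q.map (algebraMap L E)).IsRoot ((⇑σ)^[i] b) := by
  induction i with
  | zero => simpa using hb
  | succ i ih =>
    rw [Function.iterate_succ_apply']
    rw [IsRoot.def, eval_map] at ih ⊢
    have h := Polynomial.hom_eval₂ Q (algebraMap L E) σ ((⇑σ)^[i] b)
    rw [ih, map_zero] at h
    have hcomp : σ.comp (algebraMap L E) = algebraMap L E := RingHom.ext hσ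
    rw [hcomp] at h
    exact h.symm

/-- **Orbit criterion.** -/
theorem irreducible_or_mem_range_of_orbit (σ : E →+* E)
    (hσ : ∀ x : L, σ (algebraMap L E x) = algebraMap L E x) {n : ℕ} (hn : 0 < n) (a b : E)
    (hinj : ∀ i < n, ∀ j < n, (⇑σ)^[i] b = (⇑σ)^[j] b → i = j) (P : L[X])
    (hP : P.map (algebraMap L E) =
      (X - C a) * ∏ i ∈ Finset.range n, (X - C ((⇑σ)^[i] b))) :
    Irreducible P ∨ a ∈ Set.range (algebraMap L E) := by
  classical
  set Pi0 : E[X] := ∏ i ∈ Finset.range n, (X - C ((⇑σ)^[i] b)) with hPi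
  have hPimonic : Pi0.Monic := monic_prod_of_monic _ _ fun i _ => monic_X_sub_C _
  have hPideg : Pi0.natDegree = n := by
    rw [hPi, natDegree_prod_of_monic _ _ fun i _ => monic_X_sub_C _]
    simp
  have hPmapmonic : (P.map (algebraMap L E)).Monic := by
    rw [hP]; exact (monic_X_sub_C a).mul hPimonic
  have hPmonic : P.Monic := monic_of_injective (algebraMap L E).injective hPmapmonic
  have hPdeg : P.natDegree = n + 1 := by
    rw [← natDegree_map (algebraMap L E), hP, (monic_X_sub_C a).natDegree_mul hPimonic,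
      natDegree_X_sub_C, hPideg, add_comm]
  -- `b` is a root of `P`
  have hbroot : (P.map (algebraMap L E)).IsRoot b := by
    rw [hP, IsRoot.def, eval_mul, hPi, eval_prod, Finset.prod_eq_zero (Finset.mem_range.mpr hn),
      mul_zero]
    simp
  have hbint : IsIntegral L b := ⟨P, hPmonic, by rwa [IsRoot.def, eval_map] at hbroot⟩
  set Q := minpoly L b with hQ
  have hQmonic : Q.Monic := minpoly.monic hbint
  have hQP : Q ∣ P := minpoly.dvd L b (by rwa [IsRoot.def, eval_map, ← aeval_def] at hbroot)
  have hQroot : (Q.map (algebraMap L E)).IsRoot b := by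
    rw [IsRoot.def, eval_map, ← aeval_def]; exact minpoly.aeval L b
  -- the orbit divides `Q`
  have hPiQ : Pi0 ∣ Q.map (algebraMap L E) := by
    rw [hPi]
    refine Finset.prod_dvd_of_coprime ?_ ?_
    · intro i hi j hj hij
      have hi' := Finset.mem_range.mp hi
      have hj' := Finset.mem_range.mp hj
      refine Polynomial.isCoprime_X_sub_C_of_isUnit_sub ?_
      rw [isUnit_iff_ne_zero, sub_ne_zero]
      exact fun h => hij (hinj i hi' j hj' h)
    · intro i _
      rw [dvd_iff_isRoot]
      exact orbit_isRoot_iterate σ hσ Q hQroot i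
  have hQmapmonic : (Q.map (algebraMap L E)).Monic := hQmonic.map _
  have hQdeg_ge : n ≤ Q.natDegree := by
    have := natDegree_le_of_dvd hPiQ hQmapmonic.ne_zero
    rwa [hPideg, natDegree_map] at this
  obtain ⟨S, hS⟩ := hQP
  have hSmonic : S.Monic := hQmonic.of_mul_monic_left (hS ▸ hPmonic)
  have hdegsum : Q.natDegree + S.natDegree = n + 1 := by
    rw [← hPdeg, hS, hQmonic.natDegree_mul hSmonic]
  by_cases hcase : Q.natDegree = n + 1
  · left
    have hS0 : S.natDegree = 0 := by omega
    have hS1 : S = 1 := hSmonic.natDegree_eq_zero.mp hS0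
    rw [hS, hS1, mul_one]
    exact minpoly.irreducible hbint
  · right
    have hQn : Q.natDegree = n := by omega
    have hS1 : S.natDegree = 1 := by omega
    have hQPi0 : Q.map (algebraMap L E) = Pi0 :=
      eq_of_monic_of_dvd_of_natDegree_le hPimonic hQmapmonic hPiQ
        (by rw [natDegree_map, hQn, hPideg])
    have hmapS : S.map (algebraMap L E) = X - C a := by
      have h1 : Pi0 * S.map (algebraMap L E) = Pi0 * (X - C a) := by
        rw [← hQPi0, ← Polynomial.map_mul, ← hS, hP, hQPi0, mul_comm]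
      exact mul_left_cancel₀ hPimonic.ne_zero h1
    rw [hSmonic.eq_X_add_C hS1, Polynomial.map_add, Polynomial.map_X, Polynomial.map_C] at hmapS
    refine ⟨-S.coeff 0, ?_⟩
    have h2 := congrArg (fun p : E[X] => p.coeff 0) hmapS
    simp only [coeff_add, coeff_X_zero, coeff_C_zero, zero_add, coeff_sub, zero_sub] at h2
    rw [map_neg, h2, neg_neg]

end Orbit

section Orbit2

variable {L E : Type*} [Field L] [Field E] [Algebra L E]

/-- If `σ` (an `L`-endomorphism of `E`) moves `b i` to `b (i+1)`, every `b i` is a root of the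
minimal polynomial of `b 0`. -/
theorem orbit_aeval_minpoly (σ : E →ₐ[L] E) (b : ℕ → E) (hσ : ∀ i, σ (b i) = b (i + 1))
    (i : ℕ) : Polynomial.aeval (b i) (minpoly L (b 0)) = 0 := by
  induction i with
  | zero => exact minpoly.aeval L (b 0)
  | succ i ih => rw [← hσ i, Polynomial.aeval_algHom_apply, ih, map_zero]

/-- The orbit polynomial divides the minimal polynomial. -/
theorem orbit_prod_dvd_minpoly_map (σ : E →ₐ[L] E) (n : ℕ) (b : ℕ → E)
    (hσ : ∀ i, σ (b i) = b (i + 1)) (hinj : Set.InjOn b (Finset.range n)) :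
    (∏ i ∈ Finset.range n, (X - C (b i))) ∣ (minpoly L (b 0)).map (algebraMap L E) := by
  refine Finset.prod_dvd_of_coprime ?_ ?_
  · intro i hi j hj hij
    refine Polynomial.isCoprime_X_sub_C_of_isUnit_sub ?_
    rw [isUnit_iff_ne_zero, sub_ne_zero]
    exact fun h => hij (hinj hi hj h)
  · intro i _
    rw [dvd_iff_isRoot, IsRoot.def, eval_map, ← aeval_def]
    exact orbit_aeval_minpoly σ b hσ i

theorem minpoly_eq_of_orbit (σ : E →ₐ[L] E) (n : ℕ) (hn : 0 < n) (b : ℕ → E)
    (hσ : ∀ i, σ (b i) = b (i + 1)) (hinj : Set.InjOn b (Finset.range n)) (g : Polynomial L)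
    (hg : g.map (algebraMap L E) = ∏ i ∈ Finset.range n, (X - C (b i))) :
    minpoly L (b 0) = g := by
  have hPimonic : (∏ i ∈ Finset.range n, (X - C (b i))).Monic :=
    monic_prod_of_monic _ _ fun i _ => monic_X_sub_C _
  have hgmonic : g.Monic :=
    monic_of_injective (algebraMap L E).injective (by rw [hg]; exact hPimonic)
  have hroot : Polynomial.aeval (b 0) g = 0 := by
    rw [aeval_def, ← eval_map, hg, eval_prod, Finset.prod_eq_zero (Finset.mem_range.mpr hn)]
    simp
  have hint : IsIntegral L (b 0) := ⟨g, hgmonic, by rwa [← aeval_def]⟩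
  have hdvd : minpoly L (b 0) ∣ g := minpoly.dvd L (b 0) hroot
  have h1 := orbit_prod_dvd_minpoly_map σ n b hσ hinj
  rw [← hg] at h1
  have h2 : (minpoly L (b 0)).map (algebraMap L E) ∣ g.map (algebraMap L E) :=
    Polynomial.map_dvd _ hdvd
  have h3 : (minpoly L (b 0)).map (algebraMap L E) = g.map (algebraMap L E) :=
    eq_of_monic_of_associated ((minpoly.monic hint).map _) (hgmonic.map _)
      (associated_of_dvd_dvd h2 h1)
  exact Polynomial.map_injective _ (algebraMap L E).injective h3

theorem orbit_dichotomy (σ : E →ₐ[L] E) (n : ℕ) (hn : 0 < n) (b : ℕ → E)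
    (hσ : ∀ i, σ (b i) = b (i + 1)) (hinj : Set.InjOn b (Finset.range n)) (a : E)
    (f : Polynomial L)
    (hf : f.map (algebraMap L E) = (X - C a) * ∏ i ∈ Finset.range n, (X - C (b i))) :
    a ∈ (algebraMap L E).range ∨ minpoly L (b 0) = f := by
  classical
  set Pi0 : E[X] := ∏ i ∈ Finset.range n, (X - C (b i)) with hPi
  have hPimonic : Pi0.Monic := monic_prod_of_monic _ _ fun i _ => monic_X_sub_C _
  have hPideg : Pi0.natDegree = n := by
    rw [hPi, natDegree_prod_of_monic _ _ fun i _ => monic_X_sub_C _]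
    simp
  have hfmapmonic : (f.map (algebraMap L E)).Monic := by
    rw [hf]; exact (monic_X_sub_C a).mul hPimonic
  have hfmonic : f.Monic := monic_of_injective (algebraMap L E).injective hfmapmonic
  have hfdeg : f.natDegree = n + 1 := by
    rw [← natDegree_map (algebraMap L E), hf, (monic_X_sub_C a).natDegree_mul hPimonic,
      natDegree_X_sub_C, hPideg, add_comm]
  have hroot : Polynomial.aeval (b 0) f = 0 := by
    rw [aeval_def, ← eval_map, hf, eval_mul, hPi, eval_prod,
      Finset.prod_eq_zero (Finset.mem_range.mpr hn), mul_zero]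
    simp
  have hint : IsIntegral L (b 0) := ⟨f, hfmonic, by rwa [← aeval_def]⟩
  set Q := minpoly L (b 0) with hQ
  have hQmonic : Q.Monic := minpoly.monic hint
  have hQf : Q ∣ f := minpoly.dvd L (b 0) hroot
  have hPiQ : Pi0 ∣ Q.map (algebraMap L E) := orbit_prod_dvd_minpoly_map σ n b hσ hinj
  have hQmapmonic : (Q.map (algebraMap L E)).Monic := hQmonic.map _
  have hQdeg_ge : n ≤ Q.natDegree := by
    have := natDegree_le_of_dvd hPiQ hQmapmonic.ne_zero
    rwa [hPideg, natDegree_map] at this
  obtain ⟨S, hS⟩ := hQf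
  have hSmonic : S.Monic := hQmonic.of_mul_monic_left (hS ▸ hfmonic)
  have hdegsum : Q.natDegree + S.natDegree = n + 1 := by
    rw [← hfdeg, hS, hQmonic.natDegree_mul hSmonic]
  by_cases hcase : Q.natDegree = n + 1
  · right
    have hS0 : S.natDegree = 0 := by omega
    have hS1 : S = 1 := hSmonic.natDegree_eq_zero.mp hS0
    rw [hS, hS1, mul_one]
  · left
    have hQn : Q.natDegree = n := by omega
    have hS1 : S.natDegree = 1 := by omega
    have hQPi : Q.map (algebraMap L E) = Pi0 :=
      eq_of_monic_of_dvd_of_natDegree_le hPimonic hQmapmonic hPiQ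
        (by rw [natDegree_map, hQn, hPideg])
    have hmapS : S.map (algebraMap L E) = X - C a := by
      have h1 : Pi0 * S.map (algebraMap L E) = Pi0 * (X - C a) := by
        rw [← hQPi, ← Polynomial.map_mul, ← hS, hf, hQPi, mul_comm]
      exact mul_left_cancel₀ hPimonic.ne_zero h1
    rw [hSmonic.eq_X_add_C hS1, Polynomial.map_add, Polynomial.map_X, Polynomial.map_C] at hmapS
    refine ⟨-S.coeff 0, ?_⟩
    have h2 := congrArg (fun p : E[X] => p.coeff 0) hmapS
    simp only [coeff_add, coeff_X_zero, coeff_C_zero, zero_add, coeff_sub, zero_sub] at h2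
    rw [map_neg, h2, neg_neg]

end Orbit2

end Fermat.Agent.S28
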