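import Mathlib
import Fermat.Agent.S28.Defs
import Fermat.Agent.S28.Laurent
import Fermat.Agent.S28.Orbit

/-!
# P-S28 WP-C2: conjugates of `j(w^d)` over `k(j(w))`

Main result `not_mem_adjoin`: for `k` algebraically closed of characteristic `ℓ`, a prime
`p ≠ ℓ`, and `M` prime to `p` and `ℓ`, the series `j(w^p)` does not lie in the field generated
over `k` by the `j(w^d)`, `d ∣ M` (given the case `M = 1`, and the prime level modular equations).
-/

set_option autoImplicit false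

noncomputable section

namespace Fermat.Agent.S28.Conjugates

open ModularCurve Polynomial
open Fermat.Agent.S28

section Toolkit

variable {R : Type*} [CommRing R]

/-- `f(u) ↦ f(u^m)` with `m ≠ 0` as a hypothesis of the lemmas (junk value `id` for `m = 0`). -/
def expd (m : ℕ) : LaurentSeries R →+* LaurentSeries R :=
  if h : m = 0 then RingHom.id _ else @qExpand R _ m ⟨h⟩

theorem expd_eq (m : ℕ) [NeZero m] : (expd m : LaurentSeries R →+* _) = qExpand R m := by
  rw [expd, dif_neg (NeZero.ne m)]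

theorem expd_one (f : LaurentSeries R) : expd 1 f = f := by
  rw [expd_eq, qExpand_one_apply]

theorem expd_expd {m n : ℕ} (hm : m ≠ 0) (hn : n ≠ 0) (f : LaurentSeries R) :
    expd m (expd n f) = expd (m * n) f := by
  have : NeZero m := ⟨hm⟩
  have : NeZero n := ⟨hn⟩
  have : NeZero (m * n) := ⟨Nat.mul_ne_zero hm hn⟩
  rw [expd_eq, expd_eq, expd_eq, qExpand_qExpand]

theorem expd_injective {m : ℕ} (hm : m ≠ 0) :
    Function.Injective (expd m : LaurentSeries R →+* _) := by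
  have : NeZero m := ⟨hm⟩
  rw [expd_eq]
  exact qExpand_injective m

theorem twist_expd {m : ℕ} (hm : m ≠ 0) (ξ : Rˣ) (f : LaurentSeries R) :
    twist ξ (expd m f) = expd m (twist (ξ ^ m) f) := by
  have : NeZero m := ⟨hm⟩
  rw [expd_eq, twist_qExpand]

theorem expd_coeff_mul {m : ℕ} (hm : m ≠ 0) (f : LaurentSeries R) (n : ℤ) :
    (expd m f).coeff ((m : ℤ) * n) = f.coeff n := by
  have : NeZero m := ⟨hm⟩
  rw [expd_eq, qExpand_coeff_mul]

/-- The substitution `f(u) ↦ f(ξ u^c)`. -/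
def sub (ξ : Rˣ) (c : ℕ) : LaurentSeries R →+* LaurentSeries R := (expd c).comp (twist ξ)

theorem sub_apply (ξ : Rˣ) (c : ℕ) (f : LaurentSeries R) : sub ξ c f = expd c (twist ξ f) := rfl

variable (R) in
/-- The series `j(ξ u^c)`. -/
def jSub (ξ : Rˣ) (c : ℕ) : LaurentSeries R := sub ξ c (jqModC R)

theorem jSub_one (c : ℕ) : jSub R 1 c = expd c (jqModC R) := by
  rw [jSub, sub_apply, twist_one]

theorem jSub_one_eq (c : ℕ) [NeZero c] : jSub R 1 c = qExpand R c (jqModC R) := by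
  rw [jSub_one, expd_eq]

theorem sub_expd {m : ℕ} (hm : m ≠ 0) (ξ : Rˣ) {c : ℕ} (hc : c ≠ 0) (f : LaurentSeries R) :
    sub ξ c (expd m f) = sub (ξ ^ m) (c * m) f := by
  rw [sub_apply, sub_apply, twist_expd hm, expd_expd hc hm]

theorem sub_twist (ξ η : Rˣ) (c : ℕ) (f : LaurentSeries R) :
    sub ξ c (twist η f) = sub (ξ * η) c f := by
  rw [sub_apply, sub_apply, twist_twist]

theorem expd_jSub {m : ℕ} (hm : m ≠ 0) (ξ : Rˣ) {c : ℕ} (hc : c ≠ 0) :
    expd m (jSub R ξ c) = jSub R ξ (m * c) := by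
  rw [jSub, jSub, sub_apply, sub_apply, expd_expd hm hc]

theorem jSub_coeff_neg (ξ : Rˣ) {c : ℕ} (hc : c ≠ 0) :
    (jSub R ξ c).coeff (-(c : ℤ)) = ((ξ⁻¹ : Rˣ) : R) := by
  have h : -(c : ℤ) = (c : ℤ) * (-1) := by ring
  rw [jSub, sub_apply, h, expd_coeff_mul hc, twist_coeff, jqModC_coeff_neg_one, mul_one,
    zpow_neg_one]

theorem jSub_mem_range {p : ℕ} [NeZero p] (ξ : Rˣ) {c : ℕ} (hc : c ≠ 0) :
    jSub R ξ (p * c) ∈ Set.range (qExpand R p) := by
  refine ⟨jSub R ξ c, ?_⟩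
  rw [← expd_eq, expd_jSub (NeZero.ne p) ξ hc]

/-- The ring hom `ℤ[Y] → A`, `Y ↦ a`. -/
def evalA {A : Type*} [CommRing A] (a : A) : Polynomial ℤ →+* A :=
  Polynomial.eval₂RingHom (Int.castRingHom A) a

theorem evalA_comp {A B : Type*} [CommRing A] [CommRing B] (f : A →+* B) (a : A) :
    f.comp (evalA a) = evalA (f a) := by
  refine Polynomial.ringHom_ext' (Subsingleton.elim _ _) ?_
  simp [evalA]

theorem evalY_eq_evalA (y : LaurentSeries R) : evalY y = evalA y := rfl

theorem map_evalA_map {A B : Type*} [CommRing A] [CommRing B] (Φ : Polynomial (Polynomial ℤ))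
    (f : A →+* B) (a : A) : (Φ.map (evalA a)).map f = Φ.map (evalA (f a)) := by
  rw [Polynomial.map_map, evalA_comp]

end Toolkit

section Factor

variable {k : Type} [CommRing k] [IsDomain k]

/-- The modular equation transported by `u ↦ ξ u^c`. -/
theorem factor_sub {r : ℕ} [NeZero r] (E : ModularEquation r) (ζ : kˣ)
    (hζ : IsPrimitiveRoot ζ r) (ξ : kˣ) {c : ℕ} (hc : c ≠ 0) :
    E.Φ.map (evalA (jSub k (ξ ^ r) (c * r))) =
      (X - C (jSub k (ξ ^ (r ^ 2)) (c * r ^ 2))) *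
        ∏ i ∈ Finset.range r, (X - C (jSub k (ξ * ζ ^ i) c)) := by
  have hr : r ≠ 0 := NeZero.ne r
  have h1 := congrArg (Polynomial.map (sub ξ c)) (E.factor ζ hζ)
  rw [evalY_eq_evalA, map_evalA_map, Polynomial.map_mul, Polynomial.map_sub, Polynomial.map_X,
    Polynomial.map_C, Polynomial.map_prod] at h1
  simp only [Polynomial.map_sub, Polynomial.map_X, Polynomial.map_C] at h1
  rw [← expd_eq, ← expd_eq, sub_expd hr ξ hc, sub_expd (pow_ne_zero 2 hr) ξ hc] at h1
  simp only [sub_twist] at h1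
  exact h1

/-- The relation `Φ_r(j(u^(d r)), j(u^d)) = 0`. -/
theorem rel_expd {r : ℕ} [NeZero r] (E : ModularEquation r) (ζ : kˣ)
    (hζ : IsPrimitiveRoot ζ r) {d : ℕ} (hd : d ≠ 0) :
    (E.Φ.map (evalA (expd d (jqModC k)))).eval (expd (d * r) (jqModC k)) = 0 := by
  have hr : r ≠ 0 := NeZero.ne r
  -- first `Φ_r(j(u^(r^2)), j(u^r)) = 0`
  have h1 : (E.Φ.map (evalA (expd r (jqModC k)))).eval (expd (r * r) (jqModC k)) = 0 := by
    have h := E.factor ζ hζ
    rw [evalY_eq_evalA, ← expd_eq, ← expd_eq] at h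
    rw [h, eval_mul, eval_sub, eval_X, eval_C, pow_two, sub_self, zero_mul]
  -- pull back along `expd r`
  have h2 : (E.Φ.map (evalA (jqModC k))).eval (expd r (jqModC k)) = 0 := by
    apply expd_injective (R := k) hr
    rw [map_zero, ← Polynomial.eval_map_apply, map_evalA_map, expd_expd hr hr]
    exact h1
  -- push forward along `expd d`
  have h3 := congrArg (expd (R := k) d) h2
  rwa [map_zero, ← Polynomial.eval_map_apply, map_evalA_map, expd_expd hd hr] at h3

/-- The roots of `Φ_r(X, j(ξ^r u^(c r)))` in any field containing the Laurent series. -/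
theorem root_cases {r : ℕ} [NeZero r] (E : ModularEquation r) (ζ : kˣ)
    (hζ : IsPrimitiveRoot ζ r) (ξ : kˣ) {c : ℕ} (hc : c ≠ 0) {Ω : Type*} [Field Ω]
    (g : LaurentSeries k →+* Ω) {x : Ω}
    (hx : (E.Φ.map (evalA (g (jSub k (ξ ^ r) (c * r))))).eval x = 0) :
    x = g (jSub k (ξ ^ (r ^ 2)) (c * r ^ 2)) ∨
      ∃ i < r, x = g (jSub k (ξ * ζ ^ i) c) := by
  rw [← map_evalA_map, factor_sub E ζ hζ ξ hc, Polynomial.map_mul, Polynomial.map_sub,
    Polynomial.map_X, Polynomial.map_C, Polynomial.map_prod, eval_mul, eval_sub, eval_X, eval_C,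
    eval_prod, mul_eq_zero, Finset.prod_eq_zero_iff] at hx
  rcases hx with hx | ⟨i, hi, hx⟩
  · exact Or.inl (sub_eq_zero.mp hx)
  · refine Or.inr ⟨i, Finset.mem_range.mp hi, ?_⟩
    rw [Polynomial.map_sub, Polynomial.map_X, Polynomial.map_C, eval_sub, eval_X, eval_C] at hx
    exact sub_eq_zero.mp hx

end Factor

section Generic

/-- A root of a monic integer two-variable polynomial specialised at an integral element is
integral. -/
theorem isIntegral_of_rel {R A : Type*} [CommRing R] [CommRing A] [Algebra R A] {y x : A}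
    (hy : IsIntegral R y) (Φ : Polynomial (Polynomial ℤ)) (hΦ : Φ.Monic)
    (h : (Φ.map (evalA y)).eval x = 0) : IsIntegral R x := by
  have hB : IsIntegral (integralClosure R A) x := by
    refine ⟨Φ.map (evalA (⟨y, hy⟩ : integralClosure R A)), hΦ.map _, ?_⟩
    rw [← Polynomial.eval_map, map_evalA_map]
    exact h
  exact isIntegral_trans x hB

/-- The orbit criterion for an arbitrary ring homomorphism of fields. -/
theorem orbit_hom {L E : Type*} [Field L] [Field E] (f : L →+* E) (σ : E →+* E)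
    (hσ : ∀ x : L, σ (f x) = f x) {n : ℕ} (hn : 0 < n) (a b : E)
    (hinj : ∀ i < n, ∀ j < n, (⇑σ)^[i] b = (⇑σ)^[j] b → i = j) (P : L[X])
    (hP : P.map f = (X - C a) * ∏ i ∈ Finset.range n, (X - C ((⇑σ)^[i] b))) :
    Irreducible P ∨ a ∈ Set.range f := by
  let _ := f.toAlgebra
  exact irreducible_or_mem_range_of_orbit σ hσ hn a b hinj P hP

end Generic

section Conj

variable {k : Type} [Field k]

/-- **Conjugates lemma.**  Any ring homomorphism `φ` from a ring `A ⊆ k((w))` containing the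
`j(w^d)`, `d ∣ M`, to a field `Ω ⊇ k((w'))`, which sends `j(w)` to `j(w'^(pM))`, sends `j(w^d)`
to some `j(ξ w'^(p s M / t))` with `s t = d`. -/
theorem conjugates_aux
    (E : ∀ (r : ℕ) [NeZero r], r.Prime → ModularEquation r)
    {M p : ℕ} (hM : M ≠ 0) (hp : p ≠ 0)
    (hroots : ∀ r : ℕ, r.Prime → r ∣ M → ∃ ζ : kˣ, IsPrimitiveRoot ζ r)
    (hpow : ∀ (ξ : kˣ) (r : ℕ), r.Prime → ∃ ξ' : kˣ, ξ' ^ r = ξ)
    {A : Type*} [CommRing A] (ι : A →+* LaurentSeries k) (hι : Function.Injective ι)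
    {Ω : Type*} [Field Ω] (g : LaurentSeries k →+* Ω) (φ : A →+* Ω)
    (hcov : ∀ d, d ∣ M → ∃ a : A, ι a = expd d (jqModC k))
    (hbase : ∀ a : A, ι a = jqModC k → φ a = g (jSub k 1 (p * M))) :
    ∀ d, d ∣ M → ∀ a : A, ι a = expd d (jqModC k) →
      ∃ (ξ : kˣ) (s t : ℕ), s * t = d ∧ φ a = g (jSub k ξ (p * s * (M / t))) := by
  intro d
  induction d using Nat.strong_induction_on with
  | _ d ih =>
    intro hd a ha
    rcases eq_or_ne d 1 with rfl | hd1
    · refine ⟨1, 1, 1, rfl, ?_⟩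
      rw [expd_one] at ha
      rw [hbase a ha, mul_one, Nat.div_one]
    · have hd0 : d ≠ 0 := fun h => hM (by rw [h] at hd; exact zero_dvd_iff.mp hd)
      have hrp : (d.minFac).Prime := Nat.minFac_prime hd1
      obtain ⟨d', hd'⟩ := Nat.minFac_dvd d
      set r := d.minFac with hr
      have hr0 : r ≠ 0 := hrp.ne_zero
      have hd'0 : d' ≠ 0 := fun h => hd0 (by rw [hd', h, mul_zero])
      have hd'lt : d' < d := by
        rw [hd']
        exact lt_mul_of_one_lt_left (Nat.pos_of_ne_zero hd'0) hrp.one_lt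
      have hd'd : d' ∣ d := ⟨r, by rw [hd', mul_comm]⟩
      have hd'M : d' ∣ M := hd'd.trans hd
      obtain ⟨a', ha'⟩ := hcov d' hd'M
      obtain ⟨ξ, s, t, hst, hφ⟩ := ih d' hd'lt hd'M a' ha'
      have : NeZero r := ⟨hr0⟩
      obtain ⟨ζ, hζ⟩ := hroots r hrp ((Nat.minFac_dvd d).trans hd)
      obtain ⟨ξ', hξ'⟩ := hpow ξ r hrp
      obtain ⟨m₀, hm₀⟩ := hd
      have hs0 : s ≠ 0 := fun h => hd'0 (by rw [← hst, h, zero_mul])
      have ht0 : t ≠ 0 := fun h => hd'0 (by rw [← hst, h, mul_zero])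
      have hm₀0 : m₀ ≠ 0 := fun h => hM (by rw [hm₀, h, mul_zero])
      have e1 : M / t = s * m₀ * r := by
        apply Nat.div_eq_of_eq_mul_right (Nat.pos_of_ne_zero ht0)
        rw [hm₀, hd', ← hst]; ring
      have e2 : M / (t * r) = s * m₀ := by
        apply Nat.div_eq_of_eq_mul_right (Nat.pos_of_ne_zero (Nat.mul_ne_zero ht0 hr0))
        rw [hm₀, hd', ← hst]; ring
      have hc0 : p * s * (s * m₀) ≠ 0 :=
        Nat.mul_ne_zero (Nat.mul_ne_zero hp hs0) (Nat.mul_ne_zero hs0 hm₀0)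
      -- the relation `Φ_r(a, a') = 0` in `A`
      have hrel : ((E r hrp).Φ.map (evalA a')).eval a = 0 := by
        apply hι
        rw [map_zero, ← Polynomial.eval_map_apply, map_evalA_map, ha, ha', hd', mul_comm r d']
        exact rel_expd (E r hrp) ζ hζ hd'0
      -- transported to `Ω`
      have hrelΩ : ((E r hrp).Φ.map (evalA (g (jSub k (ξ' ^ r) (p * s * (s * m₀) * r))))).eval
          (φ a) = 0 := by
        have h := congrArg φ hrel
        rw [map_zero, ← Polynomial.eval_map_apply, map_evalA_map, hφ, e1, ← hξ'] at h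
        have hc : p * s * (s * m₀) * r = p * s * (s * m₀ * r) := by ring
        rw [hc]
        exact h
      rcases root_cases (E r hrp) ζ hζ ξ' hc0 g hrelΩ with h | ⟨i, _, h⟩
      · refine ⟨ξ' ^ (r ^ 2), s * r, t, by rw [hd', ← hst]; ring, ?_⟩
        have hc : p * s * (s * m₀) * r ^ 2 = p * (s * r) * (s * m₀ * r) := by ring
        rw [h, e1, hc]
      · refine ⟨ξ' * ζ ^ i, s, t * r, by rw [hd', ← hst]; ring, ?_⟩
        rw [h, e2]

end Conj

section Main

variable {k : Type} [Field k]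

variable (k) in
/-- `K₁ = k(j(w))`. -/
abbrev K1 : IntermediateField k (LaurentSeries k) := IntermediateField.adjoin k {jqModC k}

variable (k) in
/-- `j(w)` as an element of `K₁`. -/
def jK1 : K1 k := ⟨jqModC k, IntermediateField.subset_adjoin _ _ (Set.mem_singleton _)⟩

theorem coe_jK1 : ((jK1 k : K1 k) : LaurentSeries k) = jqModC k := rfl

/-- If `j(w^p) ∉ k(j(w))` then `Φ_p(X, j(w))` is irreducible over `k(j(w))`. -/
theorem irreducible_of_not_mem {p : ℕ} [NeZero p] (E : ModularEquation p) (ζ : kˣ)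
    (hζ : IsPrimitiveRoot ζ p) (hB1 : qExpand k p (jqModC k) ∉ K1 k) :
    Irreducible (E.Φ.map (evalA (jK1 k))) := by
  have hp0 : p ≠ 0 := NeZero.ne p
  set f : K1 k →+* LaurentSeries k :=
    (qExpand k p).comp (algebraMap (K1 k) (LaurentSeries k)) with hf
  have hinj : ∀ i < p, ∀ j < p,
      (⇑(twist ζ))^[i] (jqModC k) = (⇑(twist ζ))^[j] (jqModC k) → i = j := by
    intro i hi j hj hij
    rw [twist_pow, twist_pow] at hij
    have h1 := congrArg (fun F : LaurentSeries k => F.coeff (-1)) hij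
    simp only [twist_coeff, jqModC_coeff_neg_one, mul_one] at h1
    have h2 : (ζ ^ i) ^ (-1 : ℤ) = (ζ ^ j) ^ (-1 : ℤ) := Units.ext h1
    rw [zpow_neg_one, zpow_neg_one, inv_inj] at h2
    exact hζ.pow_inj hi hj h2
  have hP : (E.Φ.map (evalA (jK1 k))).map f =
      (X - C (qExpand k (p ^ 2) (jqModC k))) *
        ∏ i ∈ Finset.range p, (X - C ((⇑(twist ζ))^[i] (jqModC k))) := by
    rw [map_evalA_map]
    show E.Φ.map (evalA (qExpand k p (jqModC k))) = _
    rw [← evalY_eq_evalA, E.factor ζ hζ]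
    congr 1
    refine Finset.prod_congr rfl fun i _ => ?_
    rw [twist_pow]
  rcases orbit_hom f (twist ζ)
      (fun x => twist_qExpand_of_pow_eq_one ζ p hζ.pow_eq_one _) (Nat.pos_of_ne_zero hp0)
      (qExpand k (p ^ 2) (jqModC k)) (jqModC k) hinj (E.Φ.map (evalA (jK1 k))) hP with h | ⟨x, hx⟩
  · exact h
  · exfalso
    apply hB1
    have hx' : (x : LaurentSeries k) = qExpand k p (jqModC k) := by
      apply qExpand_injective p
      have h1 : f x = qExpand k p (x : LaurentSeries k) := rfl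
      rw [← h1, hx, qExpand_qExpand]
      exact qExpand_congr (pow_two p) _
    rw [← hx']
    exact x.2

/-- If `j(w^p) ∉ k(j(w))` then `Φ_p(X, j(w))` is the minimal polynomial of `j(w^p)`. -/
theorem minpoly_eq {p : ℕ} [NeZero p] (E : ModularEquation p) (ζ : kˣ)
    (hζ : IsPrimitiveRoot ζ p) (hB1 : qExpand k p (jqModC k) ∉ K1 k) :
    minpoly (K1 k) (qExpand k p (jqModC k)) = E.Φ.map (evalA (jK1 k)) := by
  symm
  apply minpoly.eq_of_irreducible_of_monic (irreducible_of_not_mem E ζ hζ hB1) ?_ (E.monic.map _)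
  rw [Polynomial.aeval_def, Polynomial.eval₂_eq_eval_map, map_evalA_map]
  have h := rel_expd E ζ hζ (d := 1) one_ne_zero
  rw [expd_one, one_mul, expd_eq] at h
  exact h

/-- Integrality of the `j(w^d)` over `k(j(w))`. -/
theorem isIntegral_expd (E : ∀ (r : ℕ) [NeZero r], r.Prime → ModularEquation r) {M : ℕ}
    (hM : M ≠ 0) (hroots : ∀ r : ℕ, r.Prime → r ∣ M → ∃ ζ : kˣ, IsPrimitiveRoot ζ r) :
    ∀ d, d ∣ M → IsIntegral (K1 k) (expd d (jqModC k)) := by
  intro d
  induction d using Nat.strong_induction_on with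
  | _ d ih =>
    intro hd
    rcases eq_or_ne d 1 with rfl | hd1
    · rw [expd_one]
      exact isIntegral_algebraMap (x := jK1 k)
    · have hd0 : d ≠ 0 := fun h => hM (by rw [h] at hd; exact zero_dvd_iff.mp hd)
      have hrp : (d.minFac).Prime := Nat.minFac_prime hd1
      obtain ⟨d', hd'⟩ := Nat.minFac_dvd d
      set r := d.minFac with hr
      have hr0 : r ≠ 0 := hrp.ne_zero
      have hd'0 : d' ≠ 0 := fun h => hd0 (by rw [hd', h, mul_zero])
      have hd'lt : d' < d := by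
        rw [hd']
        exact lt_mul_of_one_lt_left (Nat.pos_of_ne_zero hd'0) hrp.one_lt
      have hd'd : d' ∣ d := ⟨r, by rw [hd', mul_comm]⟩
      have : NeZero r := ⟨hr0⟩
      obtain ⟨ζ, hζ⟩ := hroots r hrp ((Nat.minFac_dvd d).trans hd)
      have hrel := rel_expd (E r hrp) ζ hζ hd'0
      rw [mul_comm d' r, ← hd'] at hrel
      exact isIntegral_of_rel (ih d' hd'lt (hd'd.trans hd)) (E r hrp).Φ (E r hrp).monic hrel

/-- **WP-C2, auxiliary form** with an arbitrary algebraically closed field `Ω ⊇ k((w'))`. -/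
theorem not_mem_adjoin_aux
    (E : ∀ (r : ℕ) [NeZero r], r.Prime → ModularEquation r)
    (M p : ℕ) [NeZero M] [NeZero p] (hp : p.Prime)
    (hroots : ∀ r : ℕ, r.Prime → r ∣ M → ∃ ζ : kˣ, IsPrimitiveRoot ζ r)
    (hrootp : ∃ ζ : kˣ, IsPrimitiveRoot ζ p)
    (hpow : ∀ (ξ : kˣ) (r : ℕ), r.Prime → ∃ ξ' : kˣ, ξ' ^ r = ξ)
    (hpM : ¬ p ∣ M)
    (hB1 : qExpand k p (jqModC k) ∉ K1 k)
    (Ω : Type) [Field Ω] [IsAlgClosed Ω] (g : LaurentSeries k →+* Ω) :
    qExpand k p (jqModC k) ∉ IntermediateField.adjoin k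
      {x | ∃ (d : ℕ) (_ : NeZero d), d ∣ M ∧ x = qExpand k d (jqModC k)} := by
  intro hmem
  set S : Set (LaurentSeries k) :=
    {x | ∃ (d : ℕ) (_ : NeZero d), d ∣ M ∧ x = qExpand k d (jqModC k)} with hS
  have hM0 : M ≠ 0 := NeZero.ne M
  have hp0 : p ≠ 0 := NeZero.ne p
  obtain ⟨ζp, hζp⟩ := hrootp
  -- the `K₁`-algebra structure on `Ω`: `w ↦ w'^(pM)`
  let ι₀ : K1 k →+* Ω :=
    g.comp ((expd (p * M)).comp (algebraMap (K1 k) (LaurentSeries k)))
  let _ : Algebra (K1 k) Ω := ι₀.toAlgebra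
  have halg : ∀ x : K1 k, algebraMap (K1 k) Ω x = g (expd (p * M) (x : LaurentSeries k)) :=
    fun x => rfl
  have hSmem : ∀ d, d ∣ M → expd d (jqModC k) ∈ S := by
    intro d hd
    have hd0 : d ≠ 0 := fun h => hM0 (by rw [h] at hd; exact zero_dvd_iff.mp hd)
    have : NeZero d := ⟨hd0⟩
    exact ⟨d, ⟨hd0⟩, hd, by rw [expd_eq]⟩
  have hK : ∀ s ∈ S, IsIntegral (K1 k) s ∧
      ((minpoly (K1 k) s).map (algebraMap (K1 k) Ω)).Splits := by
    rintro s ⟨d, hd, hdM, rfl⟩
    refine ⟨?_, IsAlgClosed.splits _⟩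
    rw [← expd_eq]
    exact isIntegral_expd E hM0 hroots d hdM
  have hx : qExpand k p (jqModC k) ∈ IntermediateField.adjoin (K1 k) S := by
    have hle : IntermediateField.adjoin k S ≤
        (IntermediateField.adjoin (K1 k) S).restrictScalars k :=
      IntermediateField.adjoin_le_iff.mpr
        (fun s hs => IntermediateField.subset_adjoin (K1 k) S hs)
    exact hle hmem
  have hy : Polynomial.aeval (g (jSub k 1 M))
      (minpoly (K1 k) (qExpand k p (jqModC k))) = 0 := by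
    rw [minpoly_eq (E p hp) ζp hζp hB1, Polynomial.aeval_def, Polynomial.eval₂_eq_eval_map,
      map_evalA_map, halg, coe_jK1, ← map_evalA_map, Polynomial.eval_map_apply]
    have h := factor_sub (E p hp) ζp hζp (1 : kˣ) hM0
    rw [one_pow, jSub_one, mul_comm M p] at h
    rw [h, eval_mul, eval_prod, Finset.prod_eq_zero (Finset.mem_range.mpr
      (Nat.pos_of_ne_zero hp0)), mul_zero, map_zero]
    rw [pow_zero, mul_one, eval_sub, eval_X, eval_C, sub_self]
  obtain ⟨φ, hφ⟩ := IntermediateField.exists_algHom_adjoin_of_splits_of_aeval hK hx hy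
  -- the conjugates lemma applied to `φ`
  have hconj := conjugates_aux E hM0 hp0 hroots hpow
    (algebraMap (IntermediateField.adjoin (K1 k) S) (LaurentSeries k)) Subtype.val_injective
    g (φ : IntermediateField.adjoin (K1 k) S →+* Ω)
    (fun d hd => ⟨⟨expd d (jqModC k),
      IntermediateField.subset_adjoin (K1 k) S (hSmem d hd)⟩, rfl⟩)
    (fun a ha => by
      have ha' : a = algebraMap (K1 k) (IntermediateField.adjoin (K1 k) S) (jK1 k) :=
        Subtype.ext ha
      rw [ha']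
      show φ (algebraMap (K1 k) (IntermediateField.adjoin (K1 k) S) (jK1 k)) = _
      rw [φ.commutes, halg, coe_jK1, jSub_one])
  -- hence `φ` takes values in `k((w'^p))`
  have hrange : ∀ x (hx : x ∈ IntermediateField.adjoin (K1 k) S),
      φ ⟨x, hx⟩ ∈ (g.comp (qExpand k p)).fieldRange := by
    intro x hx
    induction hx using IntermediateField.adjoin_induction with
    | mem x hxS =>
      obtain ⟨d, hd, hdM, rfl⟩ := hxS
      have hd0 : d ≠ 0 := NeZero.ne d
      obtain ⟨ξ, s, t, hst, h⟩ := hconj d hdM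
        ⟨qExpand k d (jqModC k), IntermediateField.subset_adjoin (K1 k) S ⟨d, hd, hdM, rfl⟩⟩
        (by rw [expd_eq]; rfl)
      have hs0 : s ≠ 0 := fun h0 => hd0 (by rw [← hst, h0, zero_mul])
      have ht0 : t ≠ 0 := fun h0 => hd0 (by rw [← hst, h0, mul_zero])
      have htM : t ∣ M := (Dvd.intro_left s hst).trans hdM
      have hMt : M / t ≠ 0 :=
        (Nat.div_pos (Nat.le_of_dvd (Nat.pos_of_ne_zero hM0) htM) (Nat.pos_of_ne_zero ht0)).ne'
      obtain ⟨f, hf⟩ := jSub_mem_range (R := k) (p := p) ξ (Nat.mul_ne_zero hs0 hMt)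
      refine ⟨f, ?_⟩
      rw [RingHom.comp_apply, hf, ← mul_assoc]
      exact h.symm
    | algebraMap x =>
      have h1 : φ ⟨algebraMap (K1 k) (LaurentSeries k) x,
          IntermediateField.algebraMap_mem _ x⟩ = algebraMap (K1 k) Ω x := φ.commutes x
      rw [h1, halg]
      exact ⟨expd M (x : LaurentSeries k),
        by rw [RingHom.comp_apply, ← expd_eq, expd_expd hp0 hM0]⟩
    | add x y hx hy ihx ihy =>
      have e : (⟨x + y, add_mem hx hy⟩ : IntermediateField.adjoin (K1 k) S) =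
          ⟨x, hx⟩ + ⟨y, hy⟩ := Subtype.ext (by rw [IntermediateField.coe_add])
      rw [e, map_add]
      exact add_mem ihx ihy
    | inv x hx ih =>
      have e : (⟨x⁻¹, inv_mem hx⟩ : IntermediateField.adjoin (K1 k) S) =
          (⟨x, hx⟩ : IntermediateField.adjoin (K1 k) S)⁻¹ :=
        Subtype.ext (by rw [IntermediateField.coe_inv])
      rw [e, map_inv₀]
      exact inv_mem ih
    | mul x y hx hy ihx ihy =>
      have e : (⟨x * y, mul_mem hx hy⟩ : IntermediateField.adjoin (K1 k) S) =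
          ⟨x, hx⟩ * ⟨y, hy⟩ := Subtype.ext (by rw [IntermediateField.coe_mul])
      rw [e, map_mul]
      exact mul_mem ihx ihy
  have hfin := hrange _ hx
  rw [hφ] at hfin
  obtain ⟨f, hf⟩ := hfin
  have hf' : qExpand k p f = jSub k 1 M := g.injective hf
  refine not_mem_range_qExpand_of_coeff_ne_zero (R := k) (p := p) (n := -(M : ℤ)) ?_ ?_ ⟨f, hf'⟩
  · rw [Int.dvd_neg, Int.natCast_dvd_natCast]
    exact hpM
  · rw [jSub_coeff_neg 1 hM0]
    simp

/-- **WP-C2** (`hB` of the P-S28 tower plan): for `k` algebraically closed of characteristic `ℓ`,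
`p ≠ ℓ` prime and `M` prime to `p` and to `ℓ`, `j(w^p) ∉ k(j(w^d) : d ∣ M)`; given the case
`M = 1` and the prime level modular equations. -/
theorem not_mem_adjoin [IsAlgClosed k] (ℓ : ℕ) [CharP k ℓ]
    (E : ∀ (r : ℕ) [NeZero r], r.Prime → ModularEquation r)
    (hB1 : ∀ (p : ℕ) [NeZero p], p.Prime → p ≠ ℓ →
      qExpand k p (jqModC k) ∉ IntermediateField.adjoin k {jqModC k})
    (M p : ℕ) [NeZero M] [NeZero p] (hp : p.Prime) (hpℓ : p ≠ ℓ) (hℓM : ¬ ℓ ∣ M)
    (hpM : ¬ p ∣ M) :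
    qExpand k p (jqModC k) ∉ IntermediateField.adjoin k
      {x | ∃ (d : ℕ) (_ : NeZero d), d ∣ M ∧ x = qExpand k d (jqModC k)} := by
  have hne : ∀ r : ℕ, r.Prime → ¬ ℓ ∣ r → ∃ ζ : kˣ, IsPrimitiveRoot ζ r := by
    intro r hr hℓr
    have : NeZero (r : k) := ⟨fun h => hℓr ((CharP.cast_eq_zero_iff k ℓ r).mp h)⟩
    obtain ⟨ζ, hζ⟩ := HasEnoughRootsOfUnity.exists_primitiveRoot k r
    refine ⟨(hζ.isUnit hr.ne_zero).unit, IsPrimitiveRoot.coe_units_iff.mp ?_⟩
    simpa using hζ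
  have hpow : ∀ (ξ : kˣ) (r : ℕ), r.Prime → ∃ ξ' : kˣ, ξ' ^ r = ξ := by
    intro ξ r hr
    obtain ⟨z, hz⟩ := IsAlgClosed.exists_pow_nat_eq (ξ : k) hr.pos
    have hz0 : z ≠ 0 := by
      rintro rfl
      rw [zero_pow hr.ne_zero] at hz
      exact ξ.ne_zero hz.symm
    exact ⟨Units.mk0 z hz0, Units.ext (by simpa using hz)⟩
  have hℓp : ¬ ℓ ∣ p := by
    intro h
    rcases (Nat.dvd_prime hp).mp h with h1 | h1
    · exact CharP.char_ne_one k ℓ h1
    · exact hpℓ h1.symm
  exact not_mem_adjoin_aux E M p hp (fun r hr hrM => hne r hr fun h => hℓM (h.trans hrM))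
    (hne p hp hℓp) hpow hpM (hB1 p hp hpℓ) (AlgebraicClosure (LaurentSeries k))
    (algebraMap (LaurentSeries k) (AlgebraicClosure (LaurentSeries k)))

end Main

end Fermat.Agent.S28.Conjugates
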