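import Mathlib

/-!
# P-S28 WP-B: evaluation of a rational function at an element of a field extension
-/

set_option autoImplicit false

noncomputable section

open Polynomial IntermediateField

namespace Fermat.Agent.S28

variable {k : Type*} [Field k]

/-- Value of the rational function `g` at `y` (junk `0` denominators are not an issue when `y` is
transcendental). -/
def rfEval {E : Type*} [Field E] [Algebra k E] (g : RatFunc k) (y : E) : E :=
  aeval y g.num / aeval y g.denom

theorem rfEval_def {E : Type*} [Field E] [Algebra k E] (g : RatFunc k) (y : E) :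
    rfEval g y = aeval y g.num / aeval y g.denom := rfl

theorem rfEval_mem_adjoin {E : Type*} [Field E] [Algebra k E] (y : E) (g : RatFunc k) :
    rfEval g y ∈ k⟮y⟯ := by
  rw [rfEval_def, IntermediateField.mem_adjoin_simple_iff]
  exact ⟨g.num, g.denom, rfl⟩

theorem exists_rfEval_of_mem_adjoin {E : Type*} [Field E] [Algebra k E] (y x : E)
    (hy : Transcendental k y) (hx : x ∈ k⟮y⟯) : ∃ g : RatFunc k, x = rfEval g y := by
  refine ⟨(RatFunc.algEquivOfTranscendental y hy).symm ⟨x, hx⟩, ?_⟩
  have h := RatFunc.algEquivOfTranscendental_apply y hy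
    ((RatFunc.algEquivOfTranscendental y hy).symm ⟨x, hx⟩)
  rw [AlgEquiv.apply_symm_apply] at h
  simpa [rfEval_def] using h

theorem rfEval_eq_algEquivOfTranscendental {E : Type*} [Field E] [Algebra k E] (y : E)
    (hy : Transcendental k y) (g : RatFunc k) :
    rfEval g y = (RatFunc.algEquivOfTranscendental y hy g : E) := by
  rw [RatFunc.algEquivOfTranscendental_apply, rfEval_def]

end Fermat.Agent.S28
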