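import Mathlib
import Fermat.Prelude.Def_ModularCurve_IgusaScheme
import Fermat.Prelude.Def_ModularCurve_LaurentCoeff

set_option autoImplicit false

noncomputable section

namespace Fermat.Agent.S28

open ModularCurve

variable (ℓ : ℕ) [Fact ℓ.Prime]

set_option quotPrecheck false in
local notation "ℤℓ" => ↥(GaloisRep.ratLocalizedAt ℓ)

theorem den_ne_zero_zmod (x : ℤℓ) : (((x : ℚ).den : ℕ) : ZMod ℓ) ≠ 0 := by
  have hx : (x : ℚ).den.Coprime ℓ := x.2
  rw [Ne, ZMod.natCast_eq_zero_iff]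
  intro hdvd
  have := Nat.Coprime.eq_one_of_dvd hx.symm hdvd
  exact (Fact.out : ℓ.Prime).one_lt.ne' this

/-- reduction `ℤ_(ℓ) → 𝔽_ℓ`. -/
def redZ : ℤℓ →+* ZMod ℓ where
  toFun x := ((x : ℚ) : ZMod ℓ)
  map_one' := by simp
  map_zero' := by simp
  map_mul' x y := by
    show (((x * y : ℤℓ) : ℚ) : ZMod ℓ) = _
    rw [Subring.coe_mul]
    exact Rat.cast_mul_of_ne_zero (den_ne_zero_zmod ℓ x) (den_ne_zero_zmod ℓ y)
  map_add' x y := by
    show (((x + y : ℤℓ) : ℚ) : ZMod ℓ) = _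
    rw [Subring.coe_add]
    exact Rat.cast_add_of_ne_zero (den_ne_zero_zmod ℓ x) (den_ne_zero_zmod ℓ y)

theorem redZ_apply (x : ℤℓ) : redZ ℓ x = ((x : ℚ) : ZMod ℓ) := rfl

omit [Fact ℓ.Prime] in
theorem mem_ratLocalizedAt_div {n : ℤ} {d : ℕ} (hd : d.Coprime ℓ) :
    ((n : ℚ) / (d : ℚ)) ∈ GaloisRep.ratLocalizedAt ℓ := by
  show ((n : ℚ) / (d : ℚ)).den.Coprime ℓ
  have h : ((n : ℚ) / (d : ℚ)).den ∣ d := by
    have := Rat.den_dvd n (d : ℤ)
    rw [Rat.divInt_eq_div] at this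
    exact_mod_cast this
  exact Nat.Coprime.coprime_dvd_left h hd

theorem redZ_eq_zero_iff (x : ℤℓ) : redZ ℓ x = 0 ↔ ((ℓ : ℕ) : ℤℓ) ∣ x := by
  constructor
  · intro h
    rw [redZ_apply, Rat.cast_def, div_eq_zero_iff] at h
    rcases h with h | h
    · rw [ZMod.intCast_zmod_eq_zero_iff_dvd] at h
      obtain ⟨k, hk⟩ := h
      refine ⟨⟨(k : ℚ) / ((x : ℚ).den : ℚ), mem_ratLocalizedAt_div ℓ x.2⟩, ?_⟩
      apply Subtype.ext
      rw [Subring.coe_mul]
      show (x : ℚ) = ((ℓ : ℕ) : ℤℓ) * ((k : ℚ) / ((x : ℚ).den : ℚ))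
      have h1 : (((ℓ : ℕ) : ℤℓ) : ℚ) = (ℓ : ℚ) := by simp
      rw [h1]
      have h2 : (x : ℚ) = ((x : ℚ).num : ℚ) / ((x : ℚ).den : ℚ) := (Rat.num_div_den _).symm
      conv_lhs => rw [h2, hk]
      push_cast
      ring
    · exact absurd h (den_ne_zero_zmod ℓ x)
  · rintro ⟨y, rfl⟩
    rw [map_mul, map_natCast, ZMod.natCast_self, zero_mul]

theorem redZ_surjective : Function.Surjective (redZ ℓ) := by
  intro a
  obtain ⟨n, rfl⟩ := ZMod.natCast_zmod_surjective a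
  exact ⟨(n : ℤℓ), map_natCast _ _⟩

theorem redZ_intCast (n : ℤ) : redZ ℓ (n : ℤℓ) = (n : ZMod ℓ) := map_intCast _ _

theorem isUnit_iff_redZ_ne_zero (x : ℤℓ) : IsUnit x ↔ redZ ℓ x ≠ 0 := by
  constructor
  · intro h
    exact (h.map (redZ ℓ)).ne_zero
  · intro h
    have hx0 : (x : ℚ) ≠ 0 := by
      intro h0
      apply h
      rw [redZ_apply, h0, Rat.cast_zero]
    have hnum : ((x : ℚ).num.natAbs).Coprime ℓ := by
      rw [Nat.coprime_comm, (Fact.out : ℓ.Prime).coprime_iff_not_dvd]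
      intro hdvd
      apply h
      rw [redZ_apply, Rat.cast_def]
      have : (((x : ℚ).num : ℤ) : ZMod ℓ) = 0 := by
        rw [ZMod.intCast_zmod_eq_zero_iff_dvd]
        exact Int.natCast_dvd.mpr hdvd
      rw [this, zero_div]
    have hmem : (x : ℚ)⁻¹ ∈ GaloisRep.ratLocalizedAt ℓ := by
      show ((x : ℚ)⁻¹).den.Coprime ℓ
      rw [Rat.den_inv_of_ne_zero hx0]
      exact hnum
    refine IsUnit.of_mul_eq_one ⟨(x : ℚ)⁻¹, hmem⟩ (Subtype.ext ?_)
    rw [Subring.coe_mul, Subring.coe_one]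
    exact mul_inv_cancel₀ hx0

theorem exists_pow_mul_unit {x : ℤℓ} (hx : x ≠ 0) :
    ∃ (n : ℕ) (u : ℤℓ), redZ ℓ u ≠ 0 ∧ x = ((ℓ : ℕ) : ℤℓ) ^ n * u := by
  have hx0 : (x : ℚ) ≠ 0 := fun h => hx (Subtype.ext h)
  have hnum0 : (x : ℚ).num ≠ 0 := Rat.num_ne_zero.mpr hx0
  have hfin : FiniteMultiplicity ((ℓ : ℕ) : ℤ) (x : ℚ).num := by
    rw [Int.finiteMultiplicity_iff]
    refine ⟨?_, hnum0⟩
    rw [Int.natAbs_natCast]
    exact (Fact.out : ℓ.Prime).one_lt.ne'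
  obtain ⟨k, hk, hndvd⟩ := hfin.exists_eq_pow_mul_and_not_dvd
  refine ⟨multiplicity ((ℓ : ℕ) : ℤ) (x : ℚ).num,
    ⟨(k : ℚ) / ((x : ℚ).den : ℚ), mem_ratLocalizedAt_div ℓ x.2⟩, ?_, ?_⟩
  · intro h0
    have hmul : (⟨(k : ℚ) / ((x : ℚ).den : ℚ), mem_ratLocalizedAt_div ℓ x.2⟩ : ℤℓ)
        * (((x : ℚ).den : ℕ) : ℤℓ) = ((k : ℤ) : ℤℓ) := by
      apply Subtype.ext
      rw [Subring.coe_mul]
      simp only [Subring.coe_natCast, Subring.coe_intCast]
      have hd : (((x : ℚ).den : ℕ) : ℚ) ≠ 0 := by exact_mod_cast (x : ℚ).den_ne_zero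
      field_simp
    have := congrArg (redZ ℓ) hmul
    rw [map_mul, h0, zero_mul, redZ_intCast] at this
    exact hndvd ((ZMod.intCast_zmod_eq_zero_iff_dvd k ℓ).mp this.symm)
  · apply Subtype.ext
    rw [Subring.coe_mul, Subring.coe_pow]
    simp only [Subring.coe_natCast]
    have h2 : (x : ℚ) = ((x : ℚ).num : ℚ) / ((x : ℚ).den : ℚ) := (Rat.num_div_den _).symm
    conv_lhs => rw [h2, hk]
    push_cast
    ring

theorem ker_redZ : RingHom.ker (redZ ℓ) = Ideal.span {((ℓ : ℕ) : ℤℓ)} := by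
  ext x
  rw [RingHom.mem_ker, redZ_eq_zero_iff, Ideal.mem_span_singleton]

theorem ell_ne_zero : ((ℓ : ℕ) : ℤℓ) ≠ 0 := by
  intro h
  have := congrArg Subtype.val h
  simp only [Subring.coe_natCast, Subring.coe_zero] at this
  exact (Fact.out : ℓ.Prime).ne_zero (by exact_mod_cast this)

theorem ell_prime : Prime ((ℓ : ℕ) : ℤℓ) := by
  rw [← Ideal.span_singleton_prime (ell_ne_zero ℓ), ← ker_redZ]
  exact RingHom.ker_isPrime _

instance instIsDiscreteValuationRingZl : IsDiscreteValuationRing ℤℓ := by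
  apply IsDiscreteValuationRing.ofHasUnitMulPowIrreducibleFactorization
  refine ⟨((ℓ : ℕ) : ℤℓ), (ell_prime ℓ).irreducible, ?_⟩
  intro x hx
  obtain ⟨n, u, hu, rfl⟩ := exists_pow_mul_unit ℓ hx
  obtain ⟨u', rfl⟩ := (isUnit_iff_redZ_ne_zero ℓ u).mpr hu
  exact ⟨n, u', rfl⟩

/-- embedding `ℤ_(ℓ)((q)) → ℚ((q))` -/
def embLS : LaurentSeries ℤℓ →+* LaurentSeries ℚ := coeffMap (algebraMap ℤℓ ℚ)

/-- reduction `ℤ_(ℓ)((q)) → 𝔽_ℓ((q))` -/
def redLS : LaurentSeries ℤℓ →+* LaurentSeries (ZMod ℓ) := coeffMap (redZ ℓ)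

@[simp] theorem embLS_coeff (f : LaurentSeries ℤℓ) (n : ℤ) :
    (embLS ℓ f).coeff n = ((f.coeff n : ℤℓ) : ℚ) := rfl

@[simp] theorem redLS_coeff (f : LaurentSeries ℤℓ) (n : ℤ) :
    (redLS ℓ f).coeff n = redZ ℓ (f.coeff n) := rfl

theorem embLS_injective : Function.Injective (embLS ℓ) := by
  intro f g h
  refine HahnSeries.ext (funext fun n => ?_)
  have := congrArg (fun s => HahnSeries.coeff s n) h
  simp only [embLS_coeff] at this
  exact Subtype.ext this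

theorem embLS_eq_zero_iff (f : LaurentSeries ℤℓ) : embLS ℓ f = 0 ↔ f = 0 :=
  map_eq_zero_iff _ (embLS_injective ℓ)

/-- the constant `ℓ` in `ℤ_(ℓ)((q))`. -/
theorem natCast_mul_coeff (f : LaurentSeries ℤℓ) (n : ℤ) :
    (((ℓ : ℕ) : LaurentSeries ℤℓ) * f).coeff n = ((ℓ : ℕ) : ℤℓ) * f.coeff n := by
  have : ((ℓ : ℕ) : LaurentSeries ℤℓ) = HahnSeries.C ((ℓ : ℕ) : ℤℓ) := by
    rw [map_natCast]
  rw [this, HahnSeries.C_mul_eq_smul, HahnSeries.coeff_smul, smul_eq_mul]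

theorem redLS_eq_zero_iff (f : LaurentSeries ℤℓ) :
    redLS ℓ f = 0 ↔ ∃ g : LaurentSeries ℤℓ, f = ((ℓ : ℕ) : LaurentSeries ℤℓ) * g := by
  classical
  constructor
  · intro h
    have hdvd : ∀ n, ((ℓ : ℕ) : ℤℓ) ∣ f.coeff n := by
      intro n
      rw [← redZ_eq_zero_iff, ← redLS_coeff, h, HahnSeries.coeff_zero]
    let φ : ZeroHom ℤℓ ℤℓ :=
      { toFun := fun x => if hx : ((ℓ : ℕ) : ℤℓ) ∣ x then hx.choose else 0
        map_zero' := by
          have h0 : ((ℓ : ℕ) : ℤℓ) ∣ 0 := dvd_zero _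
          rw [dif_pos h0]
          have := h0.choose_spec
          rcases mul_eq_zero.mp this.symm with h1 | h1
          · exact absurd h1 (ell_ne_zero ℓ)
          · exact h1 }
    refine ⟨f.map φ, HahnSeries.ext (funext fun n => ?_)⟩
    rw [natCast_mul_coeff, HahnSeries.map_coeff]
    show f.coeff n = _ * (if hx : ((ℓ : ℕ) : ℤℓ) ∣ f.coeff n then hx.choose else 0)
    rw [dif_pos (hdvd n)]
    exact (hdvd n).choose_spec
  · rintro ⟨g, rfl⟩
    rw [map_mul, map_natCast]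
    have : ((ℓ : ℕ) : LaurentSeries (ZMod ℓ)) = 0 := by
      have : ((ℓ : ℕ) : LaurentSeries (ZMod ℓ)) = HahnSeries.C ((ℓ : ℕ) : ZMod ℓ) := by
        rw [map_natCast]
      rw [this, ZMod.natCast_self, map_zero]
    rw [this, zero_mul]

/-- Gauss valuation exists: a nonzero series is `ℓ^m` times a series with nonzero reduction. -/
theorem exists_pow_mul_redLS_ne_zero {f : LaurentSeries ℤℓ} (hf : f ≠ 0) :
    ∃ (m : ℕ) (g : LaurentSeries ℤℓ), redLS ℓ g ≠ 0 ∧ f = ((ℓ : ℕ) : LaurentSeries ℤℓ) ^ m * g := by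
  obtain ⟨n0, hn0⟩ : ∃ n0, f.coeff n0 ≠ 0 := by
    by_contra hcon
    push Not at hcon
    exact hf (HahnSeries.ext (funext hcon))
  obtain ⟨k, u, hu, hk⟩ := exists_pow_mul_unit ℓ hn0
  induction k generalizing f with
  | zero =>
    refine ⟨0, f, ?_, by simp⟩
    intro h0
    have := congrArg (fun s => HahnSeries.coeff s n0) h0
    simp only [redLS_coeff, HahnSeries.coeff_zero] at this
    rw [hk, pow_zero, one_mul] at this
    exact hu this
  | succ k ih =>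
    by_cases hred : redLS ℓ f = 0
    · obtain ⟨g, rfl⟩ := (redLS_eq_zero_iff ℓ f).mp hred
      have hg : g ≠ 0 := by
        rintro rfl
        exact hf (mul_zero _)
      have hgk : g.coeff n0 = ((ℓ : ℕ) : ℤℓ) ^ k * u := by
        rw [natCast_mul_coeff, pow_succ, mul_assoc, mul_comm (((ℓ : ℕ) : ℤℓ) ^ k), mul_assoc] at hk
        have := mul_left_cancel₀ (ell_ne_zero ℓ) hk
        rw [this, mul_comm]
      have hgn0 : g.coeff n0 ≠ 0 := by
        intro h0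
        apply hn0
        rw [natCast_mul_coeff, h0, mul_zero]
      obtain ⟨m, g', hg', hgg'⟩ := ih hg hgn0 hgk
      refine ⟨m + 1, g', hg', ?_⟩
      rw [hgg', pow_succ]
      ring
    · exact ⟨0, f, hred, by simp⟩


/-- The Gauss valuation ring inside `ℚ((q))`: quotients `a / b` of `ℓ`-integral Laurent series
with `b` nonzero mod `ℓ`. -/
def gaussSubring : Subring (LaurentSeries ℚ) where
  carrier := {y | ∃ a b : LaurentSeries ℤℓ, redLS ℓ b ≠ 0 ∧ y * embLS ℓ b = embLS ℓ a}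
  zero_mem' := ⟨0, 1, by rw [map_one]; exact one_ne_zero, by simp⟩
  one_mem' := ⟨1, 1, by rw [map_one]; exact one_ne_zero, by simp⟩
  add_mem' := by
    rintro y₁ y₂ ⟨a₁, b₁, hb₁, h₁⟩ ⟨a₂, b₂, hb₂, h₂⟩
    refine ⟨a₁ * b₂ + a₂ * b₁, b₁ * b₂, ?_, ?_⟩
    · rw [map_mul]; exact mul_ne_zero hb₁ hb₂
    · rw [map_add, map_mul, map_mul, map_mul, ← h₁, ← h₂]; ring
  mul_mem' := by
    rintro y₁ y₂ ⟨a₁, b₁, hb₁, h₁⟩ ⟨a₂, b₂, hb₂, h₂⟩
    refine ⟨a₁ * a₂, b₁ * b₂, ?_, ?_⟩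
    · rw [map_mul]; exact mul_ne_zero hb₁ hb₂
    · rw [map_mul, map_mul, ← h₁, ← h₂]; ring
  neg_mem' := by
    rintro y ⟨a, b, hb, h⟩
    exact ⟨-a, b, hb, by rw [map_neg, ← h]; ring⟩

theorem mem_gaussSubring_iff {y : LaurentSeries ℚ} :
    y ∈ gaussSubring ℓ ↔
      ∃ a b : LaurentSeries ℤℓ, redLS ℓ b ≠ 0 ∧ y * embLS ℓ b = embLS ℓ a := Iff.rfl

theorem embLS_mem_gaussSubring (a : LaurentSeries ℤℓ) : embLS ℓ a ∈ gaussSubring ℓ :=
  ⟨a, 1, by rw [map_one]; exact one_ne_zero, by simp⟩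

/-- reduction map of the Gauss valuation ring. -/
def gaussRedFun (y : gaussSubring ℓ) : LaurentSeries (ZMod ℓ) :=
  redLS ℓ y.2.choose / redLS ℓ y.2.choose_spec.choose

theorem gaussRedFun_spec (y : gaussSubring ℓ) {a b : LaurentSeries ℤℓ} (_hb : redLS ℓ b ≠ 0)
    (h : (y : LaurentSeries ℚ) * embLS ℓ b = embLS ℓ a) :
    gaussRedFun ℓ y * redLS ℓ b = redLS ℓ a := by
  obtain ⟨hb₀, h₀⟩ := y.2.choose_spec.choose_spec
  set a₀ := y.2.choose
  set b₀ := y.2.choose_spec.choose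
  have hcross : a₀ * b = a * b₀ := by
    apply embLS_injective ℓ
    rw [map_mul, map_mul, ← h₀, ← h]; ring
  have hcross' := congrArg (redLS ℓ) hcross
  rw [map_mul, map_mul] at hcross'
  show redLS ℓ a₀ / redLS ℓ b₀ * redLS ℓ b = redLS ℓ a
  rw [div_mul_eq_mul_div, hcross', mul_div_assoc, div_self hb₀, mul_one]

theorem gaussRedFun_eq_div (y : gaussSubring ℓ) {a b : LaurentSeries ℤℓ} (hb : redLS ℓ b ≠ 0)
    (h : (y : LaurentSeries ℚ) * embLS ℓ b = embLS ℓ a) :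
    gaussRedFun ℓ y = redLS ℓ a / redLS ℓ b := by
  rw [eq_div_iff hb, gaussRedFun_spec ℓ y hb h]

/-- reduction map of the Gauss valuation ring, as a ring homomorphism. -/
def gaussRed : gaussSubring ℓ →+* LaurentSeries (ZMod ℓ) where
  toFun := gaussRedFun ℓ
  map_one' := by
    have := gaussRedFun_spec ℓ (1 : gaussSubring ℓ) (a := 1) (b := 1)
      (by rw [map_one]; exact one_ne_zero) (by simp)
    simpa using this
  map_zero' := by
    have := gaussRedFun_spec ℓ (0 : gaussSubring ℓ) (a := 0) (b := 1)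
      (by rw [map_one]; exact one_ne_zero) (by simp)
    simpa using this
  map_mul' := by
    intro y₁ y₂
    obtain ⟨a₁, b₁, hb₁, h₁⟩ := y₁.2
    obtain ⟨a₂, b₂, hb₂, h₂⟩ := y₂.2
    have e₁ := gaussRedFun_eq_div ℓ y₁ hb₁ h₁
    have e₂ := gaussRedFun_eq_div ℓ y₂ hb₂ h₂
    have hb : redLS ℓ (b₁ * b₂) ≠ 0 := by rw [map_mul]; exact mul_ne_zero hb₁ hb₂
    have e := gaussRedFun_eq_div ℓ (y₁ * y₂) (a := a₁ * a₂) (b := b₁ * b₂) hb
      (by rw [map_mul, map_mul, Subring.coe_mul]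
          linear_combination ((y₂ : LaurentSeries ℚ) * embLS ℓ b₂) * h₁ + embLS ℓ a₁ * h₂)
    rw [e, e₁, e₂, map_mul, map_mul, div_mul_div_comm]
  map_add' := by
    intro y₁ y₂
    obtain ⟨a₁, b₁, hb₁, h₁⟩ := y₁.2
    obtain ⟨a₂, b₂, hb₂, h₂⟩ := y₂.2
    have e₁ := gaussRedFun_eq_div ℓ y₁ hb₁ h₁
    have e₂ := gaussRedFun_eq_div ℓ y₂ hb₂ h₂
    have hb : redLS ℓ (b₁ * b₂) ≠ 0 := by rw [map_mul]; exact mul_ne_zero hb₁ hb₂
    have e := gaussRedFun_eq_div ℓ (y₁ + y₂) (a := a₁ * b₂ + a₂ * b₁) (b := b₁ * b₂) hb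
      (by rw [map_add, map_mul, map_mul, map_mul, Subring.coe_add]
          linear_combination (embLS ℓ b₂) * h₁ + (embLS ℓ b₁) * h₂)
    rw [e, e₁, e₂, map_add, map_mul, map_mul, map_mul, div_add_div _ _ hb₁ hb₂,
      mul_comm (redLS ℓ b₁) (redLS ℓ a₂)]

theorem gaussRed_spec (y : gaussSubring ℓ) {a b : LaurentSeries ℤℓ} (hb : redLS ℓ b ≠ 0)
    (h : (y : LaurentSeries ℚ) * embLS ℓ b = embLS ℓ a) :
    gaussRed ℓ y * redLS ℓ b = redLS ℓ a := gaussRedFun_spec ℓ y hb h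

theorem gaussRed_embLS (a : LaurentSeries ℤℓ) :
    gaussRed ℓ ⟨embLS ℓ a, embLS_mem_gaussSubring ℓ a⟩ = redLS ℓ a := by
  have := gaussRed_spec ℓ ⟨embLS ℓ a, embLS_mem_gaussSubring ℓ a⟩ (a := a) (b := 1)
    (by rw [map_one]; exact one_ne_zero) (by simp)
  simpa using this


theorem natCast_self_laurent_zmod : ((ℓ : ℕ) : LaurentSeries (ZMod ℓ)) = 0 := by
  have : ((ℓ : ℕ) : LaurentSeries (ZMod ℓ)) = HahnSeries.C ((ℓ : ℕ) : ZMod ℓ) := by
    rw [map_natCast]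
  rw [this, ZMod.natCast_self, map_zero]

theorem natCast_ne_zero_laurent_rat : ((ℓ : ℕ) : LaurentSeries ℚ) ≠ 0 := by
  have h : ((ℓ : ℕ) : LaurentSeries ℚ) = HahnSeries.C ((ℓ : ℕ) : ℚ) := by
    rw [map_natCast]
  rw [h, Ne, map_eq_zero_iff _ HahnSeries.C_injective]
  exact_mod_cast (Fact.out : ℓ.Prime).ne_zero

theorem gaussRed_eq_zero_iff (y : gaussSubring ℓ) :
    gaussRed ℓ y = 0 ↔ ∃ z : gaussSubring ℓ, y = ((ℓ : ℕ) : gaussSubring ℓ) * z := by
  constructor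
  · intro h
    obtain ⟨a, b, hb, hab⟩ := y.2
    have h1 := gaussRed_spec ℓ y hb hab
    rw [h, zero_mul] at h1
    obtain ⟨a', rfl⟩ := (redLS_eq_zero_iff ℓ a).mp h1.symm
    have hℓ := natCast_ne_zero_laurent_rat ℓ
    have hz : ((ℓ : ℕ) : LaurentSeries ℚ)⁻¹ * (y : LaurentSeries ℚ) ∈ gaussSubring ℓ := by
      refine ⟨a', b, hb, ?_⟩
      rw [mul_assoc, hab, map_mul, map_natCast, ← mul_assoc, inv_mul_cancel₀ hℓ, one_mul]
    refine ⟨⟨_, hz⟩, Subtype.ext ?_⟩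
    rw [Subring.coe_mul, Subring.coe_natCast, ← mul_assoc, mul_inv_cancel₀ hℓ, one_mul]
  · rintro ⟨z, rfl⟩
    rw [map_mul, map_natCast, natCast_self_laurent_zmod, zero_mul]

/-- The fraction field of `ℤ_(ℓ)((q))` inside `ℚ((q))`. -/
def gaussField : Subfield (LaurentSeries ℚ) where
  carrier := {y | ∃ a b : LaurentSeries ℤℓ, b ≠ 0 ∧ y * embLS ℓ b = embLS ℓ a}
  zero_mem' := ⟨0, 1, one_ne_zero, by simp⟩
  one_mem' := ⟨1, 1, one_ne_zero, by simp⟩
  add_mem' := by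
    rintro y₁ y₂ ⟨a₁, b₁, hb₁, h₁⟩ ⟨a₂, b₂, hb₂, h₂⟩
    refine ⟨a₁ * b₂ + a₂ * b₁, b₁ * b₂, mul_ne_zero hb₁ hb₂, ?_⟩
    rw [map_add, map_mul, map_mul, map_mul, ← h₁, ← h₂]; ring
  mul_mem' := by
    rintro y₁ y₂ ⟨a₁, b₁, hb₁, h₁⟩ ⟨a₂, b₂, hb₂, h₂⟩
    refine ⟨a₁ * a₂, b₁ * b₂, mul_ne_zero hb₁ hb₂, ?_⟩
    rw [map_mul, map_mul, ← h₁, ← h₂]; ring
  neg_mem' := by
    rintro y ⟨a, b, hb, h⟩
    exact ⟨-a, b, hb, by rw [map_neg, ← h]; ring⟩
  inv_mem' := by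
    rintro y ⟨a, b, hb, h⟩
    by_cases ha : a = 0
    · subst ha
      rw [map_zero] at h
      have hb' : embLS ℓ b ≠ 0 := fun h0 => hb ((embLS_eq_zero_iff ℓ b).mp h0)
      have hy : y = 0 := by
        rcases mul_eq_zero.mp h with h1 | h1
        · exact h1
        · exact absurd h1 hb'
      subst hy
      exact ⟨0, 1, one_ne_zero, by simp⟩
    · refine ⟨b, a, ha, ?_⟩
      have ha' : embLS ℓ a ≠ 0 := fun h0 => ha ((embLS_eq_zero_iff ℓ a).mp h0)
      have hy : y ≠ 0 := by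
        rintro rfl
        rw [zero_mul] at h
        exact ha' h.symm
      rw [← h]
      field_simp

theorem gaussSubring_le_gaussField : gaussSubring ℓ ≤ (gaussField ℓ).toSubring := by
  rintro y ⟨a, b, hb, h⟩
  refine ⟨a, b, ?_, h⟩
  rintro rfl
  exact hb (map_zero _)

theorem embLS_mem_gaussField (a : LaurentSeries ℤℓ) : embLS ℓ a ∈ gaussField ℓ :=
  gaussSubring_le_gaussField ℓ (embLS_mem_gaussSubring ℓ a)

/-- valuation ring property -/
theorem mem_gaussSubring_or_inv_mem {y : LaurentSeries ℚ} (hy : y ∈ gaussField ℓ) :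
    y ∈ gaussSubring ℓ ∨ y⁻¹ ∈ gaussSubring ℓ := by
  obtain ⟨a, b, hb, h⟩ := hy
  by_cases ha : a = 0
  · left
    subst ha
    rw [map_zero] at h
    have hb' : embLS ℓ b ≠ 0 := fun h0 => hb ((embLS_eq_zero_iff ℓ b).mp h0)
    have hy : y = 0 := by
      rcases mul_eq_zero.mp h with h1 | h1
      · exact h1
      · exact absurd h1 hb'
    subst hy
    exact zero_mem _
  · obtain ⟨m, a', ha', rfl⟩ := exists_pow_mul_redLS_ne_zero ℓ ha
    obtain ⟨n, b', hb', rfl⟩ := exists_pow_mul_redLS_ne_zero ℓ hb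
    have hℓ := natCast_ne_zero_laurent_rat ℓ
    simp only [map_mul, map_pow, map_natCast] at h
    have hb'' : embLS ℓ b' ≠ 0 := by
      intro h0
      rw [embLS_eq_zero_iff] at h0
      exact hb' (by rw [h0, map_zero])
    have ha'' : embLS ℓ a' ≠ 0 := by
      intro h0
      rw [embLS_eq_zero_iff] at h0
      exact ha' (by rw [h0, map_zero])
    rcases le_or_gt n m with hnm | hnm
    · left
      refine ⟨((ℓ : ℕ) : LaurentSeries ℤℓ) ^ (m - n) * a', b', hb', ?_⟩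
      rw [map_mul, map_pow, map_natCast]
      have hpow : ((ℓ : ℕ) : LaurentSeries ℚ) ^ n ≠ 0 := pow_ne_zero _ hℓ
      apply mul_left_cancel₀ hpow
      rw [← mul_assoc, ← mul_assoc, ← pow_add, Nat.add_sub_cancel' hnm, ← h]
      ring
    · right
      have hy : y ≠ 0 := by
        rintro rfl
        rw [zero_mul] at h
        exact (mul_ne_zero (pow_ne_zero _ hℓ) ha'') h.symm
      refine ⟨((ℓ : ℕ) : LaurentSeries ℤℓ) ^ (n - m) * b', a', ha', ?_⟩
      rw [map_mul, map_pow, map_natCast]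
      have hpow : ((ℓ : ℕ) : LaurentSeries ℚ) ^ m ≠ 0 := pow_ne_zero _ hℓ
      apply mul_left_cancel₀ hpow
      apply mul_left_cancel₀ hy
      have e : ((ℓ : ℕ) : LaurentSeries ℚ) ^ n
          = ((ℓ : ℕ) : LaurentSeries ℚ) ^ m * ((ℓ : ℕ) : LaurentSeries ℚ) ^ (n - m) := by
        rw [← pow_add, Nat.add_sub_cancel' hnm.le]
      rw [e] at h
      calc y * (((ℓ : ℕ) : LaurentSeries ℚ) ^ m * (y⁻¹ * embLS ℓ a'))
          = (y * y⁻¹) * (((ℓ : ℕ) : LaurentSeries ℚ) ^ m * embLS ℓ a') := by ring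
        _ = ((ℓ : ℕ) : LaurentSeries ℚ) ^ m * embLS ℓ a' := by
            rw [mul_inv_cancel₀ hy, one_mul]
        _ = y * (((ℓ : ℕ) : LaurentSeries ℚ) ^ m
              * (((ℓ : ℕ) : LaurentSeries ℚ) ^ (n - m) * embLS ℓ b')) := by
            rw [← h]; ring

/-- A subring of a field containing the inverse of an integral element contains the element. -/
theorem mem_of_isIntegral_of_inv_mem {K : Type*} [Field K] (O : Subring K) {y : K}
    (hint : IsIntegral O y) (hinv : y⁻¹ ∈ O) : y ∈ O := by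
  by_cases hy : y = 0
  · rw [hy]; exact zero_mem _
  obtain ⟨p, hmonic, hp⟩ := hint
  rw [Polynomial.eval₂_eq_sum_range, Finset.sum_range_succ, hmonic.coeff_natDegree, map_one,
    one_mul] at hp
  rcases Nat.eq_zero_or_pos p.natDegree with hd | hd
  · rw [hd, Finset.sum_range_zero, zero_add, pow_zero] at hp
    exact absurd hp one_ne_zero
  · obtain ⟨e, he⟩ := Nat.exists_eq_succ_of_ne_zero hd.ne'
    rw [he] at hp
    have hy1 : y = -∑ i ∈ Finset.range (e + 1),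
        (algebraMap O K (p.coeff i)) * (y⁻¹) ^ (e - i) := by
      have h2 : y ^ (e + 1) = -∑ i ∈ Finset.range (e + 1), (algebraMap O K (p.coeff i)) * y ^ i :=
        eq_neg_of_add_eq_zero_right hp
      calc y = y ^ (e + 1) * (y⁻¹) ^ e := by
            rw [pow_succ, mul_comm (y ^ e), mul_assoc, ← mul_pow, mul_inv_cancel₀ hy, one_pow,
              mul_one]
        _ = -∑ i ∈ Finset.range (e + 1), (algebraMap O K (p.coeff i)) * (y⁻¹) ^ (e - i) := by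
            rw [h2, neg_mul, Finset.sum_mul]
            congr 1
            refine Finset.sum_congr rfl fun i hi => ?_
            have hie : i ≤ e := Nat.lt_succ_iff.mp (Finset.mem_range.mp hi)
            have : y ^ i * (y⁻¹) ^ e = (y⁻¹) ^ (e - i) := by
              conv_lhs => rw [← Nat.sub_add_cancel hie, pow_add, ← mul_assoc, mul_comm (y ^ i),
                mul_assoc, ← mul_pow, mul_inv_cancel₀ hy, one_pow, mul_one]
            rw [mul_assoc, this]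
    rw [hy1]
    refine neg_mem (sum_mem fun i _ => mul_mem ?_ (pow_mem hinv _))
    exact (p.coeff i).2

theorem mem_gaussSubring_of_isIntegral {y : LaurentSeries ℚ} (hy : y ∈ gaussField ℓ)
    (hint : IsIntegral (gaussSubring ℓ) y) : y ∈ gaussSubring ℓ := by
  rcases mem_gaussSubring_or_inv_mem ℓ hy with h | h
  · exact h
  · exact mem_of_isIntegral_of_inv_mem _ hint h


end Fermat.Agent.S28
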