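import Fermat.Prelude.Def_ModularCurve_JqCoeff
import Fermat.Prelude.Def_ModularCurve_LaurentCoeff
import Fermat.Prelude.Thm_ModularCurve_coeffMap_qExpand

set_option autoImplicit false

noncomputable section

open HahnSeries ModularCurve

namespace Fermat.Agent.S28

variable {R : Type*} [CommRing R]

/-- The substitution `u ↦ ζ u` on Laurent series, for a unit `ζ`. -/
def twistFun (ζ : Rˣ) (f : LaurentSeries R) : LaurentSeries R where
  coeff n := ((ζ ^ n : Rˣ) : R) * f.coeff n
  isPWO_support' := f.isPWO_support.mono fun n hn => by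
    simp only [Function.mem_support, ne_eq] at hn ⊢
    intro h
    exact hn (by rw [h, mul_zero])

@[simp]
theorem twistFun_coeff (ζ : Rˣ) (f : LaurentSeries R) (n : ℤ) :
    (twistFun ζ f).coeff n = ((ζ ^ n : Rˣ) : R) * f.coeff n := rfl

theorem support_twistFun (ζ : Rˣ) (f : LaurentSeries R) :
    (twistFun ζ f).support = f.support := by
  ext n
  simp only [HahnSeries.mem_support, twistFun_coeff, ne_eq]
  exact not_congr (Units.mul_right_eq_zero _)

theorem twistFun_mul (ζ : Rˣ) (f g : LaurentSeries R) :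
    twistFun ζ (f * g) = twistFun ζ f * twistFun ζ g := by
  ext n
  rw [twistFun_coeff, HahnSeries.coeff_mul, HahnSeries.coeff_mul, Finset.mul_sum]
  have hfin : Finset.antidiagonal (twistFun ζ f).isPWO_support (twistFun ζ g).isPWO_support n
      = Finset.antidiagonal f.isPWO_support g.isPWO_support n := by
    ext x
    simp only [Finset.mem_antidiagonal, support_twistFun]
  rw [hfin]
  refine Finset.sum_congr rfl fun x hx => ?_
  have hx' : x.1 + x.2 = n := (Finset.mem_antidiagonal.mp hx).2.2
  rw [twistFun_coeff, twistFun_coeff, ← hx', zpow_add, Units.val_mul]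
  ring

/-- The substitution `u ↦ ζ u` as a ring endomorphism of Laurent series. -/
def twist (ζ : Rˣ) : LaurentSeries R →+* LaurentSeries R where
  toFun := twistFun ζ
  map_one' := by
    ext n
    rw [twistFun_coeff, HahnSeries.coeff_one]
    split_ifs with h
    · subst h; simp
    · simp
  map_mul' := twistFun_mul ζ
  map_zero' := by
    ext n
    simp
  map_add' f g := by
    ext n
    simp [mul_add]

@[simp]
theorem twist_coeff (ζ : Rˣ) (f : LaurentSeries R) (n : ℤ) :
    (twist ζ f).coeff n = ((ζ ^ n : Rˣ) : R) * f.coeff n := rfl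

theorem twist_one (f : LaurentSeries R) : twist (1 : Rˣ) f = f := by
  ext n
  simp

theorem twist_twist (ζ ξ : Rˣ) (f : LaurentSeries R) :
    twist ζ (twist ξ f) = twist (ζ * ξ) f := by
  ext n
  rw [twist_coeff, twist_coeff, twist_coeff, mul_zpow, Units.val_mul, mul_assoc]

theorem twist_single (ζ : Rˣ) (n : ℤ) (r : R) :
    twist ζ (HahnSeries.single n r) = HahnSeries.single n (((ζ ^ n : Rˣ) : R) * r) := by
  ext m
  rw [twist_coeff]
  rcases eq_or_ne m n with rfl | h
  · simp
  · simp [HahnSeries.coeff_single_of_ne h]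

theorem twist_C (ζ : Rˣ) (r : R) : twist ζ (HahnSeries.C r) = HahnSeries.C r := by
  rw [HahnSeries.C_apply, twist_single]
  simp

/-- Twisting by `ζ` after `u ↦ u ^ n` is `u ↦ u ^ n` after twisting by `ζ ^ n`. -/
theorem twist_qExpand (ζ : Rˣ) (n : ℕ) [NeZero n] (f : LaurentSeries R) :
    twist ζ (qExpand R n f) = qExpand R n (twist (ζ ^ n) f) := by
  ext m
  rw [twist_coeff]
  by_cases hm : (n : ℤ) ∣ m
  · obtain ⟨k, rfl⟩ := hm
    rw [qExpand_coeff_mul, qExpand_coeff_mul, twist_coeff, ← zpow_natCast, ← zpow_mul]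
  · rw [qExpand_coeff_of_not_dvd n f hm, qExpand_coeff_of_not_dvd n _ hm, mul_zero]

/-- If `ζ ^ n = 1` then `u ↦ ζ u` fixes every series in `u ^ n`. -/
theorem twist_qExpand_of_pow_eq_one (ζ : Rˣ) (n : ℕ) [NeZero n] (h : ζ ^ n = 1)
    (f : LaurentSeries R) : twist ζ (qExpand R n f) = qExpand R n f := by
  rw [twist_qExpand, h, twist_one]

theorem twist_injective (ζ : Rˣ) : Function.Injective (twist ζ : LaurentSeries R → _) := by
  intro f g h
  have := congrArg (twist ζ⁻¹) h
  rwa [twist_twist, twist_twist, inv_mul_cancel, twist_one, twist_one] at this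

theorem coeffMap_twist {S : Type*} [CommRing S] (φ : R →+* S) (ζ : Rˣ) (f : LaurentSeries R) :
    coeffMap φ (twist ζ f) = twist (Units.map (φ : R →* S) ζ) (coeffMap φ f) := by
  ext n
  rw [coeffMap_coeff, twist_coeff, twist_coeff, coeffMap_coeff, map_mul, ← map_zpow]
  rfl

end Fermat.Agent.S28
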