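import Mathlib

/-!
# P-S28, abstract half of WP-D (helper60): the reduction theorem

`reduction_abstract` (signature fixed with helper82): let `R` be a UFD, `p ∈ R` prime, `F` a field
over `R`, `w ∈ F` transcendental over `R`, `O ⊆ F` a subring containing `R` and `w`.
Let `ω_1, …, ω_n ∈ F` be integral over `R[w]`, spanning `F` over `Frac R[w]`, and such that their
"reductions mod `p O`" are linearly independent over `(R/p)(w)` (hypothesis `hind`).
Then the integral closure `A` of `R[w]` in `F` satisfies `A ∩ p O = p A`.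

Auxiliary results of independent interest:
* `isIntegral_of_pow_dvd_coeff` (descaling the roots of a monic polynomial);
* `isIntegral_of_prime_smul_of_smul` (coprime denominators over an integrally closed domain);
* `isIntegral_polynomial_of_adjoin`, `isIntegral_adjoin_of_polynomial`
  (integrality over `R[w]` versus integrality over `R[X]` acting through `X ↦ w`).
-/

set_option autoImplicit false

open Polynomial

namespace Fermat.Agent.S28

/-- If `M₁ ∈ B[X]` is monic of degree `d`, `π ^ (d - i)` divides the `i`-th coefficient of `M₁`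
for all `i`, and `M₁ (π • z) = 0`, then `z` is integral (descaling of roots). -/
theorem isIntegral_of_pow_dvd_coeff {B S : Type*} [CommRing B] [IsDomain B]
    [CommRing S] [IsDomain S] [Algebra B S] [FaithfulSMul B S]
    {π : B} (hπ0 : π ≠ 0) {z : S} {M₁ : B[X]} (hmonic : M₁.Monic)
    (hdvd : ∀ i, π ^ (M₁.natDegree - i) ∣ M₁.coeff i)
    (hroot : aeval (π • z) M₁ = 0) : IsIntegral B z := by
  classical
  set d := M₁.natDegree with hd
  choose a' ha' using hdvd
  have had : a' d = 1 := by
    have := ha' d
    rw [Nat.sub_self, pow_zero, one_mul, hd, hmonic.coeff_natDegree] at this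
    exact this.symm
  set M : B[X] := ∑ i ∈ Finset.range (d + 1), monomial i (a' i) with hM
  have hcoeff : ∀ k, M.coeff k = if k ≤ d then a' k else 0 := by
    intro k
    rw [hM, finsetSum_coeff]
    simp_rw [coeff_monomial]
    rw [Finset.sum_ite_eq' (Finset.range (d + 1)) k a']
    simp
  have hdeg : M.natDegree = d := by
    apply le_antisymm
    · rw [natDegree_le_iff_coeff_eq_zero]
      intro k hk
      rw [hcoeff, if_neg (not_le.mpr hk)]
    · apply le_natDegree_of_ne_zero
      rw [hcoeff, if_pos le_rfl, had]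
      exact one_ne_zero
  have hMmonic : M.Monic := by
    rw [Monic, leadingCoeff, hdeg, hcoeff, if_pos le_rfl, had]
  have hscale : M.scaleRoots π = M₁ := by
    ext k
    rw [coeff_scaleRoots, hdeg, hcoeff]
    split_ifs with hk
    · rw [ha' k, mul_comm]
    · rw [zero_mul, coeff_eq_zero_of_natDegree_lt (not_le.mp hk)]
  refine ⟨M, hMmonic, ?_⟩
  have h1 := scaleRoots_eval₂_mul (p := M) (algebraMap B S) z π
  rw [hscale] at h1
  have h2 : eval₂ (algebraMap B S) (algebraMap B S π * z) M₁ = 0 := by
    rw [← Algebra.smul_def, ← aeval_def]; exact hroot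
  rw [h2] at h1
  have h3 : algebraMap B S π ^ M.natDegree ≠ 0 :=
    pow_ne_zero _ ((map_ne_zero_iff _ (FaithfulSMul.algebraMap_injective B S)).mpr hπ0)
  exact (mul_eq_zero.mp h1.symm).resolve_left h3

/-- **Coprime denominators.** Over an integrally closed domain `B`, if `π • z` and `b • z` are
integral, `π` is prime and `π ∤ b`, then `z` is integral. -/
theorem isIntegral_of_prime_smul_of_smul {B S : Type*} [CommRing B] [IsDomain B]
    [IsIntegrallyClosed B] [CommRing S] [IsDomain S] [Algebra B S] [FaithfulSMul B S]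
    {π b : B} (hπ : Prime π) (hb : ¬ π ∣ b) {z : S}
    (h1 : IsIntegral B (π • z)) (h2 : IsIntegral B (b • z)) : IsIntegral B z := by
  have hπ0 : π ≠ 0 := hπ.ne_zero
  have hb0 : b ≠ 0 := fun h => hb (h ▸ dvd_zero π)
  have e1 := IsIntegrallyClosed.minpoly_smul hb0 h1
  have e2 := IsIntegrallyClosed.minpoly_smul hπ0 h2
  rw [smul_comm] at e1
  rw [e1] at e2
  -- `e2 : (minpoly B (π • z)).scaleRoots b = (minpoly B (b • z)).scaleRoots π`
  set M₁ := minpoly B (π • z) with hM₁
  set M₂ := minpoly B (b • z) with hM₂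
  have hdeg : M₁.natDegree = M₂.natDegree := by
    have := congrArg natDegree e2
    rwa [natDegree_scaleRoots, natDegree_scaleRoots] at this
  refine isIntegral_of_pow_dvd_coeff hπ0 (minpoly.monic h1) (fun i => ?_) (minpoly.aeval B _)
  have hc := congrArg (fun P => P.coeff i) e2
  simp only [coeff_scaleRoots] at hc
  rw [← hdeg] at hc
  refine hπ.pow_dvd_of_dvd_mul_right (b := b ^ (M₁.natDegree - i)) _
    (fun h => hb (hπ.dvd_of_dvd_pow h)) ?_
  rw [hc]
  exact dvd_mul_left _ _

section Conv

variable {R F : Type*} [CommRing R] [Field F] [Algebra R F] (w : F)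

/-- integrality over `R[w]` implies integrality over `R[X]` acting through `X ↦ w`. -/
theorem isIntegral_polynomial_of_adjoin {x : F}
    (hx : IsIntegral (Algebra.adjoin R {w}) x) :
    letI : Algebra R[X] F := (aeval (R := R) w).toRingHom.toAlgebra
    IsIntegral R[X] x := by
  let _ : Algebra R[X] F := (aeval (R := R) w).toRingHom.toAlgebra
  obtain ⟨P, hmonic, hroot⟩ := hx
  have hlifts : P.map (algebraMap (Algebra.adjoin R {w}) F) ∈
      Polynomial.lifts (algebraMap R[X] F) := by
    refine (Polynomial.lifts_iff_coeff_lifts _).mpr fun i => ?_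
    rw [coeff_map]
    have hmem : ((P.coeff i : Algebra.adjoin R {w}) : F) ∈ (aeval (R := R) w).range := by
      rw [← Algebra.adjoin_singleton_eq_range_aeval]; exact (P.coeff i).2
    obtain ⟨Q, hQ⟩ := hmem
    exact ⟨Q, hQ⟩
  obtain ⟨q', hq', -, hq'monic⟩ :=
    Polynomial.lifts_and_natDegree_eq_and_monic hlifts (hmonic.map _)
  refine ⟨q', hq'monic, ?_⟩
  rw [eval₂_eq_eval_map, hq', ← eval₂_eq_eval_map]
  exact hroot

/-- integrality over `R[X]` acting through `X ↦ w` implies integrality over `R[w]`. -/
theorem isIntegral_adjoin_of_polynomial {x : F}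
    (hx : letI : Algebra R[X] F := (aeval (R := R) w).toRingHom.toAlgebra
      IsIntegral R[X] x) :
    IsIntegral (Algebra.adjoin R {w}) x := by
  let _ : Algebra R[X] F := (aeval (R := R) w).toRingHom.toAlgebra
  let φ : R[X] →+* Algebra.adjoin R {w} :=
    ((aeval (R := R) w).codRestrict (Algebra.adjoin R {w})
      (fun Q => aeval_mem_adjoin_singleton R w)).toRingHom
  have := hx.map_of_comp_eq φ (RingHom.id F) (by ext <;> rfl)
  simpa using this

end Conv

/-- clearing the `p`-part of the denominator: if `(C p ^ m * Q')(w) z` lies in the `R[w]`-span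
of the `ω i` and `z ∈ O`, then already `Q'(w) z` does. -/
theorem exists_span_of_pow_mul
    {R F : Type*} [CommRing R] [IsDomain R]
    [Field F] [Algebra R F]
    (p : R)
    (O : Subring F)
    (hRO : ∀ r : R, algebraMap R F r ∈ O)
    (w : F) (hw : w ∈ O) (hwtr : Function.Injective (aeval (R := R) w))
    {n : ℕ} (ω : Fin n → F)
    (hind : ∀ P : Fin n → R[X],
      (∃ z ∈ O, ∑ i, aeval w (P i) * ω i = algebraMap R F p * z) → ∀ i, C p ∣ P i)
    (hp0 : p ≠ 0)
    {z : F} (hz : z ∈ O) (m : ℕ) :
    ∀ (Q' : R[X]) (P : Fin n → R[X]),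
      aeval w (C p ^ m * Q') * z = ∑ i, aeval w (P i) * ω i →
      ∃ P' : Fin n → R[X], aeval w Q' * z = ∑ i, aeval w (P' i) * ω i := by
  have haO : ∀ Q : R[X], aeval w Q ∈ O := by
    intro Q
    induction Q using Polynomial.induction_on' with
    | add a b ha hb => rw [map_add]; exact O.add_mem ha hb
    | monomial k r =>
      rw [aeval_monomial]
      exact O.mul_mem (hRO r) (O.pow_mem hw k)
  have hpF : algebraMap R F p ≠ 0 := by
    have h1 : aeval w (C p) = algebraMap R F p := aeval_C w p
    rw [← h1]
    exact (map_ne_zero_iff _ hwtr).mpr (by simpa using hp0)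
  induction m with
  | zero =>
    intro Q' P h
    exact ⟨P, by simpa using h⟩
  | succ m ih =>
    intro Q' P h
    have h1 : ∑ i, aeval w (P i) * ω i =
        algebraMap R F p * (aeval w (C p ^ m * Q') * z) := by
      rw [← h, pow_succ, mul_assoc, mul_comm (C p ^ m) (C p * Q'), mul_assoc, map_mul, aeval_C,
        mul_assoc, mul_comm Q']
    have h2 := hind P ⟨_, O.mul_mem (haO _) hz, h1⟩
    choose P₁ hP₁ using h2
    refine ih Q' P₁ ?_
    apply mul_left_cancel₀ hpF
    rw [← h1, Finset.mul_sum]
    refine Finset.sum_congr rfl fun i _ => ?_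
    rw [hP₁ i, map_mul, aeval_C, mul_assoc]

set_option linter.unusedVariables false in
/-- **Abstract reduction theorem** (P-S28, WP-D).  With `A` the integral closure of `R[w]` in `F`:
`A ∩ p O = p A`. (The hypothesis `hOint` is not needed for the proof; it is kept because the
signature was agreed in this form.) -/
theorem reduction_abstract
    {R F : Type*} [CommRing R] [IsDomain R] [UniqueFactorizationMonoid R]
    [Field F] [Algebra R F]
    (p : R) (hp : Prime p)
    (O : Subring F)
    (hOint : ∀ y : F, IsIntegral O y → y ∈ O)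
    (hRO : ∀ r : R, algebraMap R F r ∈ O)
    (w : F) (hw : w ∈ O) (hwtr : Function.Injective (aeval (R := R) w))
    {n : ℕ} (ω : Fin n → F) (hωA : ∀ i, IsIntegral (Algebra.adjoin R {w}) (ω i))
    (hspan : ∀ y : F, ∃ Q : R[X], Q ≠ 0 ∧ ∃ P : Fin n → R[X],
      aeval w Q * y = ∑ i, aeval w (P i) * ω i)
    (hind : ∀ P : Fin n → R[X],
      (∃ z ∈ O, ∑ i, aeval w (P i) * ω i = algebraMap R F p * z) → ∀ i, C p ∣ P i)
    (y : F) (hyA : IsIntegral (Algebra.adjoin R {w}) y)
    (hy : ∃ z ∈ O, y = algebraMap R F p * z) :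
    ∃ y2 : F, IsIntegral (Algebra.adjoin R {w}) y2 ∧ y = algebraMap R F p * y2 := by
  obtain ⟨z, hzO, rfl⟩ := hy
  refine ⟨z, ?_, rfl⟩
  have hCp : Prime (C p : R[X]) := Polynomial.prime_C_iff.mpr hp
  -- a denominator prime to `p`
  obtain ⟨Q, hQ0, P, hQP⟩ := hspan z
  have hfin : FiniteMultiplicity (C p) Q := FiniteMultiplicity.of_not_isUnit hCp.not_isUnit hQ0
  obtain ⟨Q', hQQ', hQ'⟩ := hfin.exists_eq_pow_mul_and_not_dvd
  rw [hQQ'] at hQP
  obtain ⟨P', hP'⟩ := exists_span_of_pow_mul p O hRO w hw hwtr ω hind hp.ne_zero hzO _ Q' P hQP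
  -- coprime denominators over the integrally closed domain `R[X]`
  let _ : Algebra R[X] F := (aeval (R := R) w).toRingHom.toAlgebra
  have : FaithfulSMul R[X] F := (faithfulSMul_iff_algebraMap_injective R[X] F).mpr hwtr
  apply isIntegral_adjoin_of_polynomial w
  have h1 : IsIntegral R[X] ((C p : R[X]) • z) := by
    have : (C p : R[X]) • z = algebraMap R F p * z := by
      rw [Algebra.smul_def]
      show aeval w (C p) * z = _
      rw [aeval_C]
    rw [this]
    exact isIntegral_polynomial_of_adjoin w hyA
  have h2 : IsIntegral R[X] (Q' • z) := by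
    have : Q' • z = ∑ i, aeval w (P' i) * ω i := by
      rw [Algebra.smul_def]
      exact hP'
    rw [this]
    refine IsIntegral.sum _ fun i _ => ?_
    exact (isIntegral_algebraMap (x := P' i)).mul (isIntegral_polynomial_of_adjoin w (hωA i))
  exact isIntegral_of_prime_smul_of_smul hCp hQ' h1 h2

end Fermat.Agent.S28
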