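import Mathlib
import Fermat.Agent.S28.ReductionAbstract

/-!
# P-S28: transfer from the finite chart (`w = j`) to the chart at infinity (`w = 1/j`)
(helper60)

Everything is abstract.  Let `j w` with `j * w = 1`.

* `aeval_reflect_of_mul_eq_one` : `(reflect N f)(w) = f(j) * w ^ N` for `deg f ≤ N`;
* `exists_isIntegral_mul_inv_pow` : `x` integral over `R[j]` ⟹ `x * w ^ E` integral over `R[w]`
  for all large `E`;
* `exists_isIntegral_family_mul_inv_pow` : the same for a finite family;
* `hspan_inv` : the spanning hypothesis of `reduction_abstract` / `chart_reduction` for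
  `(j, ω)` implies the one for `(w, ω i * w ^ E i)`, for any exponents `E`;
* `hind_inv` : the independence hypothesis for `(j, ω)` implies the one for
  `(w, ω i * w ^ E i)`, for any exponents `E`.
-/

set_option autoImplicit false

open Polynomial

namespace Fermat.Agent.S28

section Reflect

variable {k D : Type*} [CommRing k] [CommRing D] [Algebra k D]

/-- if `j w = 1` and `deg f ≤ N` then `(reflect N f)(w) = f(j) w^N`. -/
theorem aeval_reflect_of_mul_eq_one {j w : D} (h : j * w = 1) (N : ℕ) (f : k[X])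
    (hf : f.natDegree ≤ N) : aeval w (f.reflect N) = aeval j f * w ^ N := by
  let _ : Invertible j := ⟨w, by rw [mul_comm]; exact h, h⟩
  have h1 := eval₂_reflect_mul_pow (algebraMap k D) j N f hf
  have h2 : (⅟j : D) = w := rfl
  rw [h2] at h1
  rw [aeval_def, aeval_def, ← h1, mul_assoc, ← mul_pow, h, one_pow, mul_one]

/-- **Independence transfers to the chart at infinity.** -/
theorem hind_inv {ι : Type*} [Fintype ι] {j w : D} (h : j * w = 1) (ω : ι → D) (E : ι → ℕ)
    (hind : ∀ c : ι → k[X], ∑ i, aeval j (c i) * ω i = 0 → ∀ i, c i = 0) :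
    ∀ c : ι → k[X], ∑ i, aeval w (c i) * (ω i * w ^ E i) = 0 → ∀ i, c i = 0 := by
  intro c hc
  -- a common bound
  set M : ℕ := ∑ i, ((c i).natDegree + E i) with hM
  have hle : ∀ i, (c i).natDegree + E i ≤ M := fun i =>
    Finset.single_le_sum (f := fun i => (c i).natDegree + E i) (fun _ _ => Nat.zero_le _)
      (Finset.mem_univ i)
  have h' : w * j = 1 := by rw [mul_comm]; exact h
  have key : ∀ i, aeval j ((c i).reflect (M - E i)) * ω i =
      j ^ M * (aeval w (c i) * (ω i * w ^ E i)) := by
    intro i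
    have h1 : (c i).natDegree ≤ M - E i := by have := hle i; omega
    rw [aeval_reflect_of_mul_eq_one h' (M - E i) (c i) h1]
    have h2 : M = (M - E i) + E i := by have := hle i; omega
    have h3 : j ^ M * w ^ E i = j ^ (M - E i) := by
      conv_lhs => rw [h2, pow_add, mul_assoc, ← mul_pow, h, one_pow, mul_one]
    calc aeval w (c i) * j ^ (M - E i) * ω i
        = aeval w (c i) * (j ^ M * w ^ E i) * ω i := by rw [h3]
      _ = j ^ M * (aeval w (c i) * (ω i * w ^ E i)) := by ring
  have h0 : ∑ i, aeval j ((c i).reflect (M - E i)) * ω i = 0 := by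
    simp_rw [key]
    rw [← Finset.mul_sum, hc, mul_zero]
  intro i
  have := hind (fun i => (c i).reflect (M - E i)) h0 i
  exact reflect_eq_zero_iff.mp this

/-- **Spanning transfers to the chart at infinity.** -/
theorem hspan_inv {ι : Type*} [Fintype ι] {j w : D} (h : j * w = 1) (ω : ι → D) (E : ι → ℕ)
    (hspan : ∀ y : D, ∃ Q : k[X], Q ≠ 0 ∧ ∃ P : ι → k[X],
      aeval j Q * y = ∑ i, aeval j (P i) * ω i) :
    ∀ y : D, ∃ Q : k[X], Q ≠ 0 ∧ ∃ P : ι → k[X],
      aeval w Q * y = ∑ i, aeval w (P i) * (ω i * w ^ E i) := by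
  intro y
  obtain ⟨Q, hQ0, P, hQP⟩ := hspan y
  set M : ℕ := Q.natDegree + ∑ i, ((P i).natDegree + E i) with hM
  have hle : ∀ i, (P i).natDegree + E i ≤ M := fun i =>
    (Finset.single_le_sum (f := fun i => (P i).natDegree + E i) (fun _ _ => Nat.zero_le _)
      (Finset.mem_univ i)).trans (Nat.le_add_left _ _)
  have hQle : Q.natDegree ≤ M := Nat.le_add_right _ _
  refine ⟨Q.reflect M, reflect_eq_zero_iff.not.mpr hQ0, fun i => (P i).reflect (M - E i), ?_⟩
  rw [aeval_reflect_of_mul_eq_one h M Q hQle]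
  have key : ∀ i, aeval w ((P i).reflect (M - E i)) * (ω i * w ^ E i) =
      (aeval j (P i) * ω i) * w ^ M := by
    intro i
    have h1 : (P i).natDegree ≤ M - E i := by have := hle i; omega
    rw [aeval_reflect_of_mul_eq_one h (M - E i) (P i) h1]
    have h2 : M = (M - E i) + E i := by have := hle i; omega
    conv_rhs => rw [h2, pow_add]
    ring
  simp_rw [key]
  rw [← Finset.sum_mul, ← hQP]
  ring

end Reflect

/-- **Integrality transfers to the chart at infinity.** If `x` is integral over `R[j]` then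
`x / j ^ E` is integral over `R[1/j]` for all large `E`. -/
theorem exists_isIntegral_mul_inv_pow {R F : Type*} [CommRing R] [Field F] [Algebra R F]
    {j w : F} (h : j * w = 1) {x : F} (hx : IsIntegral (Algebra.adjoin R {j}) x) :
    ∃ E : ℕ, ∀ E', E ≤ E' → IsIntegral (Algebra.adjoin R {w}) (x * w ^ E') := by
  have hx' := isIntegral_polynomial_of_adjoin j hx
  obtain ⟨P, hmonic, hroot⟩ := hx'
  set d := P.natDegree with hd
  refine ⟨∑ k ∈ Finset.range d, (P.coeff k).natDegree, fun E' hE' => ?_⟩
  have hle : ∀ k ∈ Finset.range d, (P.coeff k).natDegree ≤ E' * (d - k) := by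
    intro k hk
    have h1 : (P.coeff k).natDegree ≤ E' :=
      (Finset.single_le_sum (f := fun k => (P.coeff k).natDegree) (fun _ _ => Nat.zero_le _)
        hk).trans hE'
    have h2 : 1 ≤ d - k := by have := Finset.mem_range.mp hk; omega
    calc (P.coeff k).natDegree ≤ E' * 1 := by rw [mul_one]; exact h1
      _ ≤ E' * (d - k) := Nat.mul_le_mul_left _ h2
  apply isIntegral_adjoin_of_polynomial w
  let _ : Algebra R[X] F := (aeval (R := R) w).toRingHom.toAlgebra
  set S : R[X][X] := ∑ k ∈ Finset.range d, C ((P.coeff k).reflect (E' * (d - k))) * X ^ k with hS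
  have hSdeg : S.degree < d := by
    refine (degree_sum_le _ _).trans_lt ?_
    refine (Finset.sup_lt_iff (WithBot.bot_lt_coe d)).mpr ?_
    intro k hk
    exact (degree_C_mul_X_pow_le _ _).trans_lt (WithBot.coe_lt_coe.mpr (Finset.mem_range.mp hk))
  refine ⟨X ^ d + S, monic_X_pow_add hSdeg, ?_⟩
  show eval₂ (aeval (R := R) w).toRingHom (x * w ^ E') (X ^ d + S) = 0
  have hroot' : eval₂ (aeval (R := R) j).toRingHom x P = 0 := hroot
  rw [hmonic.as_sum, eval₂_add, eval₂_pow, eval₂_X, eval₂_finsetSum] at hroot'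
  rw [eval₂_add, eval₂_pow, eval₂_X, hS, eval₂_finsetSum]
  have key : ∀ k ∈ Finset.range d,
      eval₂ (aeval (R := R) w).toRingHom (x * w ^ E')
        (C ((P.coeff k).reflect (E' * (d - k))) * X ^ k) =
      w ^ (E' * d) * eval₂ (aeval (R := R) j).toRingHom x (C (P.coeff k) * X ^ k) := by
    intro k hk
    rw [eval₂_mul, eval₂_C, eval₂_pow, eval₂_X, eval₂_mul, eval₂_C, eval₂_pow, eval₂_X]
    show aeval w ((P.coeff k).reflect (E' * (d - k))) * _ = _ * (aeval j (P.coeff k) * _)
    rw [aeval_reflect_of_mul_eq_one h _ _ (hle k hk)]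
    have h3 : E' * d = E' * (d - k) + E' * k := by
      have := Finset.mem_range.mp hk
      rw [← Nat.mul_add]; congr 1; omega
    rw [h3, pow_add, mul_pow, ← pow_mul]
    ring
  rw [Finset.sum_congr rfl key, ← Finset.mul_sum, mul_pow, ← pow_mul]
  have : x ^ d * w ^ (E' * d) + w ^ (E' * d) *
      ∑ i ∈ Finset.range d, eval₂ (aeval (R := R) j).toRingHom x (C (P.coeff i) * X ^ i) =
      w ^ (E' * d) * (x ^ d +
        ∑ i ∈ Finset.range d, eval₂ (aeval (R := R) j).toRingHom x (C (P.coeff i) * X ^ i)) := by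
    ring
  rw [this, hroot', mul_zero]

/-- family version of `exists_isIntegral_mul_inv_pow`. -/
theorem exists_isIntegral_family_mul_inv_pow {R F : Type*} [CommRing R] [Field F] [Algebra R F]
    {j w : F} (h : j * w = 1) {ι : Type*} (ω : ι → F)
    (hω : ∀ i, IsIntegral (Algebra.adjoin R {j}) (ω i)) :
    ∃ E : ι → ℕ, ∀ i, IsIntegral (Algebra.adjoin R {w}) (ω i * w ^ E i) := by
  choose E hE using fun i => exists_isIntegral_mul_inv_pow h (hω i)
  exact ⟨E, fun i => hE i (E i) le_rfl⟩

end Fermat.Agent.S28
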