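import Mathlib
import Fermat.Prelude.Def_ModularCurve_IgusaScheme
import Fermat.Prelude.Def_ModularCurve_LaurentCoeff

/-!
# P-S28, work package WP-T (helper60): the tensor step

Let `R = ℤ_(ℓ)` (`GaloisRep.ratLocalizedAt ℓ`), `A` a commutative `R`-algebra with a ring
homomorphism `φ : A →+* 𝔽_ℓ((q))` whose kernel is `ℓ A`, and `K` a field of characteristic `ℓ`
which is an `R`-algebra.  Then `A ⊗[R] K` embeds into `K((q))`; in particular it is a domain.

Main results (namespace `Fermat.Agent.S28`):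
* `ratLoc_ringHom_ext` : ring homomorphisms out of `ℤ_(ℓ)` are unique;
* `tensorHom ℓ K φ : A ⊗[R] K →ₐ[R] LaurentSeries K`, `tensorHom_injective`;
* `isDomain_tensor_of_ker` : `IsDomain (A ⊗[R] K)`;
* `isDomain_tensor_of_ker'` : `IsDomain (K ⊗[R] A)`.
-/

set_option autoImplicit false

open scoped TensorProduct

namespace Fermat.Agent.S28

/-- every element of `ℤ_(ℓ)` is `u⁻¹ * n` with `u` a unit which is a natural number. -/
theorem ratLoc_exists_den_mul {ℓ : ℕ} (x : ↥(GaloisRep.ratLocalizedAt ℓ)) :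
    ∃ (u : (↥(GaloisRep.ratLocalizedAt ℓ))ˣ) (d : ℕ) (n : ℤ),
      (u : ↥(GaloisRep.ratLocalizedAt ℓ)) = (d : ↥(GaloisRep.ratLocalizedAt ℓ)) ∧
      x = ↑u⁻¹ * (n : ↥(GaloisRep.ratLocalizedAt ℓ)) := by
  obtain ⟨q, hq⟩ := x
  have hq' : q.den.Coprime ℓ := hq
  have hinv : ((q.den : ℚ)⁻¹) ∈ GaloisRep.ratLocalizedAt ℓ := by
    show ((q.den : ℚ)⁻¹).den.Coprime ℓ
    rw [Rat.inv_natCast_den_of_pos q.den_pos]; exact hq'
  have hden0 : (q.den : ℚ) ≠ 0 := by exact_mod_cast q.den_nz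
  refine ⟨⟨(q.den : ↥(GaloisRep.ratLocalizedAt ℓ)), ⟨(q.den : ℚ)⁻¹, hinv⟩, ?_, ?_⟩, q.den, q.num,
    rfl, ?_⟩
  · apply Subtype.ext
    simp [hden0]
  · apply Subtype.ext
    simp [hden0]
  · apply Subtype.ext
    simp only [Subring.coe_mul, Subring.coe_intCast]
    show q = (q.den : ℚ)⁻¹ * (q.num : ℚ)
    rw [inv_mul_eq_div, Rat.num_div_den]

/-- ring homs out of `ℤ_(ℓ)` are unique. -/
theorem ratLoc_ringHom_ext {ℓ : ℕ} {S : Type*} [Ring S]
    (f g : ↥(GaloisRep.ratLocalizedAt ℓ) →+* S) : f = g := by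
  ext x
  obtain ⟨u, d, n, hu, rfl⟩ := ratLoc_exists_den_mul x
  have h1 : Units.map (f : ↥(GaloisRep.ratLocalizedAt ℓ) →* S) u =
      Units.map (g : ↥(GaloisRep.ratLocalizedAt ℓ) →* S) u := by
    apply Units.ext
    simp [hu]
  have h2 : f ↑u⁻¹ = g ↑u⁻¹ := by
    have := congrArg (fun v : Sˣ => ((v⁻¹ : Sˣ) : S)) h1
    simpa using this
  rw [map_mul, map_mul, h2, map_intCast, map_intCast]

section Main

variable (ℓ : ℕ) [Fact ℓ.Prime]
variable {A : Type*} [CommRing A] [Algebra ↥(GaloisRep.ratLocalizedAt ℓ) A]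
variable (K : Type*) [Field K] [CharP K ℓ] [Algebra ↥(GaloisRep.ratLocalizedAt ℓ) K]
variable (φ : A →+* LaurentSeries (ZMod ℓ))

/-- reduction followed by extension of the coefficient field, as an algebra map. -/
noncomputable def tensorLeftHom : A →ₐ[↥(GaloisRep.ratLocalizedAt ℓ)] LaurentSeries K :=
  { (ModularCurve.coeffMap (ZMod.castHom (dvd_refl ℓ) K)).comp φ with
    commutes' := fun r => by
      have := ratLoc_ringHom_ext
        (((ModularCurve.coeffMap (ZMod.castHom (dvd_refl ℓ) K)).comp φ).comp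
          (algebraMap ↥(GaloisRep.ratLocalizedAt ℓ) A))
        (algebraMap ↥(GaloisRep.ratLocalizedAt ℓ) (LaurentSeries K))
      exact RingHom.congr_fun this r }

theorem tensorLeftHom_apply (a : A) :
    tensorLeftHom ℓ K φ a = ModularCurve.coeffMap (ZMod.castHom (dvd_refl ℓ) K) (φ a) := rfl

omit [Fact ℓ.Prime] [CharP K ℓ] in
/-- constants, as an algebra map over `ℤ_(ℓ)`. -/
noncomputable def tensorRightHom : K →ₐ[↥(GaloisRep.ratLocalizedAt ℓ)] LaurentSeries K :=
  { (HahnSeries.C : K →+* LaurentSeries K) with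
    commutes' := fun r => by
      have := ratLoc_ringHom_ext
        ((HahnSeries.C : K →+* LaurentSeries K).comp (algebraMap ↥(GaloisRep.ratLocalizedAt ℓ) K))
        (algebraMap ↥(GaloisRep.ratLocalizedAt ℓ) (LaurentSeries K))
      exact RingHom.congr_fun this r }

omit [Fact ℓ.Prime] [CharP K ℓ] in
theorem tensorRightHom_apply (c : K) : tensorRightHom ℓ K c = HahnSeries.C c := rfl

/-- the comparison map `A ⊗[ℤ_(ℓ)] K → K((q))`, `a ⊗ c ↦ c • (φ a)`. -/
noncomputable def tensorHom :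
    A ⊗[↥(GaloisRep.ratLocalizedAt ℓ)] K →ₐ[↥(GaloisRep.ratLocalizedAt ℓ)] LaurentSeries K :=
  Algebra.TensorProduct.productMap (tensorLeftHom ℓ K φ) (tensorRightHom ℓ K)

theorem tensorHom_tmul_coeff (a : A) (c : K) (n : ℤ) :
    (tensorHom ℓ K φ (a ⊗ₜ c)).coeff n = ZMod.castHom (dvd_refl ℓ) K ((φ a).coeff n) * c := by
  rw [tensorHom, Algebra.TensorProduct.productMap_apply_tmul, tensorLeftHom_apply,
    tensorRightHom_apply, mul_comm, HahnSeries.C_mul_eq_smul, HahnSeries.coeff_smul,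
    ModularCurve.coeffMap_coeff, smul_eq_mul, mul_comm]

/-- every tensor is a finite sum `∑ b_j ⊗ e_j` over a fixed `𝔽_ℓ`-basis `e` of `K`. -/
theorem exists_finsupp_tmul_basis {J : Type*}
    (e : letI := ZMod.algebra K ℓ; Module.Basis J (ZMod ℓ) K)
    (z : A ⊗[↥(GaloisRep.ratLocalizedAt ℓ)] K) :
    ∃ b : J →₀ A, z = b.sum (fun j a => a ⊗ₜ[↥(GaloisRep.ratLocalizedAt ℓ)] (e j)) := by
  let _ := ZMod.algebra K ℓ
  induction z using TensorProduct.induction_on with
  | zero => exact ⟨0, by simp⟩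
  | tmul a c =>
    refine ⟨(e.repr c).mapRange (fun t => ((t.val : ℤ) : A) * a) (by simp), ?_⟩
    rw [Finsupp.sum_mapRange_index (by simp)]
    have h1 : ∀ (t : ZMod ℓ) (j : J),
        (((t.val : ℤ) : A) * a) ⊗ₜ[↥(GaloisRep.ratLocalizedAt ℓ)] (e j) =
          a ⊗ₜ[↥(GaloisRep.ratLocalizedAt ℓ)] (t • e j) := by
      intro t j
      have h2 : ((t.val : ℤ) : A) * a = (t.val : ℤ) • a := by
        rw [zsmul_eq_mul]
      have h3 : t • e j = (t.val : ℤ) • e j := by
        rw [zsmul_eq_mul, Algebra.smul_def]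
        congr 1
        rw [Int.cast_natCast, ZMod.natCast_val]
        rfl
      rw [h2, h3, TensorProduct.smul_tmul]
    simp_rw [h1]
    rw [Finsupp.sum, ← TensorProduct.tmul_sum]
    congr 1
    conv_lhs => rw [← e.linearCombination_repr c]
    rw [Finsupp.linearCombination_apply, Finsupp.sum]
  | add x y hx hy =>
    obtain ⟨b₁, rfl⟩ := hx
    obtain ⟨b₂, rfl⟩ := hy
    refine ⟨b₁ + b₂, ?_⟩
    rw [Finsupp.sum_add_index']
    · intro j; simp
    · intro j a a'; rw [TensorProduct.add_tmul]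

variable {φ} in
theorem tmul_eq_zero_of_map_eq_zero (hφ : ∀ a, φ a = 0 → ∃ b, a = (ℓ : A) * b) {a : A}
    (ha : φ a = 0) (c : K) : a ⊗ₜ[↥(GaloisRep.ratLocalizedAt ℓ)] c = 0 := by
  obtain ⟨b, rfl⟩ := hφ a ha
  have h1 : (ℓ : A) * b = ((ℓ : ℕ) : ↥(GaloisRep.ratLocalizedAt ℓ)) • b := by
    rw [Algebra.smul_def, map_natCast]
  have h2 : ((ℓ : ℕ) : ↥(GaloisRep.ratLocalizedAt ℓ)) • c = 0 := by
    rw [Algebra.smul_def, map_natCast, CharP.cast_eq_zero, zero_mul]
  rw [h1, TensorProduct.smul_tmul, h2, TensorProduct.tmul_zero]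

variable {φ} in
/-- **Tensor step.** If the kernel of `φ : A → 𝔽_ℓ((q))` is `ℓ A`, then `A ⊗[ℤ_(ℓ)] K` embeds into
`K((q))`. -/
theorem tensorHom_injective (hφ : ∀ a, φ a = 0 → ∃ b, a = (ℓ : A) * b) :
    Function.Injective (tensorHom ℓ K φ) := by
  let _ := ZMod.algebra K ℓ
  rw [injective_iff_map_eq_zero]
  intro z hz
  let e := Module.Basis.ofVectorSpace (ZMod ℓ) K
  obtain ⟨b, rfl⟩ := exists_finsupp_tmul_basis ℓ K e z
  -- every coefficient of every `φ (b j)` vanishes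
  have hcoef : ∀ n : ℤ, ∀ j, (φ (b j)).coeff n = 0 := by
    intro n
    have h1 := congrArg (fun x : LaurentSeries K => x.coeff n) hz
    simp only [HahnSeries.coeff_zero] at h1
    rw [Finsupp.sum, map_sum, HahnSeries.coeff_sum] at h1
    simp_rw [tensorHom_tmul_coeff] at h1
    have hli := e.linearIndependent
    rw [linearIndependent_iff] at hli
    have h0 : (fun a : A => (φ a).coeff n) 0 = 0 := by simp
    have h2 := hli (b.mapRange (fun a => (φ a).coeff n) h0) (by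
      rw [Finsupp.linearCombination_apply, Finsupp.sum_mapRange_index (by simp), Finsupp.sum]
      rw [← h1]
      refine Finset.sum_congr rfl fun j _ => ?_
      rw [Algebra.smul_def]
      rfl)
    intro j
    have := DFunLike.congr_fun h2 j
    simpa using this
  have hzero : ∀ j, φ (b j) = 0 := fun j => HahnSeries.ext (funext fun n => by simpa using hcoef n j)
  rw [Finsupp.sum]
  exact Finset.sum_eq_zero fun j _ => tmul_eq_zero_of_map_eq_zero ℓ K hφ (hzero j) _

variable {φ} in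
/-- `A ⊗[ℤ_(ℓ)] K` is a domain as soon as `A / ℓ A` embeds into `𝔽_ℓ((q))`. -/
theorem isDomain_tensor_of_ker (hφ : ∀ a, φ a = 0 → ∃ b, a = (ℓ : A) * b) :
    IsDomain (A ⊗[↥(GaloisRep.ratLocalizedAt ℓ)] K) :=
  (tensorHom_injective ℓ K hφ).isDomain (tensorHom ℓ K φ).toRingHom

variable {φ} in
/-- the same with the factors swapped. -/
theorem isDomain_tensor_of_ker' (hφ : ∀ a, φ a = 0 → ∃ b, a = (ℓ : A) * b) :
    IsDomain (K ⊗[↥(GaloisRep.ratLocalizedAt ℓ)] A) :=
  haveI := isDomain_tensor_of_ker ℓ K hφ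
  (Algebra.TensorProduct.comm ↥(GaloisRep.ratLocalizedAt ℓ) K A).toMulEquiv.isDomain

end Main

end Fermat.Agent.S28
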