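import Fermat.Agent.S28.Gauss
import Fermat.Agent.S28.ReductionAbstract
import Fermat.Agent.S28.TensorDomain
import Fermat.Prelude.Def_ModularCurve_X0ModL

/-!
# P-S28, work package WP-D (helper82): the reduction theorem for the Igusa chart algebras

`gaussF N ℓ` is the Gauss valuation ring of the modular function field
`F = modularFunctionFieldFull N ⊆ ℚ((q))` (elements `a / b` with `a, b ∈ ℤ_(ℓ)((q))`, `b ≢ 0 mod ℓ`),
with its reduction map `gaussFRed N ℓ : gaussF N ℓ →+* 𝔽_ℓ((q))` (kernel `ℓ • gaussF`).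

Main result: `chart_reduction`: given a chart coordinate `w` and a family `ω` in the chart algebra
`A = chartAlg N ℓ {w}` spanning `F` over `ℚ(w)` whose reductions are independent over `𝔽_ℓ[w̄]`,
there is a ring homomorphism `φ : A →+* 𝔽_ℓ((q))` (reduction of `q`-expansions) with
`ker φ = ℓ A`.  Combined with `isDomain_tensor_of_ker` this shows that `A ⊗ K` is a domain.
-/

set_option autoImplicit false

noncomputable section

namespace Fermat.Agent.S28

open ModularCurve ModularCurve.IgusaScheme Polynomial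

/-- `reduction_abstract` for an arbitrary finite index type. -/
theorem reduction_abstract_fintype
    {R F : Type*} [CommRing R] [IsDomain R] [UniqueFactorizationMonoid R]
    [Field F] [Algebra R F]
    (p : R) (hp : Prime p)
    (O : Subring F)
    (hOint : ∀ y : F, IsIntegral O y → y ∈ O)
    (hRO : ∀ r : R, algebraMap R F r ∈ O)
    (w : F) (hw : w ∈ O) (hwtr : Function.Injective (aeval (R := R) w))
    {ι : Type*} [Fintype ι] (ω : ι → F) (hωA : ∀ i, IsIntegral (Algebra.adjoin R {w}) (ω i))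
    (hspan : ∀ y : F, ∃ Q : R[X], Q ≠ 0 ∧ ∃ P : ι → R[X],
      aeval w Q * y = ∑ i, aeval w (P i) * ω i)
    (hind : ∀ P : ι → R[X],
      (∃ z ∈ O, ∑ i, aeval w (P i) * ω i = algebraMap R F p * z) → ∀ i, C p ∣ P i)
    (y : F) (hyA : IsIntegral (Algebra.adjoin R {w}) y)
    (hy : ∃ z ∈ O, y = algebraMap R F p * z) :
    ∃ y2 : F, IsIntegral (Algebra.adjoin R {w}) y2 ∧ y = algebraMap R F p * y2 := by
  classical
  let e : ι ≃ Fin (Fintype.card ι) := Fintype.equivFin ι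
  refine reduction_abstract p hp O hOint hRO w hw hwtr (fun k => ω (e.symm k))
    (fun k => hωA _) ?_ ?_ y hyA hy
  · intro y
    obtain ⟨Q, hQ, P, hP⟩ := hspan y
    refine ⟨Q, hQ, fun k => P (e.symm k), ?_⟩
    rw [hP]
    exact (Equiv.sum_comp e.symm (fun i => aeval w (P i) * ω i)).symm
  · intro P hP k
    have := hind (fun i => P (e i)) (by
      obtain ⟨z, hz, hzz⟩ := hP
      refine ⟨z, hz, ?_⟩
      rw [← hzz]
      rw [← Equiv.sum_comp e.symm]
      simp) (e.symm k)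
    simpa using this

section NoNeZero

variable (N : ℕ) (ℓ : ℕ) [Fact ℓ.Prime]

set_option quotPrecheck false in
local notation "ℤℓ" => ↥(GaloisRep.ratLocalizedAt ℓ)

set_option quotPrecheck false in
local notation "F" => ↥(modularFunctionFieldFull N)

/-- `gaussField` as an intermediate field. -/
def gaussIF : IntermediateField ℚ (LaurentSeries ℚ) :=
  (gaussField ℓ).toIntermediateField fun x => by
    rw [eq_ratCast]
    exact SubfieldClass.ratCast_mem _ x

theorem mem_gaussIF_iff {y : LaurentSeries ℚ} : y ∈ gaussIF ℓ ↔ y ∈ gaussField ℓ := Iff.rfl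

theorem modularFunctionFieldFull_le_gaussIF : modularFunctionFieldFull N ≤ gaussIF ℓ := by
  rw [modularFunctionFieldFull, IntermediateField.adjoin_le_iff]
  rintro x ⟨d, hd, -, rfl⟩
  have := hd
  rw [SetLike.mem_coe, mem_gaussIF_iff]
  have h : qExpand ℚ d jq = embLS ℓ (jqNModC ℤℓ d) := by
    rw [embLS, coeffMap_jqNModC]
    rfl
  rw [h]
  exact embLS_mem_gaussField ℓ _

theorem coe_mem_gaussField (y : F) : (y : LaurentSeries ℚ) ∈ gaussField ℓ :=
  modularFunctionFieldFull_le_gaussIF N ℓ y.2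

/-- The Gauss valuation ring of the modular function field. -/
def gaussF : Subring F :=
  (gaussSubring ℓ).comap (algebraMap F (LaurentSeries ℚ))

theorem mem_gaussF_iff {y : F} : y ∈ gaussF N ℓ ↔ (y : LaurentSeries ℚ) ∈ gaussSubring ℓ := Iff.rfl

/-- reduction map on the Gauss valuation ring of the modular function field. -/
def gaussFRed : gaussF N ℓ →+* LaurentSeries (ZMod ℓ) :=
  (gaussRed ℓ).comp
    (((algebraMap F (LaurentSeries ℚ)).comp (gaussF N ℓ).subtype).codRestrict (gaussSubring ℓ)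
      fun y => y.2)

theorem gaussFRed_apply (y : gaussF N ℓ) :
    gaussFRed N ℓ y = gaussRed ℓ ⟨((y : F) : LaurentSeries ℚ), y.2⟩ := rfl

theorem mem_gaussF_of_embLS {y : F} {a : LaurentSeries ℤℓ}
    (h : embLS ℓ a = (y : LaurentSeries ℚ)) : y ∈ gaussF N ℓ := by
  rw [mem_gaussF_iff, ← h]
  exact embLS_mem_gaussSubring ℓ a

theorem gaussFRed_of_embLS {y : F} {a : LaurentSeries ℤℓ}
    (h : embLS ℓ a = (y : LaurentSeries ℚ)) (hy : y ∈ gaussF N ℓ) :
    gaussFRed N ℓ ⟨y, hy⟩ = redLS ℓ a := by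
  rw [gaussFRed_apply]
  have := gaussRed_embLS ℓ a
  convert this using 2
  exact Subtype.ext h.symm

theorem gaussF_isIntegrallyClosedIn {y : F} (hy : IsIntegral (gaussF N ℓ) y) : y ∈ gaussF N ℓ := by
  rw [mem_gaussF_iff]
  refine mem_gaussSubring_of_isIntegral ℓ (coe_mem_gaussField N ℓ y) ?_
  refine hy.map_of_comp_eq
    ((((algebraMap F (LaurentSeries ℚ)).comp (gaussF N ℓ).subtype).codRestrict (gaussSubring ℓ)
      fun y => y.2)) (algebraMap F (LaurentSeries ℚ)) ?_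
  ext; rfl

theorem gaussFRed_eq_zero_iff (y : gaussF N ℓ) :
    gaussFRed N ℓ y = 0 ↔ ∃ z : gaussF N ℓ, y = ((ℓ : ℕ) : gaussF N ℓ) * z := by
  rw [gaussFRed_apply, gaussRed_eq_zero_iff]
  constructor
  · rintro ⟨z, hz⟩
    have hz' := congrArg Subtype.val hz
    simp only [Subring.coe_mul, Subring.coe_natCast] at hz'
    have hℓ : ((ℓ : ℕ) : F) ≠ 0 := by
      exact_mod_cast (Fact.out : ℓ.Prime).ne_zero
    have hzF : ((((ℓ : ℕ) : F)⁻¹ * (y : F) : F) : LaurentSeries ℚ) = (z : LaurentSeries ℚ) := by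
      have hℓ' := natCast_ne_zero_laurent_rat ℓ
      push_cast
      rw [hz', ← mul_assoc, inv_mul_cancel₀ hℓ', one_mul]
    have hmem : ((ℓ : ℕ) : F)⁻¹ * (y : F) ∈ gaussF N ℓ := by
      rw [mem_gaussF_iff, hzF]; exact z.2
    refine ⟨⟨_, hmem⟩, Subtype.ext ?_⟩
    rw [Subring.coe_mul, Subring.coe_natCast]
    show (y : F) = (ℓ : F) * ((ℓ : F)⁻¹ * (y : F))
    rw [← mul_assoc, mul_inv_cancel₀ hℓ, one_mul]
  · rintro ⟨z, rfl⟩
    refine ⟨⟨((z : F) : LaurentSeries ℚ), z.2⟩, Subtype.ext ?_⟩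
    simp

theorem map_redZ_eq_zero_iff (P : ℤℓ[X]) :
    P.map (redZ ℓ) = 0 ↔ C (((ℓ : ℕ) : ℤℓ)) ∣ P := by
  rw [Polynomial.C_dvd_iff_dvd_coeff, Polynomial.ext_iff]
  refine forall_congr' fun k => ?_
  rw [Polynomial.coeff_map, Polynomial.coeff_zero, redZ_eq_zero_iff]

theorem redLS_eval₂ (w0 : LaurentSeries ℤℓ) (P : ℤℓ[X]) :
    redLS ℓ (eval₂ HahnSeries.C w0 P) = aeval (redLS ℓ w0) (P.map (redZ ℓ)) := by
  rw [Polynomial.hom_eval₂, aeval_def, Polynomial.eval₂_map]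
  congr 1
  exact ratLoc_ringHom_ext _ _

/-- constants of `ℤ_(ℓ)` inside `ℚ((q))`. -/
theorem coe_algebraMap_Zl (c : ℤℓ) :
    ((algebraMap ℤℓ F c : F) : LaurentSeries ℚ) = embLS ℓ (HahnSeries.C c) := by
  rw [IsScalarTower.algebraMap_apply ℤℓ ℚ F]
  have h1 : ((algebraMap ℚ F (algebraMap ℤℓ ℚ c) : F) : LaurentSeries ℚ)
      = algebraMap ℚ (LaurentSeries ℚ) (c : ℚ) := by
    rw [eq_ratCast, eq_ratCast]
    push_cast
    rfl
  rw [h1, algebraMap_apply_eq_single]
  refine HahnSeries.ext (funext fun n => ?_)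
  rw [embLS_coeff, HahnSeries.C_apply, HahnSeries.coeff_single, HahnSeries.coeff_single]
  split_ifs <;> simp

omit [Fact ℓ.Prime] in
theorem coe_aeval (w : F) (w0 : LaurentSeries ℤℓ)
    (hw0 : embLS ℓ w0 = (w : LaurentSeries ℚ)) (P : ℤℓ[X]) :
    ((aeval w P : F) : LaurentSeries ℚ) = embLS ℓ (eval₂ HahnSeries.C w0 P) := by
  rw [aeval_def]
  have h1 := Polynomial.hom_eval₂ P (algebraMap ℤℓ F) (algebraMap F (LaurentSeries ℚ)) w
  have h2 := Polynomial.hom_eval₂ P (HahnSeries.C : ℤℓ →+* LaurentSeries ℤℓ) (embLS ℓ) w0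
  have h3 : (algebraMap F (LaurentSeries ℚ)).comp (algebraMap ℤℓ F)
      = (embLS ℓ).comp (HahnSeries.C : ℤℓ →+* LaurentSeries ℤℓ) := ratLoc_ringHom_ext _ _
  rw [h2, ← h3, hw0]
  exact h1

end NoNeZero

section Main

variable (N : ℕ) [NeZero N] (ℓ : ℕ) [Fact ℓ.Prime]

set_option quotPrecheck false in
local notation "ℤℓ" => ↥(GaloisRep.ratLocalizedAt ℓ)

set_option quotPrecheck false in
local notation "F" => ↥(modularFunctionFieldFull N)

/-- `gaussF` as a `ℤ_(ℓ)`-subalgebra. -/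
def gaussFAlg : Subalgebra ℤℓ F :=
  { gaussF N ℓ with
    algebraMap_mem' := fun c => mem_gaussF_of_embLS N ℓ (coe_algebraMap_Zl N ℓ c).symm }

omit [NeZero N] in
theorem mem_gaussFAlg_iff {y : F} : y ∈ gaussFAlg N ℓ ↔ y ∈ gaussF N ℓ := Iff.rfl

theorem chartAlg_le_gaussF {w : F} (hw : w ∈ gaussF N ℓ) {a : F}
    (ha : a ∈ chartAlg N ℓ {w}) : a ∈ gaussF N ℓ := by
  apply gaussF_isIntegrallyClosedIn N ℓ
  have hle : Algebra.adjoin ℤℓ {w} ≤ gaussFAlg N ℓ :=
    Algebra.adjoin_le (Set.singleton_subset_iff.mpr hw)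
  rw [mem_chartAlg_iff] at ha
  refine ha.map_of_comp_eq
    ((Subalgebra.inclusion hle).toRingHom : Algebra.adjoin ℤℓ {w} →+* gaussFAlg N ℓ)
    (RingHom.id F) ?_
  ext; rfl

/-- **Reduction theorem for a chart algebra** (P-S28, WP-D).
`w` is the chart coordinate (`j` or `j⁻¹`) with `ℓ`-integral expansion `w0`; `ω` is a family of
elements of the chart algebra with `ℓ`-integral expansions `ω0`, spanning the function field over
`ℚ(w)` (`hspan`) and whose reductions are linearly independent over `𝔽_ℓ[w̄]` (`hind`).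
Then the chart algebra `A` reduces into `𝔽_ℓ((q))` with kernel exactly `ℓ A`. -/
theorem chart_reduction (w : F) (w0 : LaurentSeries ℤℓ)
    (hw0 : embLS ℓ w0 = (w : LaurentSeries ℚ))
    {ι : Type} [Fintype ι] [Nonempty ι] (ω : ι → F) (ω0 : ι → LaurentSeries ℤℓ)
    (hω0 : ∀ i, embLS ℓ (ω0 i) = (ω i : LaurentSeries ℚ))
    (hωA : ∀ i, ω i ∈ chartAlg N ℓ {w})
    (hspan : ∀ y : F, ∃ Q : ℤℓ[X], Q ≠ 0 ∧ ∃ P : ι → ℤℓ[X],
      aeval w Q * y = ∑ i, aeval w (P i) * ω i)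
    (hind : ∀ c : ι → (ZMod ℓ)[X],
      ∑ i, aeval (redLS ℓ w0) (c i) * redLS ℓ (ω0 i) = 0 → ∀ i, c i = 0) :
    ∃ φ : chartAlg N ℓ {w} →+* LaurentSeries (ZMod ℓ),
      (∀ (a : chartAlg N ℓ {w}) (a0 : LaurentSeries ℤℓ),
        embLS ℓ a0 = ((a : F) : LaurentSeries ℚ) → φ a = redLS ℓ a0) ∧
      (∀ a : chartAlg N ℓ {w}, φ a = 0 →
        ∃ b : chartAlg N ℓ {w}, a = ((ℓ : ℕ) : chartAlg N ℓ {w}) * b) := by
  classical
  have hw : w ∈ gaussF N ℓ := mem_gaussF_of_embLS N ℓ hw0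
  have hAO : ∀ a : chartAlg N ℓ {w}, (a : F) ∈ gaussF N ℓ :=
    fun a => chartAlg_le_gaussF N ℓ hw a.2
  -- the reduction map
  let incl : chartAlg N ℓ {w} →+* gaussF N ℓ :=
    ((chartAlg N ℓ {w}).toSubring.subtype).codRestrict (gaussF N ℓ) hAO
  refine ⟨(gaussFRed N ℓ).comp incl, ?_, ?_⟩
  · intro a a0 h
    exact gaussFRed_of_embLS N ℓ h (hAO a)
  -- key computation: reduction of a polynomial combination
  have hcomb : ∀ P : ι → ℤℓ[X], ∀ hmem : (∑ i, aeval w (P i) * ω i) ∈ gaussF N ℓ,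
      gaussFRed N ℓ ⟨_, hmem⟩
        = ∑ i, aeval (redLS ℓ w0) ((P i).map (redZ ℓ)) * redLS ℓ (ω0 i) := by
    intro P hmem
    have hcoe : embLS ℓ (∑ i, eval₂ HahnSeries.C w0 (P i) * ω0 i)
        = ((∑ i, aeval w (P i) * ω i : F) : LaurentSeries ℚ) := by
      rw [map_sum]
      push_cast
      refine Finset.sum_congr rfl fun i _ => ?_
      rw [map_mul, hω0 i, coe_aeval N ℓ w w0 hw0]
    rw [gaussFRed_of_embLS N ℓ hcoe hmem, map_sum]
    refine Finset.sum_congr rfl fun i _ => ?_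
    rw [map_mul, redLS_eval₂]
  -- transcendence of `w`
  have hwtr : Function.Injective (aeval (R := ℤℓ) w) := by
    rw [injective_iff_map_eq_zero]
    intro P hP
    by_contra hP0
    have hCp : Prime (C (((ℓ : ℕ) : ℤℓ)) : ℤℓ[X]) := Polynomial.prime_C_iff.mpr (ell_prime ℓ)
    have hfin : FiniteMultiplicity (C (((ℓ : ℕ) : ℤℓ))) P :=
      FiniteMultiplicity.of_not_isUnit hCp.not_isUnit hP0
    obtain ⟨P', hPP', hP'⟩ := hfin.exists_eq_pow_mul_and_not_dvd
    have hℓF : algebraMap ℤℓ F (((ℓ : ℕ) : ℤℓ)) ≠ 0 := by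
      rw [map_natCast]
      exact_mod_cast (Fact.out : ℓ.Prime).ne_zero
    have hP'0 : aeval w P' = 0 := by
      rw [hPP', map_mul, map_pow, aeval_C] at hP
      rcases mul_eq_zero.mp hP with h | h
      · exact absurd h (pow_ne_zero _ hℓF)
      · exact h
    obtain ⟨i₀⟩ := ‹Nonempty ι›
    have hsum : (∑ i, aeval w ((fun i => if i = i₀ then P' else 0) i) * ω i) = 0 := by
      refine Finset.sum_eq_zero fun i _ => ?_
      by_cases hi : i = i₀
      · simp [hi, hP'0]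
      · simp [hi]
    have hmem : (∑ i, aeval w ((fun i => if i = i₀ then P' else 0) i) * ω i) ∈ gaussF N ℓ := by
      rw [hsum]; exact zero_mem _
    have h0 := hcomb (fun i => if i = i₀ then P' else 0) hmem
    have hz : gaussFRed N ℓ ⟨_, hmem⟩ = 0 := by
      have : (⟨_, hmem⟩ : gaussF N ℓ) = 0 := Subtype.ext hsum
      rw [this, map_zero]
    rw [hz] at h0
    have := hind _ h0.symm i₀
    simp only [if_true] at this
    exact hP' ((map_redZ_eq_zero_iff ℓ P').mp this)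
  -- the kernel
  intro a ha
  have hker : gaussFRed N ℓ ⟨(a : F), hAO a⟩ = 0 := ha
  obtain ⟨z, hz⟩ := (gaussFRed_eq_zero_iff N ℓ _).mp hker
  have hzF : (a : F) = algebraMap ℤℓ F (((ℓ : ℕ) : ℤℓ)) * (z : F) := by
    have := congrArg Subtype.val hz
    rw [Subring.coe_mul, Subring.coe_natCast] at this
    rw [map_natCast]
    exact this
  obtain ⟨y2, hy2, hay2⟩ := reduction_abstract_fintype (((ℓ : ℕ) : ℤℓ)) (ell_prime ℓ)
    (gaussF N ℓ) (fun y hy => gaussF_isIntegrallyClosedIn N ℓ hy)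
    (fun c => mem_gaussF_of_embLS N ℓ (coe_algebraMap_Zl N ℓ c).symm)
    w hw hwtr ω hωA hspan
    (by
      rintro P ⟨z', hz', hsum⟩ i
      have hmem : (∑ i, aeval w (P i) * ω i) ∈ gaussF N ℓ := by
        rw [hsum]
        exact mul_mem (mem_gaussF_of_embLS N ℓ (coe_algebraMap_Zl N ℓ _).symm) hz'
      have h0 := hcomb P hmem
      have hz0 : gaussFRed N ℓ ⟨_, hmem⟩ = 0 := by
        rw [gaussFRed_eq_zero_iff]
        refine ⟨⟨z', hz'⟩, Subtype.ext ?_⟩
        rw [Subring.coe_mul, Subring.coe_natCast]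
        show (∑ i, aeval w (P i) * ω i) = _
        rw [hsum, map_natCast]
      rw [hz0] at h0
      exact (map_redZ_eq_zero_iff ℓ (P i)).mp (hind _ h0.symm i))
    (a : F) a.2 ⟨z, z.2, hzF⟩
  refine ⟨⟨y2, hy2⟩, Subtype.ext ?_⟩
  rw [Subalgebra.coe_mul, hay2, map_natCast]
  push_cast
  rfl

end Main

end Fermat.Agent.S28
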