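import Mathlib
import Fermat.Prelude.Def_ModularCurve_IgusaScheme

/-!
# P-S28, WP-E: scheme glue (helper25)

* `isIntegral_of_two_charts`: a scheme covered by two integral open subschemes with nonempty
  overlap is integral.
* `igusa_pullback_isIntegral`: the base change of the Igusa scheme along `ℤ_(ℓ) → K` is integral
  as soon as `A_fin ⊗ K`, `A_inf ⊗ K` are domains and `A_mid ⊗ K` is nontrivial.
* `igusa_pullback_isIntegral_of_ne_zero`, `igusa_pullback_isIntegral_of_embeddings`: variants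
  where the overlap condition is replaced by `j ⊗ 1 ≠ 0` in `A_fin ⊗ K`.
-/

set_option autoImplicit false

open AlgebraicGeometry CategoryTheory CategoryTheory.Limits TensorProduct

noncomputable section

namespace Fermat.Agent.S28.SchemeGlue

/-- A topological space covered by two preirreducible subsets, one of them open, with nonempty
intersection, is preirreducible. -/
theorem preirreducibleSpace_of_two_opens {X : Type*} [TopologicalSpace X] {U V : Set X}
    (hU : IsOpen U) (hU' : IsPreirreducible U) (hV' : IsPreirreducible V)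
    (hcov : ∀ x, x ∈ U ∨ x ∈ V) (hne : (U ∩ V).Nonempty) :
    PreirreducibleSpace X := by
  have key : ∀ A : Set X, IsOpen A → A.Nonempty → (U ∩ A).Nonempty := by
    rintro A hA ⟨x, hx⟩
    rcases hcov x with h | h
    · exact ⟨x, h, hx⟩
    · obtain ⟨y, hyV, hyA, hyU⟩ := hV' A U hA hU ⟨x, h, hx⟩ (by rwa [Set.inter_comm] at hne)
      exact ⟨y, hyU, hyA⟩
  refine ⟨fun A B hA hB hA' hB' => ?_⟩
  rw [Set.univ_inter] at hA' hB' ⊢
  obtain ⟨z, -, hz⟩ := hU' A B hA hB (key A hA hA') (key B hB hB')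
  exact ⟨z, hz⟩

/-- Two-chart criterion: a scheme covered by two integral open subschemes whose intersection is
nonempty (witnessed by a map from a nonempty scheme landing in both) is integral. -/
theorem isIntegral_of_two_charts {Y U V W : Scheme.{0}} (i : U ⟶ Y) (j : V ⟶ Y)
    [IsOpenImmersion i] [IsOpenImmersion j] [IsIntegral U] [IsIntegral V]
    (hcov : ∀ y : Y, y ∈ Set.range i ∨ y ∈ Set.range j)
    (w : W ⟶ Y) [Nonempty W] (hw₁ : ∀ x : W, w x ∈ Set.range i)
    (hw₂ : ∀ x : W, w x ∈ Set.range j) :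
    IsIntegral Y := by
  have hred : IsReduced Y := by
    have (y : Y) : _root_.IsReduced (Y.presheaf.stalk y) := by
      rcases hcov y with ⟨x, rfl⟩ | ⟨x, rfl⟩
      · exact isReduced_of_injective _
          (asIso <| i.stalkMap x).commRingCatIsoToRingEquiv.injective
      · exact isReduced_of_injective _
          (asIso <| j.stalkMap x).commRingCatIsoToRingEquiv.injective
    exact isReduced_of_isReduced_stalk _
  have hpre : PreirreducibleSpace Y := by
    refine preirreducibleSpace_of_two_opens (U := Set.range i) (V := Set.range j)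
      i.isOpenEmbedding.isOpen_range ?_ ?_ hcov ?_
    · rw [← Set.image_univ]
      exact ((IrreducibleSpace.isIrreducible_univ U).image i i.continuous.continuousOn).2
    · rw [← Set.image_univ]
      exact ((IrreducibleSpace.isIrreducible_univ V).image j j.continuous.continuousOn).2
    · obtain ⟨x⟩ := ‹Nonempty W›
      exact ⟨w x, hw₁ x, hw₂ x⟩
  have hne : Nonempty Y := ‹Nonempty W›.map w
  have : IrreducibleSpace Y := { hpre with toNonempty := hne }
  exact isIntegral_of_irreducibleSpace_of_isReduced Y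

/-- Base change of a chart: the canonical map `U ×_Z T ⟶ X ×_Z T` induced by `i : U ⟶ X`. -/
abbrev chartMap {X Z T U : Scheme.{0}} (f : X ⟶ Z) (g : T ⟶ Z) (i : U ⟶ X) :
    pullback (i ≫ f) g ⟶ pullback f g :=
  pullback.map (i ≫ f) g f g i (𝟙 _) (𝟙 _) (by simp) (by simp)

@[reassoc]
theorem chartMap_fst {X Z T U : Scheme.{0}} (f : X ⟶ Z) (g : T ⟶ Z) (i : U ⟶ X) :
    chartMap f g i ≫ pullback.fst f g = pullback.fst (i ≫ f) g ≫ i := by
  unfold chartMap pullback.map
  exact pullback.lift_fst _ _ _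

@[reassoc]
theorem chartMap_snd {X Z T U : Scheme.{0}} (f : X ⟶ Z) (g : T ⟶ Z) (i : U ⟶ X) :
    chartMap f g i ≫ pullback.snd f g = pullback.snd (i ≫ f) g := by
  unfold chartMap pullback.map
  rw [pullback.lift_snd, Category.comp_id]

/-- The range of the base-changed chart is the preimage of the range of the chart. -/
theorem mem_range_chartMap {X Z T U : Scheme.{0}} (f : X ⟶ Z) (g : T ⟶ Z) (i : U ⟶ X)
    (y : ↥(pullback f g)) (a : U) (h : i a = (pullback.fst f g) y) :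
    y ∈ Set.range (chartMap f g i) := by
  obtain ⟨z, -, hz⟩ := Scheme.Pullback.exists_preimage_pullback (f := i)
    (g := pullback.fst f g) a y h
  refine ⟨(pullbackRightPullbackFstIso f g i).hom z, ?_⟩
  have e : (pullbackRightPullbackFstIso f g i).hom ≫ chartMap f g i =
      pullback.snd i (pullback.fst f g) := by
    apply pullback.hom_ext
    · rw [Category.assoc, chartMap_fst, pullbackRightPullbackFstIso_hom_fst_assoc,
        pullback.condition]
    · rw [Category.assoc, chartMap_snd, pullbackRightPullbackFstIso_hom_snd]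
  rw [← Scheme.Hom.comp_apply, e, hz]

theorem chartMap_fst_apply {X Z T U : Scheme.{0}} (f : X ⟶ Z) (g : T ⟶ Z) (i : U ⟶ X)
    (z : ↥(pullback (i ≫ f) g)) :
    (pullback.fst f g) (chartMap f g i z) = i ((pullback.fst (i ≫ f) g) z) := by
  rw [← Scheme.Hom.comp_apply, ← Scheme.Hom.comp_apply, chartMap_fst]

/-- If `B = A[1/x]`, `A ⊗ K` is a domain and `x ⊗ 1 ≠ 0`, then `B ⊗ K` is nontrivial. -/
theorem nontrivial_tensor_of_away {R A B K : Type*} [CommRing R] [CommRing A] [CommRing B]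
    [CommRing K] [Algebra R A] [Algebra R B] [Algebra R K] (f : A →ₐ[R] B) (x : A)
    (hloc : letI := f.toRingHom.toAlgebra; IsLocalization.Away x B)
    [IsDomain (A ⊗[R] K)] (hx : x ⊗ₜ[R] (1 : K) ≠ 0) : Nontrivial (B ⊗[R] K) := by
  let _ := f.toRingHom.toAlgebra
  have := hloc
  let φ : A →ₐ[R] FractionRing (A ⊗[R] K) :=
    (IsScalarTower.toAlgHom R (A ⊗[R] K) (FractionRing (A ⊗[R] K))).comp
      Algebra.TensorProduct.includeLeft
  let ψ : K →ₐ[R] FractionRing (A ⊗[R] K) :=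
    (IsScalarTower.toAlgHom R (A ⊗[R] K) (FractionRing (A ⊗[R] K))).comp
      Algebra.TensorProduct.includeRight
  have hunit : IsUnit (φ.toRingHom x) := by
    have h0 : algebraMap (A ⊗[R] K) (FractionRing (A ⊗[R] K)) (x ⊗ₜ 1) ≠ 0 := by
      rwa [Ne, IsFractionRing.to_map_eq_zero_iff]
    exact IsUnit.mk0 _ h0
  let φ' : B →+* FractionRing (A ⊗[R] K) := IsLocalization.Away.lift x hunit
  have hφ' : ∀ a, φ' (f a) = φ a := fun a => IsLocalization.Away.lift_eq x hunit a
  let φ'' : B →ₐ[R] FractionRing (A ⊗[R] K) :=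
    { φ' with
      commutes' := fun r => by
        have : algebraMap R B r = f (algebraMap R A r) := (f.commutes r).symm
        change φ' _ = _
        rw [this, hφ', φ.commutes] }
  exact (Algebra.TensorProduct.productMap φ'' ψ).toRingHom.domain_nontrivial

open ModularCurve ModularCurve.IgusaScheme

section Igusa

variable (N : ℕ) [NeZero N] (ℓ : ℕ) [Fact ℓ.Prime]
  (K : Type) [Field K] [Algebra ↥(GaloisRep.ratLocalizedAt ℓ) K]

/-- The base-change morphism `Spec K ⟶ Spec ℤ_(ℓ)`. -/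
abbrev baseK : Spec (CommRingCat.of K) ⟶ Spec (CommRingCat.of ↥(GaloisRep.ratLocalizedAt ℓ)) :=
  Spec.map (CommRingCat.ofHom (algebraMap ↥(GaloisRep.ratLocalizedAt ℓ) K))

theorem fFin_ιFin_igusaTo :
    (fFin N ℓ ≫ ιFin N ℓ) ≫ igusaTo N ℓ =
      Spec.map (CommRingCat.ofHom
        (algebraMap ↥(GaloisRep.ratLocalizedAt ℓ) (chartAlgMid N ℓ))) := by
  rw [Category.assoc, ιFin_igusaTo, ← Spec.map_comp, ← CommRingCat.ofHom_comp]
  congr 2

/-- **WP-E main theorem.** The base change of the Igusa scheme to `K` is integral provided the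
two chart algebras base-changed to `K` are domains and the overlap algebra base-changed to `K`
is nontrivial. -/
theorem igusa_pullback_isIntegral
    (hFin : IsDomain (chartAlgFin N ℓ ⊗[↥(GaloisRep.ratLocalizedAt ℓ)] K))
    (hInf : IsDomain (chartAlgInf N ℓ ⊗[↥(GaloisRep.ratLocalizedAt ℓ)] K))
    (hMid : Nontrivial (chartAlgMid N ℓ ⊗[↥(GaloisRep.ratLocalizedAt ℓ)] K)) :
    IsIntegral ↑(pullback (igusaTo N ℓ)
      (Spec.map (CommRingCat.ofHom (algebraMap ↥(GaloisRep.ratLocalizedAt ℓ) K)))) := by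
  set g := baseK ℓ K with hg
  -- the three charts
  let e₁ : pullback (ιFin N ℓ ≫ igusaTo N ℓ) g ≅
      Spec (.of (chartAlgFin N ℓ ⊗[↥(GaloisRep.ratLocalizedAt ℓ)] K)) :=
    pullback.congrHom (ιFin_igusaTo N ℓ) rfl ≪≫ pullbackSpecIso _ _ _
  let e₂ : pullback (ιInf N ℓ ≫ igusaTo N ℓ) g ≅
      Spec (.of (chartAlgInf N ℓ ⊗[↥(GaloisRep.ratLocalizedAt ℓ)] K)) :=
    pullback.congrHom (ιInf_igusaTo N ℓ) rfl ≪≫ pullbackSpecIso _ _ _
  let e₃ : pullback ((fFin N ℓ ≫ ιFin N ℓ) ≫ igusaTo N ℓ) g ≅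
      Spec (.of (chartAlgMid N ℓ ⊗[↥(GaloisRep.ratLocalizedAt ℓ)] K)) :=
    pullback.congrHom (fFin_ιFin_igusaTo N ℓ) rfl ≪≫ pullbackSpecIso _ _ _
  have : IsIntegral (pullback (ιFin N ℓ ≫ igusaTo N ℓ) g) := IsIntegral.of_isIso e₁.inv
  have : IsIntegral (pullback (ιInf N ℓ ≫ igusaTo N ℓ) g) := IsIntegral.of_isIso e₂.inv
  have : Nonempty ↥(pullback ((fFin N ℓ ≫ ιFin N ℓ) ≫ igusaTo N ℓ) g) := by
    have : Nonempty ↥(Spec (.of (chartAlgMid N ℓ ⊗[↥(GaloisRep.ratLocalizedAt ℓ)] K))) :=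
      inferInstanceAs (Nonempty (PrimeSpectrum _))
    exact this.map e₃.inv
  refine isIntegral_of_two_charts (chartMap (igusaTo N ℓ) g (ιFin N ℓ))
    (chartMap (igusaTo N ℓ) g (ιInf N ℓ)) ?_
    (chartMap (igusaTo N ℓ) g (fFin N ℓ ≫ ιFin N ℓ)) ?_ ?_
  · intro y
    rcases mem_range_ιFin_or_mem_range_ιInf N ℓ ((pullback.fst (igusaTo N ℓ) g) y) with
      ⟨a, ha⟩ | ⟨a, ha⟩
    · exact Or.inl (mem_range_chartMap _ _ _ y a ha)
    · exact Or.inr (mem_range_chartMap _ _ _ y a ha)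
  · intro x
    refine mem_range_chartMap _ _ _ _
      ((fFin N ℓ) ((pullback.fst ((fFin N ℓ ≫ ιFin N ℓ) ≫ igusaTo N ℓ) g) x)) ?_
    rw [chartMap_fst_apply, Scheme.Hom.comp_apply]
  · intro x
    refine mem_range_chartMap _ _ _ _
      ((fInf N ℓ) ((pullback.fst ((fFin N ℓ ≫ ιFin N ℓ) ≫ igusaTo N ℓ) g) x)) ?_
    rw [chartMap_fst_apply, ← Scheme.Hom.comp_apply, ← glue_condition]

/-- If `A_fin ⊗ K` is a domain in which `j ⊗ 1 ≠ 0`, then `A_mid ⊗ K` is nontrivial. -/
theorem nontrivial_mid_of_fin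
    (hFin : IsDomain (chartAlgFin N ℓ ⊗[↥(GaloisRep.ratLocalizedAt ℓ)] K))
    (hj : (jChartFin N ℓ ⊗ₜ[↥(GaloisRep.ratLocalizedAt ℓ)] (1 : K)) ≠ 0) :
    Nontrivial (chartAlgMid N ℓ ⊗[↥(GaloisRep.ratLocalizedAt ℓ)] K) :=
  nontrivial_tensor_of_away (inclFin N ℓ) (jChartFin N ℓ) (isLocalization_away_inclFin N ℓ) hj

/-- Variant of `igusa_pullback_isIntegral` with the overlap condition replaced by
`j ⊗ 1 ≠ 0` in `A_fin ⊗ K`. -/
theorem igusa_pullback_isIntegral_of_ne_zero
    (hFin : IsDomain (chartAlgFin N ℓ ⊗[↥(GaloisRep.ratLocalizedAt ℓ)] K))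
    (hInf : IsDomain (chartAlgInf N ℓ ⊗[↥(GaloisRep.ratLocalizedAt ℓ)] K))
    (hj : (jChartFin N ℓ ⊗ₜ[↥(GaloisRep.ratLocalizedAt ℓ)] (1 : K)) ≠ 0) :
    IsIntegral ↑(pullback (igusaTo N ℓ)
      (Spec.map (CommRingCat.ofHom (algebraMap ↥(GaloisRep.ratLocalizedAt ℓ) K)))) :=
  igusa_pullback_isIntegral N ℓ K hFin hInf (nontrivial_mid_of_fin N ℓ K hFin hj)

/-- Variant: it suffices to embed `A_fin ⊗ K` and `A_inf ⊗ K` into domains (for instance
`K((q))`), with `j ⊗ 1` not mapping to zero. -/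
theorem igusa_pullback_isIntegral_of_embeddings {D₁ D₂ : Type*} [CommRing D₁] [IsDomain D₁]
    [CommRing D₂] [IsDomain D₂]
    (ρ₁ : chartAlgFin N ℓ ⊗[↥(GaloisRep.ratLocalizedAt ℓ)] K →+* D₁)
    (h₁ : Function.Injective ρ₁)
    (ρ₂ : chartAlgInf N ℓ ⊗[↥(GaloisRep.ratLocalizedAt ℓ)] K →+* D₂)
    (h₂ : Function.Injective ρ₂)
    (hj : ρ₁ (jChartFin N ℓ ⊗ₜ[↥(GaloisRep.ratLocalizedAt ℓ)] (1 : K)) ≠ 0) :
    IsIntegral ↑(pullback (igusaTo N ℓ)
      (Spec.map (CommRingCat.ofHom (algebraMap ↥(GaloisRep.ratLocalizedAt ℓ) K)))) := by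
  have hFin : IsDomain (chartAlgFin N ℓ ⊗[↥(GaloisRep.ratLocalizedAt ℓ)] K) :=
    h₁.isDomain ρ₁
  have hInf : IsDomain (chartAlgInf N ℓ ⊗[↥(GaloisRep.ratLocalizedAt ℓ)] K) :=
    h₂.isDomain ρ₂
  refine igusa_pullback_isIntegral_of_ne_zero N ℓ K hFin hInf fun h => hj ?_
  rw [h, map_zero]

end Igusa

end Fermat.Agent.S28.SchemeGlue
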