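import Mathlib
import Fermat.Agent.S28.TensorDomain
import Fermat.Agent.S28.SchemeGlue
import Fermat.Agent.S28.Gauss
import Fermat.Agent.S28.ChartInf
import Fermat.Agent.S28.Reduction
import Fermat.Prelude.Def_ModularCurve_JqCoeff
import Fermat.Prelude.Thm_ModularCurve_coeff_jqModC_neg_one

/-!
# P-S28: final assembly (helper60), namespace `Fermat.Agent.S28.Assembly`

* `jqModCInv K` : the inverse series `1/j = q (1 + ⋯)⁻¹` over any commutative ring, with
  `jqModC_mul_jqModCInv`.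
* `igusa_pullback_isIntegral_of_reductions` (layer 1): reduction maps
  `φ : chartAlg → 𝔽_ℓ((q))` with kernel `ℓ·chartAlg` on the two charts give the S28 statement
  (WP-T `TensorDomain` + WP-E `SchemeGlue`).
* `igusa_pullback_isIntegral_of_finite_chart` (layer 2): with the chart reduction theorem
  (WP-D, helper82's `chart_reduction`), the WP-C data on the FINITE chart only (`ω` integral over `ℤ_(ℓ)[j]`, spanning, independent reductions)
  give the S28 statement; the chart at infinity is obtained through `ChartInf`.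
* `FiniteChartData N ℓ : Prop` (what WP-C has to deliver) and
  `igusa_pullback_isIntegral_of_finiteChartData`.
-/

set_option autoImplicit false

open AlgebraicGeometry CategoryTheory CategoryTheory.Limits TensorProduct
open ModularCurve ModularCurve.IgusaScheme Polynomial

noncomputable section

namespace Fermat.Agent.S28.Assembly

open Fermat.Agent.S28

section JInv

variable (K : Type*) [CommRing K]

/-- the inverse of the `q`-expansion of `j`, `1/j = q (1 + ⋯)⁻¹`. -/
def jqModCInv : LaurentSeries K :=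
  HahnSeries.single (1 : ℤ) 1 *
    HahnSeries.ofPowerSeries ℤ K (PowerSeries.invOfUnit (jNum.map (Int.castRingHom K)) 1)

theorem jqModC_mul_jqModCInv : jqModC K * jqModCInv K = 1 := by
  have h1 : (jNum.map (Int.castRingHom K)) *
      PowerSeries.invOfUnit (jNum.map (Int.castRingHom K)) 1 = 1 := by
    apply PowerSeries.mul_invOfUnit
    rw [← PowerSeries.coeff_zero_eq_constantCoeff, PowerSeries.coeff_map,
      PowerSeries.coeff_zero_eq_constantCoeff, constantCoeff_jNum]
    simp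
  rw [jqModC, jqModCInv]
  calc HahnSeries.single (-1 : ℤ) (1 : K) *
          HahnSeries.ofPowerSeries ℤ K (jNum.map (Int.castRingHom K)) *
        (HahnSeries.single (1 : ℤ) 1 *
          HahnSeries.ofPowerSeries ℤ K (PowerSeries.invOfUnit (jNum.map (Int.castRingHom K)) 1))
      = (HahnSeries.single (-1 : ℤ) (1 : K) * HahnSeries.single (1 : ℤ) 1) *
        (HahnSeries.ofPowerSeries ℤ K (jNum.map (Int.castRingHom K)) *
          HahnSeries.ofPowerSeries ℤ K
            (PowerSeries.invOfUnit (jNum.map (Int.castRingHom K)) 1)) := by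
        ring
    _ = 1 := by
        have h2 : HahnSeries.ofPowerSeries ℤ K (jNum.map (Int.castRingHom K)) *
            HahnSeries.ofPowerSeries ℤ K
              (PowerSeries.invOfUnit (jNum.map (Int.castRingHom K)) 1) = 1 := by
          rw [← map_mul, h1, map_one]
        have h3 : HahnSeries.single (-1 : ℤ) (1 : K) * HahnSeries.single (1 : ℤ) 1 = 1 := by
          rw [HahnSeries.single_mul_single]
          simp
        rw [h2, h3, one_mul]

end JInv

section Layer1

variable (N : ℕ) [NeZero N] (ℓ : ℕ) [Fact ℓ.Prime]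
  (K : Type) [Field K] [CharP K ℓ] [Algebra ↥(GaloisRep.ratLocalizedAt ℓ) K]

/-- **Assembly, layer 1.** Reduction maps on the two chart algebras with kernel `ℓ A` give
integrality of the special fibre. -/
theorem igusa_pullback_isIntegral_of_reductions
    (φfin : ↥(chartAlgFin N ℓ) →+* LaurentSeries (ZMod ℓ))
    (hfin : ∀ a, φfin a = 0 → ∃ b, a = (ℓ : ↥(chartAlgFin N ℓ)) * b)
    (hjfin : φfin (jChartFin N ℓ) ≠ 0)
    (φinf : ↥(chartAlgInf N ℓ) →+* LaurentSeries (ZMod ℓ))
    (hinf : ∀ a, φinf a = 0 → ∃ b, a = (ℓ : ↥(chartAlgInf N ℓ)) * b) :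
    IsIntegral ↑(pullback (igusaTo N ℓ)
      (Spec.map (CommRingCat.ofHom (algebraMap ↥(GaloisRep.ratLocalizedAt ℓ) K)))) := by
  refine SchemeGlue.igusa_pullback_isIntegral_of_embeddings N ℓ K
    (tensorHom ℓ K φfin).toRingHom (tensorHom_injective ℓ K hfin)
    (tensorHom ℓ K φinf).toRingHom (tensorHom_injective ℓ K hinf) ?_
  intro h0
  apply hjfin
  ext n
  have h1 := congrArg (fun x : LaurentSeries K => x.coeff n) h0
  simp only [AlgHom.toRingHom_eq_coe, RingHom.coe_coe, HahnSeries.coeff_zero] at h1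
  rw [tensorHom_tmul_coeff, mul_one] at h1
  have hinj : Function.Injective (ZMod.castHom (dvd_refl ℓ) K) := RingHom.injective _
  rw [HahnSeries.coeff_zero]
  exact hinj (by rw [h1, map_zero])

end Layer1

section Layer2

variable (N : ℕ) [NeZero N] (ℓ : ℕ) [Fact ℓ.Prime]

set_option quotPrecheck false in
local notation "ℤℓ" => ↥(GaloisRep.ratLocalizedAt ℓ)
set_option quotPrecheck false in
local notation "F" => ↥(modularFunctionFieldFull N)

omit [Fact ℓ.Prime] in
theorem embLS_jqModC : embLS ℓ (jqModC ℤℓ) = jq :=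
  map_jqModC (algebraMap ℤℓ ℚ)

theorem redLS_jqModC : redLS ℓ (jqModC ℤℓ) = jqModC (ZMod ℓ) :=
  map_jqModC (redZ ℓ)

omit [Fact ℓ.Prime] in
theorem embLS_jqModCInv : embLS ℓ (jqModCInv ℤℓ) = jq⁻¹ := by
  apply eq_inv_of_mul_eq_one_right
  rw [← embLS_jqModC ℓ, ← map_mul, jqModC_mul_jqModCInv, map_one]

/-- **Assembly, layer 2.** From the WP-C data on the finite chart (a family `ω` integral over
`ℤ_(ℓ)[j]`, spanning `F` over `ℚ(j)`, with independent reductions) and the chart reduction theorem,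
the special fibre of the Igusa scheme is integral. -/
theorem igusa_pullback_isIntegral_of_finite_chart
    (K : Type) [Field K] [CharP K ℓ] [Algebra ℤℓ K]
    {ι : Type} [Fintype ι] [Nonempty ι] (ω : ι → F) (ω0 : ι → LaurentSeries ℤℓ)
    (hω0 : ∀ i, embLS ℓ (ω0 i) = (ω i : LaurentSeries ℚ))
    (hωA : ∀ i, ω i ∈ chartAlg N ℓ {jFull N})
    (hspan : ∀ y : F, ∃ Q : ℤℓ[X], Q ≠ 0 ∧ ∃ P : ι → ℤℓ[X],
      aeval (jFull N) Q * y = ∑ i, aeval (jFull N) (P i) * ω i)
    (hind : ∀ c : ι → (ZMod ℓ)[X],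
      ∑ i, aeval (redLS ℓ (jqModC ℤℓ)) (c i) * redLS ℓ (ω0 i) = 0 → ∀ i, c i = 0) :
    IsIntegral ↑(pullback (igusaTo N ℓ)
      (Spec.map (CommRingCat.ofHom (algebraMap ℤℓ K)))) := by
  -- the finite chart
  have hw0fin : embLS ℓ (jqModC ℤℓ) = ((jFull N : F) : LaurentSeries ℚ) := embLS_jqModC ℓ
  obtain ⟨φfin, hφfin2, hfin⟩ :=
    chart_reduction N ℓ (jFull N) (jqModC ℤℓ) hw0fin ω ω0 hω0 hωA hspan hind
  have hjfin : φfin (jChartFin N ℓ) ≠ 0 := by
    rw [hφfin2 (jChartFin N ℓ) (jqModC ℤℓ) hw0fin, redLS_jqModC]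
    intro h0
    have := coeff_jqModC_neg_one (ZMod ℓ)
    rw [h0, HahnSeries.coeff_zero] at this
    exact zero_ne_one this
  -- the chart at infinity
  have hjw : jFull N * (jFull N)⁻¹ = 1 := mul_inv_cancel₀ (jFull_ne_zero N)
  have hw0inf : embLS ℓ (jqModCInv ℤℓ) = (((jFull N)⁻¹ : F) : LaurentSeries ℚ) := by
    rw [embLS_jqModCInv]
    rfl
  have hωint : ∀ i, IsIntegral (Algebra.adjoin ℤℓ {jFull N}) (ω i) := fun i =>
    (mem_chartAlg_iff N ℓ).mp (hωA i)
  obtain ⟨E, hE⟩ := exists_isIntegral_family_mul_inv_pow hjw ω hωint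
  have hω0' : ∀ i, embLS ℓ (ω0 i * jqModCInv ℤℓ ^ E i) =
      ((ω i * (jFull N)⁻¹ ^ E i : F) : LaurentSeries ℚ) := by
    intro i
    rw [map_mul, map_pow, hω0 i, hw0inf]
    rfl
  have hωA' : ∀ i, ω i * (jFull N)⁻¹ ^ E i ∈ chartAlg N ℓ {(jFull N)⁻¹} := fun i =>
    (mem_chartAlg_iff N ℓ).mpr (hE i)
  have hspan' := hspan_inv (k := ℤℓ) hjw ω E hspan
  have hjw0 : redLS ℓ (jqModC ℤℓ) * redLS ℓ (jqModCInv ℤℓ) = 1 := by
    rw [← map_mul, jqModC_mul_jqModCInv, map_one]
  have hind' : ∀ c : ι → (ZMod ℓ)[X],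
      ∑ i, aeval (redLS ℓ (jqModCInv ℤℓ)) (c i) * redLS ℓ (ω0 i * jqModCInv ℤℓ ^ E i) = 0 →
      ∀ i, c i = 0 := by
    intro c hc
    refine hind_inv (k := ZMod ℓ) hjw0 (fun i => redLS ℓ (ω0 i)) E hind c ?_
    simpa only [map_mul, map_pow] using hc
  obtain ⟨φinf, -, hinf⟩ := chart_reduction N ℓ ((jFull N)⁻¹) (jqModCInv ℤℓ) hw0inf
    (fun i => ω i * (jFull N)⁻¹ ^ E i) (fun i => ω0 i * jqModCInv ℤℓ ^ E i) hω0' hωA' hspan' hind'
  exact igusa_pullback_isIntegral_of_reductions N ℓ K φfin hfin hjfin φinf hinf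

/-- The WP-C deliverable on the finite chart, as a proposition: a finite family `ω` of elements of
the function field, with `ℓ`-integral `q`-expansions `ω0`, integral over `ℤ_(ℓ)[j]`, spanning `F`
over `ℚ(j)` and with reductions mod `ℓ` linearly independent over `𝔽_ℓ[j̄]`. -/
def FiniteChartData : Prop :=
  ∃ (ι : Type) (_ : Fintype ι) (_ : Nonempty ι) (ω : ι → F) (ω0 : ι → LaurentSeries ℤℓ),
    (∀ i, embLS ℓ (ω0 i) = (ω i : LaurentSeries ℚ)) ∧
    (∀ i, ω i ∈ chartAlg N ℓ {jFull N}) ∧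
    (∀ y : F, ∃ Q : ℤℓ[X], Q ≠ 0 ∧ ∃ P : ι → ℤℓ[X],
      aeval (jFull N) Q * y = ∑ i, aeval (jFull N) (P i) * ω i) ∧
    (∀ c : ι → (ZMod ℓ)[X],
      ∑ i, aeval (redLS ℓ (jqModC ℤℓ)) (c i) * redLS ℓ (ω0 i) = 0 → ∀ i, c i = 0)

/-- **Assembly, final form.** `FiniteChartData N ℓ` implies the S28 statement for `N, ℓ`. -/
theorem igusa_pullback_isIntegral_of_finiteChartData (h : FiniteChartData N ℓ)
    (K : Type) [Field K] [CharP K ℓ] [Algebra ℤℓ K] :
    IsIntegral ↑(pullback (igusaTo N ℓ)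
      (Spec.map (CommRingCat.ofHom (algebraMap ℤℓ K)))) := by
  obtain ⟨ι, _, _, ω, ω0, hω0, hωA, hspan, hind⟩ := h
  exact igusa_pullback_isIntegral_of_finite_chart N ℓ K ω ω0 hω0 hωA hspan hind

end Layer2

end Fermat.Agent.S28.Assembly
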