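import Fermat.Agent.S28.Defs
import Mathlib.Data.Nat.Factors

set_option autoImplicit false

noncomputable section

open HahnSeries ModularCurve Polynomial

namespace Fermat.Agent.S28

/-- The chain of divisors `1 = d_0 ∣ d_1 ∣ ⋯ ∣ d_m = N`, `d_t = p_1 ⋯ p_t` with
`p_1 ≤ p_2 ≤ ⋯ ≤ p_m` the prime factors of `N` with multiplicity. -/
def chainD (N t : ℕ) : ℕ := (N.primeFactorsList.take t).prod

/-- The prime `p_{t+1}` with `d_{t+1} = d_t * p_{t+1}` (`0` if `t ≥ m`). -/
def chainP (N t : ℕ) : ℕ := N.primeFactorsList.getD t 0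

/-- The number of steps `m` of the chain. -/
def chainLen (N : ℕ) : ℕ := N.primeFactorsList.length

/-- Degree of the step `d_t → d_{t+1}`: `p + 1` if `p = p_{t+1}` is a new prime, `p` otherwise. -/
def chainDeg (N t : ℕ) : ℕ :=
  if 1 ≤ t ∧ chainP N t = chainP N (t - 1) then chainP N t else chainP N t + 1

theorem chainD_zero (N : ℕ) : chainD N 0 = 1 := by simp [chainD]

theorem chainD_ne_zero (N t : ℕ) : chainD N t ≠ 0 := by
  unfold chainD
  intro h
  rw [List.prod_eq_zero_iff] at h
  have := List.mem_of_mem_take h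
  exact (Nat.pos_of_mem_primeFactorsList this).ne' rfl

instance chainD_neZero (N t : ℕ) : NeZero (chainD N t) := ⟨chainD_ne_zero N t⟩

theorem chainD_succ (N t : ℕ) (ht : t < chainLen N) :
    chainD N (t + 1) = chainD N t * chainP N t := by
  unfold chainD chainP chainLen at *
  rw [List.take_succ_eq_append_getElem ht, List.prod_append, List.prod_singleton]
  congr 1
  rw [← List.getElem_eq_getD (h := ht) 0]

theorem chainD_len (N : ℕ) (hN : N ≠ 0) : chainD N (chainLen N) = N := by
  unfold chainD chainLen
  rw [List.take_length, Nat.prod_primeFactorsList hN]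

theorem chainP_prime (N t : ℕ) (ht : t < chainLen N) : (chainP N t).Prime := by
  unfold chainP chainLen at *
  rw [← List.getElem_eq_getD (h := ht) 0]
  exact Nat.prime_of_mem_primeFactorsList (List.getElem_mem ht)

theorem chainP_dvd (N t : ℕ) (ht : t < chainLen N) : chainP N t ∣ N := by
  unfold chainP chainLen at *
  rw [← List.getElem_eq_getD (h := ht) 0]
  exact Nat.dvd_of_mem_primeFactorsList (List.getElem_mem ht)

/-- Exponent vectors of the reduced monomials. -/
abbrev ChainIdx (N : ℕ) : Type := (t : Fin (chainLen N)) → Fin (chainDeg N t)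

/-- The chain generator `y_t = j(q^{d_t})` over a commutative ring `R`. -/
def chainGen (R : Type*) [CommRing R] (N t : ℕ) : LaurentSeries R :=
  qExpand R (chainD N t) (jqModC R)

/-- The reduced monomial `∏_{t < m} y_{t+1} ^ κ_t`. -/
def chainMonomial (R : Type*) [CommRing R] (N : ℕ) (κ : ChainIdx N) : LaurentSeries R :=
  ∏ t : Fin (chainLen N), chainGen R N (t + 1) ^ (κ t : ℕ)

theorem coeffMap_chainGen {R S : Type*} [CommRing R] [CommRing S] (f : R →+* S) (N t : ℕ) :
    coeffMap f (chainGen R N t) = chainGen S N t := by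
  unfold chainGen
  rw [coeffMap_qExpand]
  congr 1
  exact map_jqModC f

theorem coeffMap_chainMonomial {R S : Type*} [CommRing R] [CommRing S] (f : R →+* S) (N : ℕ)
    (κ : ChainIdx N) : coeffMap f (chainMonomial R N κ) = chainMonomial S N κ := by
  unfold chainMonomial
  rw [map_prod]
  refine Finset.prod_congr rfl fun t _ => ?_
  rw [map_pow, coeffMap_chainGen]

end Fermat.Agent.S28
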